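import Mathlib

/-!
# S33 / M1 : the formal argument for (G')        key `S33/M1-ALGG`  (Mathlib only, ~150 lines)

`W` an abelian group, `a s : W →+ W` (`s : G`; NO group structure on `G` is used), `T : W →+ W` commuting with the `a s`, `χ s c` = "`s` acts on `μ_p` by the exponent `c`".
`O1 z` : `∀ s s' c, χ s c → a s (a s' z - z) = c • (a s' z - z)`.

## Proof
(i)   `O1 z ⟹ O1 (T z)`    [`a s (a s' (T z) - T z) = T (a s (a s' z - z))`].
(ii)  `O1 z`, `χ s c ⟹ O1 (a s z - c • z)`.   Put `y t := a t z - z`; `O1 z` says `a s₁ (y t) = c₁ • y t`.   `x = a s z - c • z = y s + z - c • z`;  for `s₂` choose `c₂` with `χ s₂ c₂` (`hχ`):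
      `a s₂ x - x = (c₂ • y s - y s) + y s₂ - c • y s₂`, a ℤ-combination of `y s, y s₂`; so `a s₁` multiplies it by `c₁`.
(iii) `z ∈ W0`, `O1 z`, `T z = 0 ⟹ z = 0`.   For `s'`: `y = a s' z - z ∈ W0`; `χ s 1 ⟹ a s y = y`; `h_fix`: `Mu y`; `T y = 0`; `h_inj`: `y = 0`.  So `a s' z = z` for all `s'`; `h_fix`, `h_inj`: `z = 0`.
(iv)  `T^[k] z = 0 ⟹ z = 0` (induction on `k`, generalising `z`; `Function.iterate_succ_apply`, (i), `hW0T`).
(v)   `x := a s z - c • z ∈ W0`, `O1 x`.  `h_depth z`: `k`; `T^[k] z ∈ W0`; `h_eps`: `a s (T^[k] z) = c • T^[k] z`; `T^[k] x = a s (T^[k] z) - c • T^[k] z = 0` (induction: `T^[k]` is additive and commutes with `a s`;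
      use `(T ^ k : W →+ W)`/`AddMonoidHom.iterate_map_…` or a small induction).  (iv): `x = 0`.
-/

set_option autoImplicit false

namespace Fermat.Agent.S33.M1

/-- [S33/M1-ALGG] -/
theorem algG {W : Type*} [AddCommGroup W] {G : Type*} (a : G → W →+ W) (T : W →+ W)
    (χ : G → ℕ → Prop) (hχ : ∀ s, ∃ c, χ s c) (hT : ∀ s z, a s (T z) = T (a s z))
    (W0 : AddSubgroup W) (hW0a : ∀ s, ∀ z ∈ W0, a s z ∈ W0) (hW0T : ∀ z ∈ W0, T z ∈ W0)
    (Mu : W → Prop)
    (h_eps : ∀ z ∈ W0, Mu z → ∀ s c, χ s c → a s z = c • z)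
    (h_inj : ∀ z ∈ W0, Mu z → T z = 0 → z = 0)
    (h_fix : ∀ z ∈ W0, (∀ s, χ s 1 → a s z = z) → Mu z)
    (h_depth : ∀ z ∈ W0, ∃ k : ℕ, Mu (T^[k] z))
    (z : W) (hz : z ∈ W0)
    (hO1 : ∀ s s' c, χ s c → a s (a s' z - z) = c • (a s' z - z)) :
    ∀ s c, χ s c → a s z = c • z := by
  -- (i)
  have hi : ∀ z : W, (∀ s s' c, χ s c → a s (a s' z - z) = c • (a s' z - z)) →
      ∀ s s' c, χ s c → a s (a s' (T z) - T z) = c • (a s' (T z) - T z) := by
    intro z hz s s' c hc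
    rw [hT, ← map_sub, hT, hz s s' c hc, map_nsmul]
  -- (ii)
  have hii : ∀ z : W, (∀ s s' c, χ s c → a s (a s' z - z) = c • (a s' z - z)) →
      ∀ s c, χ s c → ∀ s₁ s₂ c₁, χ s₁ c₁ →
        a s₁ (a s₂ (a s z - c • z) - (a s z - c • z)) =
          c₁ • (a s₂ (a s z - c • z) - (a s z - c • z)) := by
    intro z hz s c _ s₁ s₂ c₁ hc₁
    obtain ⟨c₂, hc₂⟩ := hχ s₂
    have hy := hz s₂ s c₂ hc₂
    have e : a s₂ (a s z - c • z) - (a s z - c • z) =
        c₂ • (a s z - z) - (a s z - z) + (a s₂ z - z) - c • (a s₂ z - z) := by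
      simp only [map_sub, map_nsmul] at hy ⊢
      linear_combination (norm := module) hy
    rw [e]
    simp only [map_sub, map_add, map_nsmul]
    have h1 := hz s₁ s c₁ hc₁
    have h2 := hz s₁ s₂ c₁ hc₁
    simp only [map_sub] at h1 h2
    linear_combination (norm := module) (c₂ : ℤ) • h1 - h1 + h2 - (c : ℤ) • h2
  -- (iii)
  have hiii : ∀ z ∈ W0, (∀ s s' c, χ s c → a s (a s' z - z) = c • (a s' z - z)) → T z = 0 →
      z = 0 := by
    intro z hz hO hTz
    have h1 : ∀ s', a s' z = z := by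
      intro s'
      have hy0 : a s' z - z ∈ W0 := W0.sub_mem (hW0a s' z hz) hz
      have hyMu : Mu (a s' z - z) := h_fix _ hy0 (fun s hs => by rw [hO s s' 1 hs, one_smul])
      have hTy : T (a s' z - z) = 0 := by rw [map_sub, ← hT, hTz, map_zero, sub_zero]
      exact sub_eq_zero.mp (h_inj _ hy0 hyMu hTy)
    exact h_inj z hz (h_fix z hz (fun s _ => h1 s)) hTz
  -- (iv)
  have hiv : ∀ k : ℕ, ∀ z ∈ W0, (∀ s s' c, χ s c → a s (a s' z - z) = c • (a s' z - z)) →
      T^[k] z = 0 → z = 0 := by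
    intro k
    induction k with
    | zero => intro z _ _ h; exact h
    | succ k ih =>
      intro z hz hO h
      rw [Function.iterate_succ_apply] at h
      exact hiii z hz hO (ih (T z) (hW0T z hz) (hi z hO) h)
  have hmem : ∀ k : ℕ, ∀ z ∈ W0, T^[k] z ∈ W0 := by
    intro k
    induction k with
    | zero => intro z hz; exact hz
    | succ k ih => intro z hz; rw [Function.iterate_succ_apply]; exact ih _ (hW0T z hz)
  intro s c hc
  have hit : ∀ k : ℕ, ∀ z : W, T^[k] (a s z - c • z) = a s (T^[k] z) - c • T^[k] z := by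
    intro k
    induction k with
    | zero => intro z; rfl
    | succ k ih =>
      intro z
      rw [Function.iterate_succ_apply, Function.iterate_succ_apply, map_sub, map_nsmul, ← hT, ih]
  obtain ⟨k, hk⟩ := h_depth z hz
  have hx0 : a s z - c • z ∈ W0 := W0.sub_mem (hW0a s z hz) (W0.nsmul_mem hz c)
  have hx : a s z - c • z = 0 := by
    refine hiv k _ hx0 (hii z hO1 s c hc) ?_
    rw [hit, h_eps _ (hmem k z hz) hk s c hc, sub_self]
  exact sub_eq_zero.mp hx

end Fermat.Agent.S33.M1
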