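import Fermat.Agent.S33.M1.Depth
import Fermat.Agent.S33.M1.AlgG

/-!
# S33 / M1 : the abstract theorem (G')        key `S33/M1-ABS`  (Mathlib only, ~250 lines)

## Proof
`P := (powMonoidHom p : Fˣ →* Fˣ).range`, `W := Additive (Fˣ ⧸ P)`.   For a monoid hom `φ : F →* F` (`φ = X.ρ s`, `φ = X.T`) the hom `Units.map φ : Fˣ →* Fˣ` maps `P` to `P`, so it induces
`QuotientGroup.map P P (Units.map φ) _ : Fˣ ⧸ P →* Fˣ ⧸ P`, and `MonoidHom.toAdditive` gives `W →+ W`.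
`χ s c := X.ρK s X.ζ = X.ζ ^ c`;  `hχ`: `ρK s ζ` is a `p`-th root of unity, `X.hζ.eq_pow_of_pow_eq_one`.
`U0 : Subgroup Fˣ := {u | PD u ∧ w (u - 1) < 1}` (closed under `*`, `⁻¹`: `u v - 1 = (u-1) v + (v - 1)`, `w v = 1`; `u⁻¹ - 1 = -(u-1) u⁻¹`), `W0 :=` image of `U0` in `W`.
`hW0a`: `ρ_PD`, `ρ s u - 1 = ρ s (u - 1)`, `ρ_val`.   `hW0T`: `T_PD`; `w (T u - 1) < 1`: if `u = 1` trivial, otherwise `X.scale (u-1)` gives `c ≠ 0` with `w (κ c) = w (u-1) < 1`, `y = (u-1)/κ c`, `T_exp`: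
`w (T u - 1 - κ c (ψ y)^p) < w (κ c)`, so `w (T u - 1) ≤ w (κ c) < 1`.
`Mu z := ∃ u : Fˣ, mk u = z ∧ PD u ∧ w (u - 1) ≤ w ϖ^p`.
`mk u = mk u' ↔ ∃ g : Fˣ, u' = u g^p` (`QuotientGroup.eq`, `MonoidHom.mem_range`).
`h_eps` = `mu_eps`; `h_inj` = `t_inj`; `h_fix` = `fix_mu` (+ `Eqv.PD`); `h_depth` = `depth` (the iterate of the induced map is induced by the iterate: small induction).
Finally translate `hO1` and the conclusion (`g = 0` cannot occur in `ρ s u = u^c g^p` because `ρ s u ≠ 0`; in `hO1` the same).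
-/

set_option autoImplicit false

noncomputable section

namespace Fermat.Agent.S33.M1.Ctx

/-! ### the group `Fˣ / (Fˣ)^p` -/

section Quot

variable (p : ℕ) (F : Type) [Field F]

/-- the `p`-th powers -/
def absP : Subgroup Fˣ := (powMonoidHom p : Fˣ →* Fˣ).range

/-- `Fˣ / (Fˣ)^p`, additively -/
abbrev absW : Type := Additive (Fˣ ⧸ absP p F)

variable {F}

/-- the class of a unit -/
def absMk (u : Fˣ) : absW p F := Additive.ofMul (QuotientGroup.mk u)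

theorem absMk_surjective (z : absW p F) : ∃ u : Fˣ, absMk p u = z := by
  obtain ⟨u, hu⟩ := QuotientGroup.mk_surjective (Additive.toMul z)
  exact ⟨u, by rw [absMk, hu]; rfl⟩

theorem absMk_mul (u v : Fˣ) : absMk p (u * v) = absMk p u + absMk p v := rfl

theorem absMk_inv (u : Fˣ) : absMk p u⁻¹ = - absMk p u := rfl

theorem absMk_pow (u : Fˣ) (c : ℕ) : absMk p (u ^ c) = c • absMk p u := rfl

theorem absMk_one : absMk p (1 : Fˣ) = 0 := rfl

theorem absMk_eq_iff {u u' : Fˣ} : absMk p u = absMk p u' ↔ ∃ g : Fˣ, u' = u * g ^ p := by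
  have : absMk p u = absMk p u' ↔ ((u : Fˣ ⧸ absP p F) = (u' : Fˣ ⧸ absP p F)) :=
    Additive.ofMul.injective.eq_iff
  rw [this, QuotientGroup.eq]
  constructor
  · rintro ⟨g, hg⟩
    refine ⟨g, ?_⟩
    have hg' : g ^ p = u⁻¹ * u' := hg
    rw [hg', mul_inv_cancel_left]
  · rintro ⟨g, rfl⟩
    exact ⟨g, by simp⟩

/-- `mk u = mk u'` from a relation in `F` -/
theorem absMk_eq_of {u u' : Fˣ} (hp : p ≠ 0) {g : F} (h : (u' : F) = u * g ^ p) :
    absMk p u = absMk p u' := by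
  have hg : g ≠ 0 := by
    rintro rfl
    rw [zero_pow hp, mul_zero] at h
    exact u'.ne_zero h
  exact (absMk_eq_iff p).2 ⟨Units.mk0 g hg, Units.ext (by simpa using h)⟩

theorem absMk_exists_of {u u' : Fˣ} (h : absMk p u = absMk p u') : ∃ g : F, (u' : F) = u * g ^ p := by
  obtain ⟨g, rfl⟩ := (absMk_eq_iff p).1 h
  exact ⟨g, by simp⟩

/-- the map induced by a multiplicative map -/
def absMap (φ : F →* F) : Fˣ ⧸ absP p F →* Fˣ ⧸ absP p F :=
  QuotientGroup.map (absP p F) (absP p F) (Units.map φ) (by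
    rintro _ ⟨g, rfl⟩
    exact ⟨Units.map φ g, by simp⟩)

/-- the additive map induced by a multiplicative map -/
def absAdd (φ : F →* F) : absW p F →+ absW p F := MonoidHom.toAdditive (absMap p φ)

theorem absAdd_mk (φ : F →* F) (u : Fˣ) : absAdd p φ (absMk p u) = absMk p (Units.map φ u) := rfl

theorem absAdd_iterate (φ : F →* F) (k : ℕ) (u : Fˣ) :
    (absAdd p φ)^[k] (absMk p u) = absMk p ((Units.map φ)^[k] u) := by
  induction k generalizing u with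
  | zero => rfl
  | succ k ih => rw [Function.iterate_succ_apply, Function.iterate_succ_apply, absAdd_mk, ih]

theorem abs_coe_iterate (φ : F →* F) (k : ℕ) (u : Fˣ) :
    (((Units.map φ)^[k] u : Fˣ) : F) = φ^[k] (u : F) := by
  induction k generalizing u with
  | zero => rfl
  | succ k ih => rw [Function.iterate_succ_apply, Function.iterate_succ_apply, ih]; rfl

end Quot

variable {p : ℕ} {K F G : Type} [Field K] [Field F] [Algebra K F] (X : Ctx p K F G)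

theorem abs_w_eq_one {u : F} (h : X.w (u - 1) < 1) : X.w u = 1 := by
  have := X.w.map_one_add_of_lt h
  rwa [add_sub_cancel] at this

theorem abs_w_mul {u v : F} (hu : X.w (u - 1) < 1) (hv : X.w (v - 1) < 1) :
    X.w (u * v - 1) < 1 := by
  have e : u * v - 1 = (u - 1) * v + (v - 1) := by ring
  rw [e]
  refine X.w.map_add_lt ?_ hv
  rw [map_mul, X.abs_w_eq_one hv, mul_one]
  exact hu

theorem abs_w_inv {u : F} (hu : X.w (u - 1) < 1) : X.w (u⁻¹ - 1) < 1 := by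
  have h1 := X.abs_w_eq_one hu
  have hu0 : u ≠ 0 := by
    rintro rfl
    rw [map_zero] at h1
    exact zero_ne_one h1
  have e : u⁻¹ - 1 = -((u - 1) * u⁻¹) := by field_simp; ring
  rw [e, Valuation.map_neg, map_mul, map_inv₀, h1, inv_one, mul_one]
  exact hu

theorem abs_w_T {u : F} (hu : X.w (u - 1) < 1) : X.w (X.T u - 1) < 1 := by
  by_cases h1 : u = 1
  · rw [h1, map_one, sub_self, map_zero]; exact zero_lt_one
  obtain ⟨c, hc⟩ := X.scale (u - 1)
  have hu1 : u - 1 ≠ 0 := sub_ne_zero.mpr h1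
  have hκ : algebraMap K F c ≠ 0 := by
    rw [← X.w.ne_zero_iff, ← hc, X.w.ne_zero_iff]; exact hu1
  have hc0 : c ≠ 0 := by
    rintro rfl
    exact hκ (map_zero _)
  have hc1 : X.V.valuation (algebraMap K F c) < 1 := hc ▸ hu
  have hy : X.V.valuation ((u - 1) / algebraMap K F c) ≤ 1 := by
    rw [map_div₀, hc, div_self ((X.w.ne_zero_iff).2 hκ)]
  have h := X.T_exp c ((u - 1) / algebraMap K F c) hc0 hc1 hy
  have e : 1 + algebraMap K F c * ((u - 1) / algebraMap K F c) = u := by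
    field_simp; ring
  rw [e] at h
  have h2 : X.w (algebraMap K F c * X.ψ ((u - 1) / algebraMap K F c) ^ p) < 1 := by
    rw [map_mul, map_pow, X.ψ_val]
    exact lt_of_le_of_lt (mul_le_of_le_one_right' (pow_le_one₀ zero_le hy)) hc1
  have e2 : X.T u - 1 = (X.T u - 1 - algebraMap K F c * X.ψ ((u - 1) / algebraMap K F c) ^ p) +
      algebraMap K F c * X.ψ ((u - 1) / algebraMap K F c) ^ p := by ring
  rw [e2]
  exact X.w.map_add_lt (h.trans hc1) h2

theorem abs_PD_one : X.PD 1 := by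
  have := X.PD_const 1 one_ne_zero
  rwa [map_one] at this

theorem abs_PD_iterate {u : F} (hu : X.PD u) (k : ℕ) : X.PD (X.T^[k] u) := by
  induction k generalizing u with
  | zero => exact hu
  | succ k ih => rw [Function.iterate_succ_apply]; exact ih (X.T_PD u hu)

/-- the classes of the `u ≡ 1` with divisor divisible by `p` -/
def absW0 : AddSubgroup (absW p F) where
  carrier := {z | ∃ u : Fˣ, X.PD u ∧ X.w ((u : F) - 1) < 1 ∧ absMk p u = z}
  zero_mem' := ⟨1, by simpa using X.abs_PD_one, by simp, rfl⟩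
  add_mem' := by
    rintro _ _ ⟨u, hu, hu1, rfl⟩ ⟨v, hv, hv1, rfl⟩
    exact ⟨u * v, by simpa using X.PD_mul _ _ hu hv, by simpa using X.abs_w_mul hu1 hv1, rfl⟩
  neg_mem' := by
    rintro _ ⟨u, hu, hu1, rfl⟩
    exact ⟨u⁻¹, by simpa using X.PD_inv _ hu, by simpa using X.abs_w_inv hu1, rfl⟩

/-- [S33/M1-ABS] **(G')** abstract form -/
theorem Gprime {u : F} (hu : X.PD u) (h1 : X.w (u - 1) < 1)
    (hO1 : ∀ (s s' : G) (c : ℕ), X.ρK s X.ζ = X.ζ ^ c →
      ∃ g : F, X.ρ s (X.ρ s' u * u⁻¹) = (X.ρ s' u * u⁻¹) ^ c * g ^ p) :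
    ∀ (s : G) (c : ℕ), X.ρK s X.ζ = X.ζ ^ c → ∃ g : F, X.ρ s u = u ^ c * g ^ p := by
  have hp0 : p ≠ 0 := X.hp.ne_zero
  have : NeZero p := ⟨hp0⟩
  let a : G → absW p F →+ absW p F := fun s => absAdd p (X.ρ s : F →* F)
  let T : absW p F →+ absW p F := absAdd p X.T
  let Mu : absW p F → Prop := fun z =>
    ∃ v : Fˣ, absMk p v = z ∧ X.PD v ∧ X.w ((v : F) - 1) ≤ X.w (X.κ X.ϖ) ^ p
  let u₀ : Fˣ := Units.mk0 u (X.PD_ne u hu)
  have key := algG a T (fun s c => X.ρK s X.ζ = X.ζ ^ c) ?_ ?_ X.absW0 ?_ ?_ Mu ?_ ?_ ?_ ?_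
    (absMk p u₀) (show absMk p u₀ ∈ X.absW0 from ⟨u₀, hu, h1, rfl⟩) ?_
  · intro s c hc
    obtain ⟨g, hg⟩ := absMk_exists_of p (key s c hc).symm
    exact ⟨g, hg⟩
  · -- hχ
    intro s
    have h : (X.ρK s X.ζ) ^ p = 1 := by rw [← map_pow, X.hζ.pow_eq_one, map_one]
    obtain ⟨i, -, hi⟩ := X.hζ.eq_pow_of_pow_eq_one h
    exact ⟨i, hi.symm⟩
  · -- hT
    intro s z
    obtain ⟨v, rfl⟩ := absMk_surjective p z
    show absMk p _ = absMk p _
    congr 1
    exact Units.ext (X.T_ρ s v)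
  · -- hW0a
    rintro s _ ⟨v, hv, hv1, rfl⟩
    refine ⟨Units.map (X.ρ s : F →* F) v, X.ρ_PD s _ hv, ?_, rfl⟩
    show X.w (X.ρ s v - 1) < 1
    rw [← map_one (X.ρ s), ← map_sub]
    exact (X.ρ_val s _).trans_lt hv1
  · -- hW0T
    rintro _ ⟨v, hv, hv1, rfl⟩
    exact ⟨Units.map X.T v, X.T_PD _ hv, X.abs_w_T hv1, rfl⟩
  · -- h_eps
    rintro _ - ⟨v, rfl, hv, hv1⟩ s c hc
    obtain ⟨g, hg⟩ := X.mu_eps hv hv1 s c hc
    exact (absMk_eq_of p (u := v ^ c) (u' := Units.map (X.ρ s : F →* F) v) hp0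
      (by simpa using hg)).symm
  · -- h_inj
    rintro _ - ⟨v, rfl, hv, hv1⟩ hT
    obtain ⟨g, hg⟩ := absMk_exists_of p (u := 1) (u' := Units.map X.T v) hT.symm
    obtain ⟨g', hg'⟩ := X.t_inj hv hv1 ⟨g, by simpa using hg⟩
    exact (absMk_eq_of p (u := 1) (u' := v) hp0 (by simpa using hg')).symm
  · -- h_fix
    rintro _ ⟨v, hv, hv1, rfl⟩ hfix
    obtain ⟨v', ⟨g, hg0, hg⟩, hv'⟩ := X.fix_mu hv hv1 (fun s hs => by
      have h : X.ρK s X.ζ = X.ζ ^ 1 := by rw [pow_one]; exact hs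
      obtain ⟨g, hg⟩ := absMk_exists_of p (hfix s h).symm
      exact ⟨g, hg⟩)
    have hv'0 : v' ≠ 0 := by
      rw [hg]; exact mul_ne_zero v.ne_zero (pow_ne_zero _ hg0)
    refine ⟨Units.mk0 v' hv'0, (absMk_eq_of p hp0 (g := g) (by simpa using hg)).symm, ?_, hv'⟩
    exact Eqv.PD (X := X) ⟨g, hg0, hg⟩ hv
  · -- h_depth
    rintro _ ⟨v, hv, hv1, rfl⟩
    obtain ⟨k, v', ⟨g, hg0, hg⟩, hv'⟩ := X.depth hv hv1
    have hk0 : X.T^[k] (v : F) ≠ 0 := X.PD_ne _ (X.abs_PD_iterate hv k)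
    have hv'0 : v' ≠ 0 := by
      rw [hg]; exact mul_ne_zero hk0 (pow_ne_zero _ hg0)
    refine ⟨k, Units.mk0 v' hv'0, ?_, Eqv.PD (X := X) ⟨g, hg0, hg⟩ (X.abs_PD_iterate hv k), hv'⟩
    show _ = (absAdd p X.T)^[k] (absMk p v)
    rw [absAdd_iterate]
    refine (absMk_eq_of p hp0 (g := g) ?_).symm
    rw [abs_coe_iterate]
    exact hg
  · -- hO1
    intro s s' c hc
    obtain ⟨g, hg⟩ := hO1 s s' c hc
    have e : a s' (absMk p u₀) - absMk p u₀ =
        absMk p (Units.map (X.ρ s' : F →* F) u₀ * u₀⁻¹) := by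
      rw [absMk_mul, absMk_inv]
      exact sub_eq_add_neg (G := absW p F) _ _
    rw [e]
    refine (absMk_eq_of p (u := (Units.map (X.ρ s' : F →* F) u₀ * u₀⁻¹) ^ c) hp0 (g := g) ?_).symm
    simpa [u₀] using hg

end Fermat.Agent.S33.M1.Ctx
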