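import Fermat.Agent.S33.M1.Pi

/-!
# S33 / M1 : binomial estimates        keys `S33/M1-BIN-a` (bin0, bin0', bin1, bin2, bin_le, sub_pow_lt), `S33/M1-BIN-b` (root_close, root_close_pi, as_of_pow)
(Mathlib only; ~150 + ~120 lines.)   `w = X.w`, `ϖ = X.κ X.ϖ ∈ F`; facts from `Pi.lean`: `w ϖ < 1`, `w ϖ ^ (p-1) = w p`, `w (p + ϖ^(p-1)) < w p`, `w ϖ ≠ 0`.

## BIN-a
`(1 + x)^p = ∑_{i ≤ p} C(p,i) x^i` (`add_pow`, `Finset.sum_range_succ`, `Finset.sum_range_succ'`); `p ∣ C(p,i)` for `0 < i < p` (`Nat.Prime.dvd_choose_self`);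
`w (n : F) ≤ 1` for `n : ℕ` (`Valuation.map_natCast_le_one`?? otherwise: `(n : F) ∈ X.V` + `ValuationSubring.valuation_le_one_iff`);
`Valuation.map_sum_le`.
* `bin0`  : every term `C(p,i) x^i`, `0 < i < p`, has `w ≤ w p * w x`.
* `bin0'` : every term with `2 ≤ i < p` has `w ≤ w p * w x ^ 2`; the term `i = 1` is `p x`.
* `bin1`  : `w p * w x = w ϖ ^ (p-1) * w x < w x ^ (p-1) * w x = w x ^ p` (`pow_lt_pow_left₀`, `p - 1 ≠ 0`, `w x ≠ 0`).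
* `bin2`  : `x = ϖ h`.  `(1+x)^p - 1 - ϖ^p (h^p - h) = [(1+x)^p - 1 - x^p - p x] + (p + ϖ^(p-1)) ϖ h`; first bracket `≤ w p * w ϖ ^ 2 = w ϖ^(p+1) < w ϖ^p`;
            second `< w p * w ϖ = w ϖ ^ p`.
* `bin_le`: `(1+x)^p - 1 = [(1+x)^p - 1 - x^p] + x^p`.
* `sub_pow_lt` : `a^p = (b + (a-b))^p`; or `add_pow` for `(a + (-b))^p`, `(-b)^p = - b^p` (`Odd.neg_pow`, `p` odd: `X.hp.odd_of_ne_two X.hp2`); middle terms have `w ≤ w p < 1`.
## BIN-b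
* `root_close` : `w (g^p) = 1` (`g^p = 1 + (g^p - 1)`, `Valuation.map_add_eq_of_lt_right`/`map_one_add_of_lt`), so `w g = 1` (`pow_eq_one_iff`);
  `sub_pow_lt` with `a = g, b = 1`: `w ((g-1)^p) < 1`, so `w (g - 1) < 1` (`pow_lt_one_iff_of_nonneg`/`by_contra` + `one_le_pow₀`).
* `root_close_pi` : `x = g - 1`, `w x < 1`.  If `w ϖ < w x`: `bin1` gives `w ((1+x)^p - 1 - x^p) < w x^p = w (x^p)`, so `w (g^p - 1) = w x ^ p > w ϖ ^ p`
  (`Valuation.map_add_eq_of_lt_left`…).  Contradiction.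
* `as_of_pow` : `w (g^p - 1) = w (ϖ^p y) ≤ w ϖ^p`; `root_close_pi`: `h := (g - 1)/ϖ`, `w h ≤ 1`, `g = 1 + ϖ h`; `bin2`: `w (ϖ^p y - ϖ^p (h^p - h)) < w ϖ ^ p`; divide by `w ϖ ^ p ≠ 0`.
-/

set_option autoImplicit false

noncomputable section

namespace Fermat.Agent.S33.M1.Ctx

variable {p : ℕ} {K F G : Type} [Field K] [Field F] [Algebra K F] (X : Ctx p K F G)

/-! ### BIN-a -/

theorem binAux_Q {x : F} (hx : X.w x ≤ 1) : X.w (asQ p x) ≤ 1 := asQ_mem X.w.integer p hx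

theorem binAux_Q' {x : F} (hx : X.w x ≤ 1) : X.w (asQ' p x) ≤ 1 := asQ'_mem X.w.integer p hx

theorem binAux_pos_ϖ : 0 < X.w (X.κ X.ϖ) := zero_lt_iff.mpr X.w_ϖ_ne_zero

theorem binAux_pow_succ : X.w (p : F) * X.w (X.κ X.ϖ) = X.w (X.κ X.ϖ) ^ p := by
  rw [← X.w_ϖ_pow, ← pow_succ, show p - 1 + 1 = p by have := X.hp.pos; omega]

/-- [S33/M1-BIN-a] -/
theorem bin0 {x : F} (hx : X.w x ≤ 1) : X.w ((1 + x) ^ p - 1 - x ^ p) ≤ X.w (p : F) * X.w x := by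
  have e : (1 + x) ^ p - 1 - x ^ p = (p : F) * x * asQ p x := by
    rw [one_add_pow_eq X.hp]; ring
  rw [e, map_mul, map_mul]
  exact mul_le_of_le_one_right' (X.binAux_Q hx)

/-- [S33/M1-BIN-a] -/
theorem bin0' {x : F} (hx : X.w x ≤ 1) :
    X.w ((1 + x) ^ p - 1 - x ^ p - (p : F) * x) ≤ X.w (p : F) * X.w x ^ 2 := by
  have e : (1 + x) ^ p - 1 - x ^ p - (p : F) * x = (p : F) * x ^ 2 * asQ' p x := by
    rw [one_add_pow_eq X.hp, asQ_eq X.hp]; ring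
  rw [e, map_mul, map_mul, map_pow]
  exact mul_le_of_le_one_right' (X.binAux_Q' hx)

/-- [S33/M1-BIN-a] -/
theorem bin1 {x : F} (hx : X.w x ≤ 1) (h : X.w (X.κ X.ϖ) < X.w x) :
    X.w ((1 + x) ^ p - 1 - x ^ p) < X.w x ^ p := by
  refine lt_of_le_of_lt (X.bin0 hx) ?_
  have hx0 : 0 < X.w x := lt_of_le_of_lt zero_le h
  have hp1 : p - 1 ≠ 0 := by have := X.hp.two_le; omega
  have h1 : X.w (X.κ X.ϖ) ^ (p - 1) < X.w x ^ (p - 1) := pow_lt_pow_left₀ h zero_le hp1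
  rw [← X.w_ϖ_pow]
  calc X.w (X.κ X.ϖ) ^ (p - 1) * X.w x < X.w x ^ (p - 1) * X.w x := mul_lt_mul_of_pos_right h1 hx0
    _ = X.w x ^ p := by rw [← pow_succ, show p - 1 + 1 = p by have := X.hp.pos; omega]

/-- [S33/M1-BIN-a] -/
theorem bin2 {h : F} (hh : X.w h ≤ 1) :
    X.w ((1 + X.κ X.ϖ * h) ^ p - 1 - X.κ X.ϖ ^ p * (h ^ p - h)) < X.w (X.κ X.ϖ) ^ p := by
  obtain ⟨P, hP⟩ : ∃ P : F, P = X.κ X.ϖ := ⟨_, rfl⟩
  have hP1 : X.w P < 1 := hP ▸ X.w_ϖ_lt_one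
  have hP0 : 0 < X.w P := hP ▸ X.binAux_pos_ϖ
  have hPp : X.w (p : F) * X.w P = X.w P ^ p := hP ▸ X.binAux_pow_succ
  have hPa : X.w ((p : F) + P ^ (p - 1)) < X.w (p : F) := hP ▸ X.w_p_add
  rw [← hP]
  have hx : X.w (P * h) ≤ X.w P := by
    rw [map_mul]; exact mul_le_of_le_one_right' hh
  have e : (1 + P * h) ^ p - 1 - P ^ p * (h ^ p - h) =
      ((1 + P * h) ^ p - 1 - (P * h) ^ p - (p : F) * (P * h)) +
        ((p : F) + P ^ (p - 1)) * P * h := by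
    have e1 : P ^ p = P ^ (p - 1) * P := by
      rw [← pow_succ, show p - 1 + 1 = p by have := X.hp.pos; omega]
    rw [mul_pow, e1]; ring
  rw [e]
  apply Valuation.map_add_lt
  · refine lt_of_le_of_lt (X.bin0' (hx.trans hP1.le)) ?_
    calc X.w (p : F) * X.w (P * h) ^ 2 ≤ X.w (p : F) * X.w P ^ 2 :=
          mul_le_mul_right (pow_le_pow_left₀ zero_le hx 2) _
      _ = X.w P ^ p * X.w P := by rw [pow_two, ← mul_assoc, hPp]
      _ < X.w P ^ p := mul_lt_of_lt_one_right (pow_pos hP0 p) hP1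
  · rw [map_mul, map_mul]
    refine lt_of_le_of_lt (mul_le_of_le_one_right' hh) ?_
    rw [← hPp]
    exact mul_lt_mul_of_pos_right hPa hP0

/-- [S33/M1-BIN-a] -/
theorem bin_le {x : F} (hx : X.w x ≤ 1) :
    X.w ((1 + x) ^ p - 1) ≤ max (X.w (p : F) * X.w x) (X.w x ^ p) := by
  have e : (1 + x) ^ p - 1 = ((1 + x) ^ p - 1 - x ^ p) + x ^ p := by ring
  rw [e]
  refine (X.w.map_add _ _).trans (max_le_max (X.bin0 hx) ?_)
  rw [map_pow]

/-- [S33/M1-BIN-a] -/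
theorem sub_pow_lt {a b : F} (ha : X.w a ≤ 1) (hb : X.w b ≤ 1) :
    X.w ((a - b) ^ p - (a ^ p - b ^ p)) < 1 := by
  have hb' : X.w (-b) ≤ 1 := by rw [Valuation.map_neg]; exact hb
  obtain ⟨r, hr⟩ := exists_add_pow_prime_eq X.hp (⟨a, ha⟩ : X.w.integer) ⟨-b, hb'⟩
  have hr' := congrArg (fun z : X.w.integer => (z : F)) hr
  simp only [Subring.coe_add, Subring.coe_mul, Subring.coe_pow, Subring.coe_natCast] at hr'
  have hodd : (-b) ^ p = - b ^ p := (X.hp.odd_of_ne_two X.hp2).neg_pow b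
  have e : (a - b) ^ p - (a ^ p - b ^ p) = (p : F) * (a * (-b) * (r : F)) := by
    rw [sub_eq_add_neg a b, hr', hodd]; ring
  rw [e, map_mul]
  refine lt_of_le_of_lt (mul_le_of_le_one_right' ?_) X.wp
  rw [map_mul, map_mul]
  exact mul_le_one' (mul_le_one' ha hb') r.2

/-! ### BIN-b -/

/-- [S33/M1-BIN-b] -/
theorem root_close {g : F} (h : X.w (g ^ p - 1) < 1) : X.w (g - 1) < 1 := by
  have h1 : X.w (g ^ p) = 1 := by
    have := Valuation.map_one_add_of_lt X.w h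
    rwa [add_sub_cancel] at this
  have hg : X.w g = 1 := by
    rw [map_pow] at h1
    exact (pow_eq_one_iff.mp h1).resolve_right X.hp.ne_zero
  have h2 := X.sub_pow_lt hg.le (map_one X.w).le
  rw [one_pow] at h2
  have h3 : X.w ((g - 1) ^ p) < 1 := by
    have e : (g - 1) ^ p = ((g - 1) ^ p - (g ^ p - 1)) + (g ^ p - 1) := by ring
    rw [e]
    exact Valuation.map_add_lt _ h2 h
  by_contra hcon
  rw [map_pow] at h3
  exact absurd h3 (not_lt.mpr (one_le_pow₀ (not_lt.mp hcon)))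

/-- [S33/M1-BIN-b] -/
theorem root_close_pi {g : F} (h : X.w (g ^ p - 1) ≤ X.w (X.κ X.ϖ) ^ p) :
    X.w (g - 1) ≤ X.w (X.κ X.ϖ) := by
  have hlt : X.w (g - 1) < 1 :=
    X.root_close (lt_of_le_of_lt h (pow_lt_one₀ zero_le X.w_ϖ_lt_one X.hp.ne_zero))
  by_contra hcon
  have hcon' := not_le.mp hcon
  have h1 := X.bin1 hlt.le hcon'
  rw [add_sub_cancel, ← map_pow] at h1
  have h2 := Valuation.map_add_eq_of_lt_left X.w h1
  rw [add_sub_cancel, map_pow] at h2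
  rw [h2] at h
  exact absurd (pow_lt_pow_left₀ hcon' zero_le X.hp.ne_zero) (not_lt.mpr h)

/-- [S33/M1-BIN-b] the Artin–Schreier endpoint -/
theorem as_of_pow {y g : F} (hy : X.w y ≤ 1) (h : g ^ p = 1 + X.κ X.ϖ ^ p * y) :
    ∃ h : F, X.w h ≤ 1 ∧ X.w (y - (h ^ p - h)) < 1 := by
  have hP0 : X.κ X.ϖ ≠ 0 := (Valuation.ne_zero_iff X.w).mp X.w_ϖ_ne_zero
  have h1 : X.w (g ^ p - 1) ≤ X.w (X.κ X.ϖ) ^ p := by
    rw [h, add_sub_cancel_left, map_mul, map_pow]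
    exact mul_le_of_le_one_right' hy
  have h2 := X.root_close_pi h1
  refine ⟨(g - 1) / X.κ X.ϖ, ?_, ?_⟩
  · rw [map_div₀]
    exact div_le_one_of_le₀ h2 zero_le
  · have hh : X.w ((g - 1) / X.κ X.ϖ) ≤ 1 := by
      rw [map_div₀]
      exact div_le_one_of_le₀ h2 zero_le
    have h3 := X.bin2 hh
    rw [mul_div_cancel₀ _ hP0, add_sub_cancel, h, add_sub_cancel_left, ← mul_sub, map_mul,
      map_pow] at h3
    by_contra hcon
    have h4 := mul_le_mul_right (not_lt.mp hcon) (X.w (X.κ X.ϖ) ^ p)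
    rw [mul_one] at h4
    exact absurd h3 (not_lt.mpr h4)

end Fermat.Agent.S33.M1.Ctx
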