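import Mathlib

/-!
# S33 / M1 : the abstract context of the good reduction level `M1`      (helper15, sub-owner `S33/M1`)

MATHLIB ONLY.  All the files `S33/M1/{Pi,Bin,Desc,Imp,Mu,Rdich,Depth,AlgG,Abs}.lean` work in this abstract context; the instance
(`F = FN M1`, `V = Vinf A M1`, `C b = C0 A (θ1 b)`, `PD = PDiv p`, `G = I_A`, `T = T_p`, `ψ = gal (Frob⁻¹)`) is built in `S33/M1/Inst.lean`.

`X : Ctx p K F G`:
* `K ⊂ F` fields, `X.V` a valuation ring of `F` (Gauss valuation), `X.w = X.V.valuation`; every value is the value of a constant (`scale`);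
  residue characteristic `p` odd; `X.ζ ∈ K` a primitive `p`-th root of unity, `X.ϖ = ζ - 1`;
* `X.C b` (`b : Bool`) the two affine charts (subrings of `V`);
* `X.PD u` : "the divisor of `u` is divisible by `p`";
* `X.ρ s` (`s : G`) the (inertia) automorphisms of `F`, `X.ρK s` their restriction to `K`;
* `X.T : F →* F` the Hecke operator `T_p` (multiplicative), `X.ψ` = inverse Frobenius lift;
* `X.Adm H` : `H ⊂ G` is an admissible (= open) subgroup; the five fields `adm_ex, unif, unif1, h90, retr` are the rational layer (RAT).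
-/

set_option autoImplicit false

noncomputable section

namespace Fermat.Agent.S33.M1

/-- the abstract context -/
structure Ctx (p : ℕ) (K F G : Type) [Field K] [Field F] [Algebra K F] where
  V : ValuationSubring F
  ζ : K
  C : Bool → Subring F
  PD : F → Prop
  ρ : G → F ≃+* F
  ρK : G → K ≃+* K
  T : F →* F
  ψ : F ≃+* F
  Adm : Set G → Prop
  hp : p.Prime
  hp2 : p ≠ 2
  root : ∀ a : K, ∃ b : K, b ^ p = a
  hζ : IsPrimitiveRoot ζ p
  wp : V.valuation (p : F) < 1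
  scale : ∀ x : F, ∃ a : K, V.valuation x = V.valuation (algebraMap K F a)
  -- the charts
  C_le : ∀ b, ∀ x ∈ C b, V.valuation x ≤ 1
  C_const : ∀ (b) (a : K), V.valuation (algebraMap K F a) ≤ 1 → algebraMap K F a ∈ C b
  C_sat : ∀ (b) (a : K) (x : F), a ≠ 0 → V.valuation x ≤ 1 → algebraMap K F a * x ∈ C b → x ∈ C b
  C_root : ∀ (b) (x : F), x ^ p ∈ C b → x ∈ C b
  C_normal : ∀ (b) (x : F), V.valuation x ≤ 1 → ∀ c ∈ C b,
    (V.valuation (x ^ p - c) < 1 ∨ V.valuation (x ^ p - x - c) < 1) →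
      ∃ c' ∈ C b, V.valuation (x - c') < 1
  C_glob : ∀ c₀ ∈ C false, ∀ c₁ ∈ C true, V.valuation (c₀ - c₁) < 1 →
    ∃ a : K, V.valuation (c₀ - algebraMap K F a) < 1
  -- divisors divisible by `p`
  PD_ne : ∀ u, PD u → u ≠ 0
  PD_mul : ∀ u v, PD u → PD v → PD (u * v)
  PD_inv : ∀ u, PD u → PD u⁻¹
  PD_pow : ∀ g : F, g ≠ 0 → PD (g ^ p)
  PD_const : ∀ a : K, a ≠ 0 → PD (algebraMap K F a)
  PD_loc : ∀ u, PD u → V.valuation (u - 1) < 1 → ∀ b, ∃ f : F, V.valuation (f - 1) < 1 ∧ f ^ p * u ∈ C b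
  cech : ∀ (c' : K) (v f₀ f₁ : F), V.valuation (algebraMap K F c') < 1 →
    V.valuation (v - 1) ≤ V.valuation (algebraMap K F ((ζ - 1) ^ p * c')) →
    V.valuation (f₀ - 1) ≤ V.valuation (algebraMap K F ((ζ - 1) * c')) →
    V.valuation (f₁ - 1) ≤ V.valuation (algebraMap K F ((ζ - 1) * c')) →
    f₀ ^ p * v ∈ C false → f₁ ^ p * v ∈ C true → ∃ g : F, v = g ^ p
  -- the automorphisms
  ρ_alg : ∀ (s) (a : K), ρ s (algebraMap K F a) = algebraMap K F (ρK s a)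
  ρ_val : ∀ (s) (x : F), V.valuation (ρ s x) = V.valuation x
  ρ_inert : ∀ (s) (x : F), V.valuation x ≤ 1 → V.valuation (ρ s x - x) < 1
  ρ_C : ∀ (s) (b), ∀ x ∈ C b, ρ s x ∈ C b
  ρ_PD : ∀ (s) (u), PD u → PD (ρ s u)
  -- the Hecke operator
  T_ρ : ∀ (s) (x : F), ρ s (T x) = T (ρ s x)
  T_PD : ∀ u, PD u → PD (T u)
  ψ_val : ∀ x : F, V.valuation (ψ x) = V.valuation x
  T_exp : ∀ (c : K) (y : F), c ≠ 0 → V.valuation (algebraMap K F c) < 1 → V.valuation y ≤ 1 →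
    V.valuation (T (1 + algebraMap K F c * y) - 1 - algebraMap K F c * ψ y ^ p) <
      V.valuation (algebraMap K F c)
  -- the rational layer
  adm1 : Adm {s | ρK s ζ = ζ}
  adm_ex : ∀ H, Adm H → ∀ x : F, ∃ H', H' ⊆ H ∧ Adm H' ∧ ∀ s ∈ H', ρ s x = x
  unif : ∀ H, Adm H → ∃ π : K, π ≠ 0 ∧ V.valuation (algebraMap K F π) < 1 ∧ (∀ s ∈ H, ρK s π = π) ∧
    ∀ x : F, (∀ s ∈ H, ρ s x = x) → x ≠ 0 → ∃ n : ℤ, V.valuation x = V.valuation (algebraMap K F π) ^ n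
  unif1 : ∀ x : F, (∀ s, ρK s ζ = ζ → ρ s x = x) → x ≠ 0 →
    ∃ n : ℤ, V.valuation x = V.valuation (algebraMap K F (ζ - 1)) ^ n
  h90 : ∀ H, Adm H → ∀ u : F, u ≠ 0 → (∀ s ∈ H, ∃ g : F, ρ s u = u * g ^ p) →
    ∃ h : F, h ≠ 0 ∧ ∀ s ∈ H, ρ s (u * h ^ p) = u * h ^ p
  retr : ∀ H, Adm H → ∀ Λ : AddSubgroup F, (∀ s ∈ H, ∀ y ∈ Λ, ρ s y ∈ Λ) →
    (∀ (a : K) (y : F), y ∈ Λ → V.valuation (algebraMap K F a * y) ≤ 1 → algebraMap K F a * y ∈ Λ) →
    ∀ x ∈ Λ, V.valuation x ≤ 1 → ∃ x' ∈ Λ, (∀ s ∈ H, ρ s x' = x') ∧ V.valuation (x' - x) < 1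

namespace Ctx

variable {p : ℕ} {K F G : Type} [Field K] [Field F] [Algebra K F] (X : Ctx p K F G)

/-- the valuation -/
abbrev w : Valuation F X.V.ValueGroup := X.V.valuation

/-- the embedding of the constants -/
abbrev κ (_X : Ctx p K F G) : K →+* F := algebraMap K F

/-- `ϖ = ζ - 1` -/
def ϖ : K := X.ζ - 1

/-- `x` is `H`-rational -/
def Rat (H : Set G) (x : F) : Prop := ∀ s ∈ H, X.ρ s x = x

/-- the constant `a` is `H`-rational -/
def RatK (H : Set G) (a : K) : Prop := ∀ s ∈ H, X.ρK s a = a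

/-- the stabiliser of `ζ` -/
def G1 : Set G := {s | X.ρK s X.ζ = X.ζ}

/-- `u` and `u'` have the same class modulo `p`-th powers -/
def Eqv (_X : Ctx p K F G) (u u' : F) : Prop := ∃ g : F, g ≠ 0 ∧ u' = u * g ^ p

/-- `u` has a representative `≡ 1 mod ϖ ^ p` -/
def IsMu (u : F) : Prop := ∃ u' : F, X.Eqv u u' ∧ X.w (u' - 1) ≤ X.w (X.κ X.ϖ) ^ p

end Ctx

end Fermat.Agent.S33.M1
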