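import Fermat.Agent.S33.M1.Rdich

/-!
# S33 / M1 : `T_p` raises the depth : `T_p^k z` is a `μ`-class for some `k`
keys `S33/M1-TSTEP` (~200 lines), `S33/M1-DEPTH` (~120).   Mathlib only.  `w = X.w`, `ϖ = X.κ X.ϖ`.

## TSTEP  (`u` `H`-rational, `d` rational, `w ϖ^p < w (κ d)^p = w (u-1) < 1`  ⟹  rational `u'' ~ T u`, `w (u'' - 1) < w (u - 1)`)
`c := d^p` (`≠ 0`, `w (κ c) < 1`), `y := (u-1)/κ c` rational, `w y = 1`, `u = 1 + κ c y`.   `T_exp c y`: `w (T u - 1 - κ c (ψ y)^p) < w (κ c)`.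
`lift_V hH` for `ψ y` (`w = 1` by `ψ_val`): `h` rational, `w (h - ψ y) < 1`, `w h = 1`.    `x := - κ d h`, `w x = w (κ d)`, `w ϖ < w x` (`lt_of_pow_lt_pow_left₀`), `w x < 1`.
`bin1`: `w ((1+x)^p - 1 - x^p) < w x^p = w (κ c)`; `x^p = - κ c h^p` (`Odd.neg_pow`).      `u'' := T u * (1 + x)^p`: rational (`Rat.T`), `Eqv (T u) u''` (`1 + x ≠ 0` since `w (1+x) = 1`).
`u'' - 1 = (T u - 1 - κ c (ψ y)^p)(1+x)^p + (1 + κ c (ψ y)^p) ((1+x)^p - 1 - x^p) + κ c ((ψ y)^p - h^p) - (κ c)^2 (ψ y)^p h^p`;  `w ((ψ y)^p - h^p) < 1` (`sub_dvd_pow_sub_pow`/`sub_pow_lt`).  All four terms have `w < w (κ c)`.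
## DEPTH
`adm_ex G1 adm1 u`: `H ⊆ G1`, `Adm H`, `Rat H u`.  `unif H`: `π`; `κ ϖ^p` is rational: `w ϖ^p = w (κ π)^N`.
`descent (α := F × ℕ) (γ := w (κ π)) (P := fun a => Eqv (T^[a.2] u) a.1 ∧ Rat H a.1 ∧ w (a.1 - 1) < 1) (Stop := fun a => w (a.1 - 1) ≤ w ϖ^p) (val := fun a => w (a.1 - 1)) … N`, start `(u, 0)`.
`step (u', k)`: `PD u'` (`Eqv.PD`, `PD (T^[k] u)` by induction with `T_PD`); `rdich`: second alternative: `(u' κ a, k)`; first alternative: `tstep` gives `u''`, new pair `(u'', k+1)`: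
`T^[k+1] u = T (T^[k] u)` (`Function.iterate_succ_apply'`), `Eqv.T`, `Eqv.trans`.
-/

set_option autoImplicit false

noncomputable section

namespace Fermat.Agent.S33.M1.Ctx

variable {p : ℕ} {K F G : Type} [Field K] [Field F] [Algebra K F] (X : Ctx p K F G)

theorem tstepAux_pow_sub {a b : F} (ha : X.w a ≤ 1) (hb : X.w b ≤ 1) (hab : X.w (a - b) < 1) :
    X.w (a ^ p - b ^ p) < 1 := by
  have h1 := X.sub_pow_lt ha hb
  have h2 : X.w ((a - b) ^ p) < 1 := by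
    rw [map_pow]
    exact pow_lt_one₀ zero_le hab X.hp.ne_zero
  have e : a ^ p - b ^ p = (a - b) ^ p - ((a - b) ^ p - (a ^ p - b ^ p)) := by ring
  rw [e]
  exact X.w.map_sub_lt h2 h1

/-- [S33/M1-TSTEP] -/
theorem tstep {H : Set G} (hH : X.Adm H) {u : F} (hr : X.Rat H u)
    (h1 : X.w (u - 1) < 1) (h2 : X.w (X.κ X.ϖ) ^ p < X.w (u - 1)) {d : K} (hd : X.RatK H d)
    (hdu : X.w (X.κ d) ^ p = X.w (u - 1)) :
    ∃ u'' : F, X.Eqv (X.T u) u'' ∧ X.Rat H u'' ∧ X.w (u'' - 1) < X.w (u - 1) := by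
  have hp0 : p ≠ 0 := X.hp.ne_zero
  have hodd : Odd p := X.hp.odd_of_ne_two X.hp2
  have hγ0 : X.w (u - 1) ≠ 0 := (lt_of_le_of_lt zero_le h2).ne'
  obtain ⟨c, hc⟩ : ∃ c : K, c = d ^ p := ⟨_, rfl⟩
  have hκc : X.κ c = X.κ d ^ p := by rw [hc, map_pow]
  have hwc : X.w (X.κ c) = X.w (u - 1) := by rw [hκc, map_pow, hdu]
  have hκc0 : X.κ c ≠ 0 := by rw [← X.w.ne_zero_iff, hwc]; exact hγ0
  have hc0 : c ≠ 0 := by
    intro h
    exact hκc0 (by rw [h, map_zero])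
  set y : F := (u - 1) / X.κ c with hy
  have hwy : X.w y = 1 := by rw [hy, map_div₀, hwc, div_self hγ0]
  have hu : 1 + X.κ c * y = u := by rw [hy]; field_simp; ring
  have hT := X.T_exp c y hc0 (by rw [← hwc] at h1; exact h1) hwy.le
  rw [hu] at hT
  have hwψ : X.w (X.ψ y) = 1 := by rw [← hwy]; exact X.ψ_val y
  obtain ⟨h, hhr, hh⟩ := X.lift_V hH hwψ.le
  have hwh : X.w h = 1 := by
    have e : h = (h - X.ψ y) + X.ψ y := by ring
    rw [e, X.w.map_add_eq_of_lt_right (by rw [hwψ]; exact hh), hwψ]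
  set x : F := -(X.κ d * h) with hx
  have hwx : X.w x = X.w (X.κ d) := by rw [hx, Valuation.map_neg, map_mul, hwh, mul_one]
  have hwxp : X.w x ^ p = X.w (u - 1) := by rw [hwx, hdu]
  have hx1 : X.w x < 1 := by
    by_contra hcon
    push Not at hcon
    have := one_le_pow₀ hcon (n := p)
    rw [hwxp] at this
    exact absurd h1 (not_lt.mpr this)
  have hxϖ : X.w (X.κ X.ϖ) < X.w x := by
    rw [← hwxp] at h2
    exact lt_of_pow_lt_pow_left₀ p zero_le h2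
  have hb := X.bin1 hx1.le hxϖ
  rw [hwxp] at hb
  have hxp : x ^ p = -(X.κ c * h ^ p) := by rw [hx, hodd.neg_pow, mul_pow, hκc]
  have hw1x : X.w (1 + x) = 1 := X.w.map_one_add_of_lt hx1
  have h1x0 : 1 + x ≠ 0 := by
    rw [← X.w.ne_zero_iff, hw1x]; exact one_ne_zero
  refine ⟨X.T u * (1 + x) ^ p, ⟨1 + x, h1x0, rfl⟩, ?_, ?_⟩
  · have e : 1 + x = 1 - X.κ d * h := by rw [hx]; ring
    rw [e]
    exact (Rat.T hr).mul ((Rat.one.sub ((Rat.κ hd).mul hhr)).pow p)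
  · have e : X.T u * (1 + x) ^ p - 1 =
        (X.T u - 1 - X.κ c * X.ψ y ^ p) * (1 + x) ^ p +
          (1 + X.κ c * X.ψ y ^ p) * ((1 + x) ^ p - 1 - x ^ p) +
          X.κ c * (X.ψ y ^ p - h ^ p) + -(X.κ c ^ 2 * (X.ψ y ^ p * h ^ p)) := by
      rw [hxp]; ring
    rw [e]
    have hP : X.w (X.κ c * X.ψ y ^ p) < 1 := by
      rw [map_mul, map_pow, hwψ, one_pow, mul_one, hwc]; exact h1
    refine X.w.map_add_lt (X.w.map_add_lt (X.w.map_add_lt ?_ ?_) ?_) ?_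
    · rw [map_mul, map_pow, hw1x, one_pow, mul_one, ← hwc]
      exact hT
    · rw [map_mul, X.w.map_one_add_of_lt hP, one_mul]
      exact hb
    · rw [map_mul, hwc]
      exact mul_lt_of_lt_one_right (zero_lt_iff.mpr hγ0)
        (X.tstepAux_pow_sub hwψ.le hwh.le (by rw [← Valuation.map_neg, neg_sub]; exact hh))
    · rw [Valuation.map_neg, map_mul, map_mul, map_pow, map_pow, map_pow, hwψ, hwh, one_pow,
        mul_one, mul_one, hwc, sq]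
      exact mul_lt_of_lt_one_right (zero_lt_iff.mpr hγ0) h1

theorem depthAux_PD_iterate {u : F} (hu : X.PD u) (k : ℕ) : X.PD (X.T^[k] u) := by
  induction k generalizing u with
  | zero => exact hu
  | succ k ih => rw [Function.iterate_succ_apply]; exact ih (X.T_PD u hu)

theorem depthAux_PD {u : F} (hu : X.PD u) (k : ℕ) : X.PD (X.T^[k] u) := by
  induction k with
  | zero => exact hu
  | succ k ih =>
    rw [Function.iterate_succ_apply']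
    exact X.T_PD _ ih

/-- [S33/M1-DEPTH] -/
theorem depth {u : F} (hu : X.PD u) (h1 : X.w (u - 1) < 1) : ∃ k : ℕ, X.IsMu (X.T^[k] u) := by
  obtain ⟨H, hH1, hH, hr⟩ := X.adm_ex X.G1 X.adm1 u
  obtain ⟨π, hπ0, hπ1, hπr, hval⟩ := X.unif H hH
  have hπne : X.w (X.κ π) ≠ 0 := by
    rw [Valuation.ne_zero_iff]
    exact (map_ne_zero_iff _ (algebraMap K F).injective).mpr hπ0
  have hκϖ : X.κ X.ϖ ≠ 0 := (map_ne_zero_iff _ (algebraMap K F).injective).mpr X.ϖ_ne_zero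
  obtain ⟨N, hN⟩ := hval (X.κ X.ϖ ^ p) (Rat.pow (Rat.κ (ratK_ϖ hH1)) p) (pow_ne_zero _ hκϖ)
  rw [map_pow] at hN
  obtain ⟨⟨u', k⟩, ⟨a1, -, -⟩, a4⟩ := descent (α := F × ℕ) (X.w (X.κ π)) hπ1 hπne
    (fun a => X.Eqv (X.T^[a.2] u) a.1 ∧ X.Rat H a.1 ∧ X.w (a.1 - 1) < 1)
    (fun a => X.w (a.1 - 1) ≤ X.w (X.κ X.ϖ) ^ p) (fun a => X.w (a.1 - 1))
    (by
      rintro ⟨u', k⟩ ⟨-, hr', -⟩
      by_cases h0 : u' - 1 = 0
      · left; show X.w (u' - 1) = 0; rw [h0, map_zero]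
      · right; exact hval (u' - 1) (Rat.sub hr' Rat.one) h0)
    N
    (by
      rintro ⟨u', k⟩ - hle
      show X.w (u' - 1) ≤ X.w (X.κ X.ϖ) ^ p
      rw [hN]; exact hle)
    (by
      rintro ⟨u', k⟩ ⟨hE, hr', hl⟩ hns
      have hE' : X.Eqv (X.T^[k] u) u' := hE
      have hr'' : X.Rat H u' := hr'
      have hl' : X.w (u' - 1) < 1 := hl
      have h2 : X.w (X.κ X.ϖ) ^ p < X.w (u' - 1) := not_le.1 hns
      rcases X.rdich hH (hE'.PD (X.depthAux_PD hu k)) hr'' hl' h2 with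
        ⟨d, hd, hd2⟩ | ⟨a, ha0, har, ha⟩
      · obtain ⟨u'', b1, b2, b3⟩ := X.tstep hH hr'' hl' h2 hd hd2
        refine ⟨(u'', k + 1), ⟨?_, b2, b3.trans hl'⟩, b3⟩
        show X.Eqv (X.T^[k + 1] u) u''
        rw [Function.iterate_succ_apply']
        exact hE'.T.trans b1
      · exact ⟨(u' * X.κ a, k), ⟨hE'.trans (Eqv.mul_const u' ha0), Rat.mul hr'' (Rat.κ har),
          ha.trans hl'⟩, ha⟩)
    (u, 0) ⟨Eqv.refl X u, hr, h1⟩
  exact ⟨k, u', a1, a4⟩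

end Fermat.Agent.S33.M1.Ctx
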