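import Fermat.Agent.S33.M1.Bin

/-!
# S33 / M1 : rational elements, consequences of the rational layer, descent
keys `S33/M1-RC-a` (Rat lemmas, ~100 lines), `S33/M1-RC-b` (C_smul, II, lifts, ~200 lines), `S33/M1-DESC` (descent, ~80 lines).   Mathlib only.

## RC-a : all by `intro s hs; rw [map_…, h s hs, …]`; `Rat.κ` by `X.ρ_alg`; `ratK_of_rat` by injectivity of `algebraMap K F`; `Rat.T` by `X.T_ρ`;
`ratK_ϖ`: `ρK s (ζ - 1) = ρK s ζ - 1`.
`exists_const`: `X.unif H hH` gives `π`, `n` with `w x = w (κ π) ^ n`; `d = π ^ n` (`zpow`; `map_zpow₀` for `ρK s`, `κ`, `w`).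
## RC-b
* `C_smul` : `a = 0` trivial.  `w (κ a) ≤ 1`: `C_const` + `mul_mem`.  `w (κ a) > 1`: `κ a⁻¹ * (κ a * y) = y ∈ C b`, `C_sat` with `a⁻¹`.
* `II b u` : COPY of `Fermat.Agent.S34.T.II` (`S34/T/Defs.lean`, lines 33-62) with `mem_C0_of_pow_mem` replaced by `X.C_root b`.
* `lift_V`, `lift_C`, `lift_K`, `lift_II` : `X.retr H hH Λ _ _ x hxΛ hx` with `Λ = ⊤`, `Λ = (X.C b).toAddSubgroup` (`ρ_C`, `C_smul`),
  `Λ = ` the additive subgroup `{κ a | w (κ a) ≤ 1}` (`ρ_alg`, `ρ_val`; then `ratK_of_rat`), `Λ = X.II b u`: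
  stable under `ρ s`, `s ∈ H`: `(ρ s f)^p u = ρ s (f^p u)` as `ρ s u = u`;  `(κ a f)^p u = κ (a^p) (f^p u)`, `w = w (κ a f)^p * w u ≤ 1`, `C_smul`.
  `w (f' - 1) < 1` from `f' - 1 = (f' - f) + (f - 1)`.
## DESC
`descent`: put `n a : ℤ` with `val a = γ ^ n a` (or `val a = 0`).  Strong induction on `(N - n a).toNat`: if `Stop a` done; otherwise `γ^N < val a` (by `hN`, contrapositive), so
`val a ≠ 0`, `n a < N` (`zpow_lt_zpow_iff_right_of_lt_one₀`…); `step` gives `a'` with `val a' < val a`: either `val a' = 0 ≤ γ^N` (then `Stop a'` by `hN`) or `n a' > n a`.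
-/

set_option autoImplicit false

noncomputable section

namespace Fermat.Agent.S33.M1

/-- [S33/M1-DESC] descent in a discrete value set -/
theorem descent {Γ : Type*} [LinearOrderedCommGroupWithZero Γ] (γ : Γ) (hγ : γ < 1) (hγ0 : γ ≠ 0)
    {α : Type*} (P Stop : α → Prop) (val : α → Γ)
    (hval : ∀ a, P a → val a = 0 ∨ ∃ n : ℤ, val a = γ ^ n)
    (N : ℤ) (hN : ∀ a, P a → val a ≤ γ ^ N → Stop a)
    (step : ∀ a, P a → ¬ Stop a → ∃ a', P a' ∧ val a' < val a) (a : α) (ha : P a) :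
    ∃ a', P a' ∧ Stop a' := by
  have key : ∀ (k : ℕ) (a : α), P a → (val a = 0 ∨ ∃ n : ℤ, val a = γ ^ n ∧ (N - n).toNat ≤ k) →
      ∃ a', P a' ∧ Stop a' := by
    intro k
    induction k with
    | zero =>
      intro a ha h
      refine ⟨a, ha, hN a ha ?_⟩
      rcases h with h | ⟨n, hn, hk⟩
      · rw [h]; exact zero_le'
      · rw [hn]
        have : N ≤ n := by omega
        exact zpow_le_zpow_right_of_le_one₀ (zero_lt_iff.mpr hγ0) hγ.le this
    | succ k ih =>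
      intro a ha h
      by_cases hS : Stop a
      · exact ⟨a, ha, hS⟩
      obtain ⟨a', ha', hlt⟩ := step a ha hS
      refine ih a' ha' ?_
      rcases hval a' ha' with h' | ⟨n', hn'⟩
      · exact Or.inl h'
      refine Or.inr ⟨n', hn', ?_⟩
      rcases h with h | ⟨n, hn, hk⟩
      · rw [h] at hlt; exact absurd hlt not_lt_zero'
      · rw [hn, hn'] at hlt
        have : n < n' := (zpow_lt_zpow_iff_right_of_lt_one₀ (zero_lt_iff.mpr hγ0) hγ).mp hlt
        omega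
  rcases hval a ha with h | ⟨n, hn⟩
  · exact key 0 a ha (Or.inl h)
  · exact key (N - n).toNat a ha (Or.inr ⟨n, hn, le_rfl⟩)

namespace Ctx

variable {p : ℕ} {K F G : Type} [Field K] [Field F] [Algebra K F] (X : Ctx p K F G)

/-! ### RC-a -/

section RCa

variable {X} {H H' : Set G} {x y : F} {a b : K}

theorem Rat.mono (h : X.Rat H x) (hH : H' ⊆ H) : X.Rat H' x := fun s hs => h s (hH hs)

theorem RatK.mono (h : X.RatK H a) (hH : H' ⊆ H) : X.RatK H' a := fun s hs => h s (hH hs)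

theorem Rat.one : X.Rat H 1 := fun s _ => map_one _

theorem Rat.add (hx : X.Rat H x) (hy : X.Rat H y) : X.Rat H (x + y) := fun s hs => by
  rw [map_add, hx s hs, hy s hs]

theorem Rat.sub (hx : X.Rat H x) (hy : X.Rat H y) : X.Rat H (x - y) := fun s hs => by
  rw [map_sub, hx s hs, hy s hs]

theorem Rat.mul (hx : X.Rat H x) (hy : X.Rat H y) : X.Rat H (x * y) := fun s hs => by
  rw [map_mul, hx s hs, hy s hs]

theorem Rat.inv (hx : X.Rat H x) : X.Rat H x⁻¹ := fun s hs => by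
  rw [map_inv₀, hx s hs]

theorem Rat.pow (hx : X.Rat H x) (n : ℕ) : X.Rat H (x ^ n) := fun s hs => by
  rw [map_pow, hx s hs]

theorem Rat.κ (ha : X.RatK H a) : X.Rat H (X.κ a) := fun s hs => by
  rw [X.ρ_alg, ha s hs]

theorem ratK_of_rat (h : X.Rat H (X.κ a)) : X.RatK H a := fun s hs => by
  have := h s hs
  rw [X.ρ_alg] at this
  exact (algebraMap K F).injective this

theorem Rat.T (hx : X.Rat H x) : X.Rat H (X.T x) := fun s hs => by
  rw [X.T_ρ, hx s hs]

theorem RatK.mul (ha : X.RatK H a) (hb : X.RatK H b) : X.RatK H (a * b) := fun s hs => by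
  rw [map_mul, ha s hs, hb s hs]

theorem RatK.pow (ha : X.RatK H a) (n : ℕ) : X.RatK H (a ^ n) := fun s hs => by
  rw [map_pow, ha s hs]

theorem RatK.zpow (ha : X.RatK H a) (n : ℤ) : X.RatK H (a ^ n) := fun s hs => by
  rw [map_zpow₀, ha s hs]

theorem ratK_ϖ (hH : H ⊆ X.G1) : X.RatK H X.ϖ := fun s hs => by
  have : X.ρK s X.ζ = X.ζ := hH hs
  rw [Ctx.ϖ, map_sub, map_one, this]

end RCa

/-- [S33/M1-RC-a] the value of a rational element is the value of a rational constant -/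
theorem exists_const {H : Set G} (hH : X.Adm H) {x : F} (hx : X.Rat H x) (hx0 : x ≠ 0) :
    ∃ d : K, d ≠ 0 ∧ X.RatK H d ∧ X.w (X.κ d) = X.w x := by
  obtain ⟨π, hπ0, -, hπ, h⟩ := X.unif H hH
  obtain ⟨n, hn⟩ := h x hx hx0
  refine ⟨π ^ n, zpow_ne_zero _ hπ0, RatK.zpow hπ n, ?_⟩
  rw [hn, map_zpow₀, map_zpow₀]

/-! ### RC-b -/

/-- [S33/M1-RC-b] -/
theorem C_smul (b : Bool) (a : K) (y : F) (hy : y ∈ X.C b) (h : X.w (X.κ a * y) ≤ 1) :
    X.κ a * y ∈ X.C b := by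
  by_cases ha : a = 0
  · rw [ha, map_zero, zero_mul]; exact (X.C b).zero_mem
  by_cases h1 : X.w (X.κ a) ≤ 1
  · exact (X.C b).mul_mem (X.C_const b a h1) hy
  · refine X.C_sat b a⁻¹ _ (inv_ne_zero ha) h ?_
    have hκ : X.κ a ≠ 0 := by
      intro h0
      exact ha ((algebraMap K F).injective (by rw [map_zero]; exact h0))
    have : algebraMap K F a⁻¹ * (X.κ a * y) = y := by
      rw [map_inv₀, ← mul_assoc, inv_mul_cancel₀ hκ, one_mul]
    rw [this]; exact hy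

/-- [S33/M1-RC-b] `I_b(u) = {f : f ^ p * u ∈ C b}` -/
def II (b : Bool) (u : F) : AddSubgroup F where
  carrier := {f | f ^ p * u ∈ X.C b}
  zero_mem' := by
    show (0 : F) ^ p * u ∈ X.C b
    rw [zero_pow X.hp.pos.ne', zero_mul]; exact (X.C b).zero_mem
  add_mem' := by
    intro f g hf hg
    show (f + g) ^ p * u ∈ X.C b
    rw [add_pow, Finset.sum_mul]
    refine (X.C b).sum_mem fun i hi => ?_
    have hi' : i ≤ p := Nat.lt_succ_iff.mp (Finset.mem_range.mp hi)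
    have h1 : f ^ i * g ^ (p - i) * u ∈ X.C b := by
      refine X.C_root b _ ?_
      have : (f ^ i * g ^ (p - i) * u) ^ p = (f ^ p * u) ^ i * (g ^ p * u) ^ (p - i) := by
        have hu : u ^ p = u ^ i * u ^ (p - i) := by rw [← pow_add, Nat.add_sub_cancel' hi']
        rw [mul_pow, mul_pow, mul_pow, mul_pow, hu, ← pow_mul, ← pow_mul, ← pow_mul, ← pow_mul,
          mul_comm i p, mul_comm (p - i) p]
        ring
      rw [this]
      exact (X.C b).mul_mem ((X.C b).pow_mem hf _) ((X.C b).pow_mem hg _)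
    have : f ^ i * g ^ (p - i) * (p.choose i : F) * u = (p.choose i : F) * (f ^ i * g ^ (p - i) * u) := by
      ring
    rw [this]
    exact (X.C b).mul_mem (natCast_mem _ _) h1
  neg_mem' := by
    intro f hf
    show (-f) ^ p * u ∈ X.C b
    rw [neg_pow, mul_assoc]
    exact (X.C b).mul_mem ((X.C b).pow_mem ((X.C b).neg_mem (X.C b).one_mem) _) hf

theorem mem_II {b : Bool} {u f : F} : f ∈ X.II b u ↔ f ^ p * u ∈ X.C b := Iff.rfl

/-- [S33/M1-RC-b] -/
theorem lift_V {H : Set G} (hH : X.Adm H) {x : F} (hx : X.w x ≤ 1) :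
    ∃ x' : F, X.Rat H x' ∧ X.w (x' - x) < 1 := by
  obtain ⟨x', -, h1, h2⟩ := X.retr H hH ⊤ (fun _ _ _ _ => trivial) (fun _ _ _ _ => trivial) x trivial hx
  exact ⟨x', h1, h2⟩

/-- [S33/M1-RC-b] -/
theorem lift_C {H : Set G} (hH : X.Adm H) {b : Bool} {c : F} (hc : c ∈ X.C b) :
    ∃ c' ∈ X.C b, X.Rat H c' ∧ X.w (c' - c) < 1 := by
  obtain ⟨c', h0, h1, h2⟩ := X.retr H hH (X.C b).toAddSubgroup (fun s _ y hy => X.ρ_C s b y hy)
    (fun a y hy h => X.C_smul b a y hy h) c hc (X.C_le b c hc)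
  exact ⟨c', h0, h1, h2⟩

/-- [S33/M1-RC-b] -/
theorem lift_K {H : Set G} (hH : X.Adm H) {a : K} (ha : X.w (X.κ a) ≤ 1) :
    ∃ a' : K, X.RatK H a' ∧ X.w (X.κ a' - X.κ a) < 1 := by
  let Λ : AddSubgroup F :=
    { carrier := {y | ∃ c : K, y = X.κ c ∧ X.w (X.κ c) ≤ 1}
      zero_mem' := ⟨0, (map_zero _).symm, by rw [map_zero, map_zero]; exact zero_le'⟩
      add_mem' := by
        rintro _ _ ⟨c, rfl, hc⟩ ⟨d, rfl, hd⟩
        refine ⟨c + d, (map_add _ _ _).symm, ?_⟩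
        rw [map_add]
        exact (X.w.map_add _ _).trans (max_le hc hd)
      neg_mem' := by
        rintro _ ⟨c, rfl, hc⟩
        refine ⟨-c, (map_neg _ _).symm, ?_⟩
        rw [map_neg, Valuation.map_neg]; exact hc }
  obtain ⟨x', ⟨a', rfl, -⟩, h1, h2⟩ := X.retr H hH Λ
    (by
      rintro s _ _ ⟨c, rfl, hc⟩
      refine ⟨X.ρK s c, X.ρ_alg s c, ?_⟩
      have := X.ρ_val s (X.κ c)
      rw [X.ρ_alg] at this
      exact this.le.trans hc)
    (by
      rintro c _ ⟨d, rfl, -⟩ h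
      refine ⟨c * d, (map_mul _ _ _).symm, ?_⟩
      rw [map_mul]; exact h)
    (X.κ a) ⟨a, rfl, ha⟩ ha
  exact ⟨a', ratK_of_rat h1, h2⟩

/-- [S33/M1-RC-b] -/
theorem lift_II {H : Set G} (hH : X.Adm H) {b : Bool} {u f : F} (hu : X.Rat H u) (hu1 : X.w u = 1)
    (hf : f ^ p * u ∈ X.C b) (hf1 : X.w (f - 1) < 1) :
    ∃ f' : F, X.Rat H f' ∧ f' ^ p * u ∈ X.C b ∧ X.w (f' - 1) < 1 := by
  have hfle : X.w f ≤ 1 := by
    have : f = (f - 1) + 1 := by ring
    rw [this]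
    exact (X.w.map_add _ _).trans (max_le hf1.le (by rw [map_one]))
  obtain ⟨f', h0, h1, h2⟩ := X.retr H hH (X.II b u)
    (by
      intro s hs y hy
      rw [mem_II] at hy ⊢
      have := X.ρ_C s b _ hy
      rwa [map_mul, map_pow, hu s hs] at this)
    (by
      intro a y hy h
      rw [mem_II] at hy ⊢
      have e : (algebraMap K F a * y) ^ p * u = X.κ (a ^ p) * (y ^ p * u) := by
        rw [mul_pow, map_pow, mul_assoc]
      rw [e]
      refine X.C_smul b _ _ hy ?_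
      rw [← e, map_mul, map_pow, hu1, mul_one]
      exact pow_le_one₀ zero_le' h)
    f hf hfle
  refine ⟨f', h1, h0, ?_⟩
  have : f' - 1 = (f' - f) + (f - 1) := by ring
  rw [this]
  exact (X.w.map_add _ _).trans_lt (max_lt h2 hf1)

end Ctx

end Fermat.Agent.S33.M1
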