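import Fermat.Agent.S33.M1.Desc

/-!
# S33 / M1 : improvement of the local `p`-th roots; (KLp) deep classes are trivial
keys `S33/M1-STEP1`, `S33/M1-STEP2` (~120 lines each), `S33/M1-IMP` (~100), `S33/M1-KLP` (~100).   Mathlib only.
Notation: `w = X.w`, `ϖ = X.κ X.ϖ`.

## STEP1  (`w ϖ < w (f - 1) < 1`, `w (u - 1) < w (f - 1)^p`)
`x = f - 1` is `H`-rational, `≠ 0`.  `exists_const`: `d` rational, `w (κ d) = w x`.  `h = x / κ d` rational, `w h = 1`, `w f = 1`.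
`bin1`: `w (f^p - 1 - x^p) < w x^p`.  `c := f^p u ∈ C b`;  `c - 1 - x^p = (f^p - 1 - x^p) + f^p (u - 1)`, so `w (c - 1 - x^p) < w x ^ p`.
`x^p = κ (d^p) h^p`.  `c₁ := (c - 1) / κ (d^p)`:  `w (c₁ - h^p) < 1`, `w c₁ ≤ 1`, `κ (d^p) c₁ = c - 1 ∈ C b`, so `c₁ ∈ C b` (`C_sat`).
`C_normal b h _ c₁ _ (Or.inl _)`: `c' ∈ C b`, `w (h - c') < 1`; `lift_C`: `c'' ∈ C b` rational, `w (c'' - c') < 1`, so `w (h - c'') < 1`.
`f' := f * (1 - κ d * c'')`  (MULTIPLY, do not divide: `1 - κ d c''` is in `C b` but is not a unit of `C b`).  `f'^p u = (f^p u) (1 - κ d c'')^p ∈ C b`.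
`f' - 1 = κ d (h - c'') - (κ d)^2 h c''`, both terms have `w < w (κ d) = w (f - 1)`.
## STEP2  (`w (f - 1) = w ϖ`, `w (u - 1) < w ϖ ^ p`, `H ⊆ G1`)
the same with `d = X.ϖ` (`ratK_ϖ`), `bin2` instead of `bin1`: `w (f^p - 1 - ϖ^p (h^p - h)) < w ϖ^p`; `c₁ := (c - 1)/ϖ^p ∈ C b`, `w (h^p - h - c₁) < 1`; `C_normal … (Or.inr _)`.
## IMP
`X.adm_ex G1 adm1 f`: `H ⊆ G1`, `Adm H`, `Rat H f`.  `X.unif H`: `π`.  `κ ϖ` is `H`-rational, `≠ 0`: `w ϖ = w (κ π) ^ N`.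
`descent (γ := w (κ π)) (P := fun f => Rat H f ∧ f^p u ∈ C b ∧ w (f - 1) < 1) (Stop := fun f => w (f - 1) ≤ w ϖ) (val := fun f => w (f - 1)) … N`;
`step` = `step1` (`w (u-1) < w ϖ^p < w (f-1)^p`).  Then `w (f₁ - 1) < w ϖ` (done) or `= w ϖ` (`step2`).
## KLP
`w (u - 1) < 1`.  `PD_loc` (`b = false, true`), `imp`: `f₀, f₁` with `w (f_b - 1) < w ϖ`.  `X.scale`: `a₀ a₁ a₂ : K` with `w (κ a₀) = w ((u-1)/ϖ^p) < 1`,
`w (κ a₁) = w ((f₀ - 1)/ϖ) < 1`, `w (κ a₂) = w ((f₁-1)/ϖ) < 1`.  `c'` := the one with the largest value.  `X.cech c' u f₀ f₁ …`.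
-/

set_option autoImplicit false

noncomputable section

namespace Fermat.Agent.S33.M1.Ctx

variable {p : ℕ} {K F G : Type} [Field K] [Field F] [Algebra K F] (X : Ctx p K F G)

/-- common core of `step1`, `step2` -/
theorem stepAux {H : Set G} (hH : X.Adm H) {b : Bool} {u f : F} (hf : X.Rat H f)
    (hfu : f ^ p * u ∈ X.C b) {d : K} (hd0 : d ≠ 0) (hd : X.RatK H d) (hd1 : X.w (X.κ d) < 1)
    (hfd : X.w (f - 1) = X.w (X.κ d)) (h3 : X.w (u - 1) < X.w (X.κ d) ^ p)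
    (hE : X.w (f ^ p - 1 - X.κ d ^ p * ((f - 1) / X.κ d) ^ p) < X.w (X.κ d) ^ p ∨
      X.w (f ^ p - 1 - X.κ d ^ p * (((f - 1) / X.κ d) ^ p - (f - 1) / X.κ d)) < X.w (X.κ d) ^ p) :
    ∃ f' : F, X.Rat H f' ∧ f' ^ p * u ∈ X.C b ∧ X.w (f' - 1) < X.w (X.κ d) := by
  have hκ0 : X.κ d ≠ 0 := (map_ne_zero_iff _ (algebraMap K F).injective).mpr hd0
  have hw0 : X.w (X.κ d) ≠ 0 := (Valuation.ne_zero_iff _).mpr hκ0
  have hwp0 : 0 < X.w (X.κ d) ^ p := zero_lt_iff.mpr (pow_ne_zero _ hw0)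
  obtain ⟨h, hh⟩ : ∃ h : F, h = (f - 1) / X.κ d := ⟨_, rfl⟩
  rw [← hh] at hE
  have hfh : f = 1 + X.κ d * h := by rw [hh]; field_simp; ring
  have hwh : X.w h = 1 := by rw [hh, map_div₀, hfd, div_self hw0]
  have hwf : X.w f ≤ 1 := by
    have : f = (f - 1) + 1 := by ring
    rw [this]
    exact (X.w.map_add _ _).trans (max_le (hfd.le.trans hd1.le) (by rw [map_one]))
  have hhrat : X.Rat H h := by
    rw [hh, div_eq_mul_inv]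
    exact (hf.sub Rat.one).mul (Rat.κ hd).inv
  have key : ∀ E : F, X.w E ≤ 1 → X.w (f ^ p - 1 - X.κ d ^ p * E) < X.w (X.κ d) ^ p →
      ∃ c₁ ∈ X.C b, X.w (E - c₁) < 1 := by
    intro E hE1 hE2
    have e1 : f ^ p * u - 1 - X.κ d ^ p * E = (f ^ p - 1 - X.κ d ^ p * E) + f ^ p * (u - 1) := by ring
    have h4 : X.w (f ^ p * u - 1 - X.κ d ^ p * E) < X.w (X.κ d) ^ p := by
      rw [e1]
      refine (X.w.map_add _ _).trans_lt (max_lt hE2 ?_)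
      rw [map_mul, map_pow]
      exact (mul_le_of_le_one_left' (pow_le_one₀ zero_le' hwf)).trans_lt h3
    have h5 : X.w (E - (f ^ p * u - 1) / X.κ d ^ p) < 1 := by
      have e2 : E - (f ^ p * u - 1) / X.κ d ^ p = -((f ^ p * u - 1 - X.κ d ^ p * E) / X.κ d ^ p) := by
        field_simp; ring
      rw [e2, Valuation.map_neg, map_div₀, map_pow]
      exact (div_lt_one₀ hwp0).mpr h4
    refine ⟨(f ^ p * u - 1) / X.κ d ^ p, ?_, h5⟩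
    refine X.C_sat b (d ^ p) _ (pow_ne_zero _ hd0) ?_ ?_
    · have : (f ^ p * u - 1) / X.κ d ^ p = E - (E - (f ^ p * u - 1) / X.κ d ^ p) := by ring
      rw [this]
      exact (X.w.map_sub _ _).trans (max_le hE1 h5.le)
    · have : algebraMap K F (d ^ p) * ((f ^ p * u - 1) / X.κ d ^ p) = f ^ p * u - 1 := by
        rw [map_pow]; field_simp
      rw [this]
      exact (X.C b).sub_mem hfu (X.C b).one_mem
  have hwhp : X.w (h ^ p) ≤ 1 := by rw [map_pow, hwh, one_pow]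
  obtain ⟨c', hc', hc'1⟩ : ∃ c' ∈ X.C b, X.w (h - c') < 1 := by
    rcases hE with hE | hE
    · obtain ⟨c₁, hc₁, h6⟩ := key _ hwhp hE
      exact X.C_normal b h hwh.le c₁ hc₁ (Or.inl h6)
    · obtain ⟨c₁, hc₁, h6⟩ := key _ ((X.w.map_sub _ _).trans (max_le hwhp hwh.le)) hE
      exact X.C_normal b h hwh.le c₁ hc₁ (Or.inr h6)
  obtain ⟨c'', hc'', hrat, hc''1⟩ := X.lift_C hH hc'
  have h7 : X.w (h - c'') < 1 := by
    have : h - c'' = (h - c') - (c'' - c') := by ring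
    rw [this]
    exact (X.w.map_sub _ _).trans_lt (max_lt hc'1 hc''1)
  refine ⟨f * (1 - X.κ d * c''), hf.mul (Rat.one.sub ((Rat.κ hd).mul hrat)), ?_, ?_⟩
  · have : (f * (1 - X.κ d * c'')) ^ p * u = (f ^ p * u) * (1 - X.κ d * c'') ^ p := by
      rw [mul_pow]; ring
    rw [this]
    exact (X.C b).mul_mem hfu ((X.C b).pow_mem ((X.C b).sub_mem (X.C b).one_mem
      ((X.C b).mul_mem (X.C_const b d hd1.le) hc'')) _)
  · have : f * (1 - X.κ d * c'') - 1 = X.κ d * (h - c'') - X.κ d * (X.κ d * (h * c'')) := by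
      rw [hfh]; ring
    rw [this]
    have hpos : 0 < X.w (X.κ d) := zero_lt_iff.mpr hw0
    refine (X.w.map_sub _ _).trans_lt (max_lt ?_ ?_)
    · rw [map_mul]
      exact mul_lt_of_lt_one_right hpos h7
    · rw [map_mul]
      refine mul_lt_of_lt_one_right hpos ?_
      rw [map_mul, map_mul, hwh, one_mul]
      exact (mul_le_of_le_one_right' (X.C_le b c'' hc'')).trans_lt hd1

/-- [S33/M1-STEP1] -/
theorem step1 {H : Set G} (hH : X.Adm H) {b : Bool} {u f : F} (hf : X.Rat H f)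
    (hfu : f ^ p * u ∈ X.C b) (h1 : X.w (f - 1) < 1) (h2 : X.w (X.κ X.ϖ) < X.w (f - 1))
    (h3 : X.w (u - 1) < X.w (f - 1) ^ p) :
    ∃ f' : F, X.Rat H f' ∧ f' ^ p * u ∈ X.C b ∧ X.w (f' - 1) < X.w (f - 1) := by
  have hx0 : f - 1 ≠ 0 := by
    intro h0
    rw [h0, map_zero] at h2
    exact not_lt_zero' h2
  obtain ⟨d, hd0, hd, hwd⟩ := X.exists_const hH (hf.sub Rat.one) hx0
  have hκ0 : X.κ d ≠ 0 := (map_ne_zero_iff _ (algebraMap K F).injective).mpr hd0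
  rw [← hwd] at h3 ⊢
  refine X.stepAux hH hf hfu hd0 hd (hwd ▸ h1) hwd.symm h3 (Or.inl ?_)
  have e : X.κ d ^ p * ((f - 1) / X.κ d) ^ p = (f - 1) ^ p := by
    rw [← mul_pow, mul_div_cancel₀ _ hκ0]
  rw [e, hwd]
  have := X.bin1 h1.le h2
  rwa [add_sub_cancel] at this

/-- [S33/M1-STEP2] -/
theorem step2 {H : Set G} (hH : X.Adm H) (hH1 : H ⊆ X.G1) {b : Bool} {u f : F} (hf : X.Rat H f)
    (hfu : f ^ p * u ∈ X.C b) (h2 : X.w (f - 1) = X.w (X.κ X.ϖ))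
    (h3 : X.w (u - 1) < X.w (X.κ X.ϖ) ^ p) :
    ∃ f' : F, X.Rat H f' ∧ f' ^ p * u ∈ X.C b ∧ X.w (f' - 1) < X.w (X.κ X.ϖ) := by
  have hκ0 : X.κ X.ϖ ≠ 0 := (Valuation.ne_zero_iff _).mp X.w_ϖ_ne_zero
  refine X.stepAux hH hf hfu X.ϖ_ne_zero (ratK_ϖ hH1) X.w_ϖ_lt_one h2 h3 (Or.inr ?_)
  have hh : X.w ((f - 1) / X.κ X.ϖ) ≤ 1 := by
    rw [map_div₀, h2, div_self X.w_ϖ_ne_zero]
  have := X.bin2 hh
  rwa [mul_div_cancel₀ _ hκ0, add_sub_cancel] at this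

/-- [S33/M1-IMP] -/
theorem imp {b : Bool} {u f : F} (hfu : f ^ p * u ∈ X.C b) (h1 : X.w (f - 1) < 1)
    (h3 : X.w (u - 1) < X.w (X.κ X.ϖ) ^ p) :
    ∃ f' : F, f' ^ p * u ∈ X.C b ∧ X.w (f' - 1) < X.w (X.κ X.ϖ) := by
  obtain ⟨H, hH1, hH, hf⟩ := X.adm_ex X.G1 X.adm1 f
  obtain ⟨π, hπ0, hπ1, hπ, hun⟩ := X.unif H hH
  have hκ0 : X.κ X.ϖ ≠ 0 := (Valuation.ne_zero_iff _).mp X.w_ϖ_ne_zero
  obtain ⟨N, hN⟩ := hun (X.κ X.ϖ) (Rat.κ (ratK_ϖ hH1)) hκ0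
  have hγ0 : X.w (X.κ π) ≠ 0 :=
    (Valuation.ne_zero_iff _).mpr ((map_ne_zero_iff _ (algebraMap K F).injective).mpr hπ0)
  obtain ⟨f₁, ⟨hf₁, hf₁u, hf₁1⟩, hstop⟩ := descent (X.w (X.κ π)) hπ1 hγ0
    (fun f => X.Rat H f ∧ f ^ p * u ∈ X.C b ∧ X.w (f - 1) < 1)
    (fun f => X.w (f - 1) ≤ X.w (X.κ X.ϖ)) (fun f => X.w (f - 1))
    (by
      rintro g ⟨hg, -, -⟩
      by_cases h0 : g - 1 = 0
      · left; show X.w (g - 1) = 0; rw [h0, map_zero]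
      · right; exact hun (g - 1) (hg.sub Rat.one) h0)
    N
    (by
      rintro g - hg
      exact hg.trans hN.ge)
    (by
      rintro g ⟨hg, hgu, hg1⟩ hns
      have hlt : X.w (X.κ X.ϖ) < X.w (g - 1) := not_le.mp hns
      obtain ⟨g', h1', h2', h3'⟩ := X.step1 hH hg hgu hg1 hlt
        (h3.trans (pow_lt_pow_left₀ hlt zero_le' X.hp.ne_zero))
      exact ⟨g', ⟨h1', h2', h3'.trans hg1⟩, h3'⟩)
    f ⟨hf, hfu, h1⟩
  rcases lt_or_eq_of_le hstop with hlt | heq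
  · exact ⟨f₁, hf₁u, hlt⟩
  · obtain ⟨f', -, h1', h2'⟩ := X.step2 hH hH1 hf₁ hf₁u heq h3
    exact ⟨f', h1', h2'⟩

/-- [S33/M1-KLP] **(KLp)** : deep classes are trivial -/
theorem klp {u : F} (hu : X.PD u) (h : X.w (u - 1) < X.w (X.κ X.ϖ) ^ p) : ∃ g : F, u = g ^ p := by
  have hκ0 : X.κ X.ϖ ≠ 0 := (Valuation.ne_zero_iff _).mp X.w_ϖ_ne_zero
  have hpos : 0 < X.w (X.κ X.ϖ) := zero_lt_iff.mpr X.w_ϖ_ne_zero
  have hposp : 0 < X.w (X.κ X.ϖ) ^ p := zero_lt_iff.mpr (pow_ne_zero _ X.w_ϖ_ne_zero)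
  have hu1 : X.w (u - 1) < 1 := h.trans_le (pow_le_one₀ zero_le' X.w_ϖ_lt_one.le)
  obtain ⟨g₀, hg₀1, hg₀⟩ := X.PD_loc u hu hu1 false
  obtain ⟨g₁, hg₁1, hg₁⟩ := X.PD_loc u hu hu1 true
  obtain ⟨f₀, hf₀, hf₀1⟩ := X.imp hg₀ hg₀1 h
  obtain ⟨f₁, hf₁, hf₁1⟩ := X.imp hg₁ hg₁1 h
  obtain ⟨a₀, ha₀⟩ := X.scale ((u - 1) / X.κ X.ϖ ^ p)
  obtain ⟨a₁, ha₁⟩ := X.scale ((f₀ - 1) / X.κ X.ϖ)
  obtain ⟨a₂, ha₂⟩ := X.scale ((f₁ - 1) / X.κ X.ϖ)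
  have hb₀ : X.w (X.κ a₀) < 1 := by
    rw [← ha₀, map_div₀, map_pow]; exact (div_lt_one₀ hposp).mpr h
  have hb₁ : X.w (X.κ a₁) < 1 := by
    rw [← ha₁, map_div₀]; exact (div_lt_one₀ hpos).mpr hf₀1
  have hb₂ : X.w (X.κ a₂) < 1 := by
    rw [← ha₂, map_div₀]; exact (div_lt_one₀ hpos).mpr hf₁1
  obtain ⟨c', hc'1, h0, h1, h2⟩ : ∃ c' : K, X.w (X.κ c') < 1 ∧ X.w (X.κ a₀) ≤ X.w (X.κ c') ∧
      X.w (X.κ a₁) ≤ X.w (X.κ c') ∧ X.w (X.κ a₂) ≤ X.w (X.κ c') := by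
    rcases le_total (X.w (X.κ a₀)) (X.w (X.κ a₁)) with h01 | h01
    · rcases le_total (X.w (X.κ a₁)) (X.w (X.κ a₂)) with h12 | h12
      · exact ⟨a₂, hb₂, h01.trans h12, h12, le_rfl⟩
      · exact ⟨a₁, hb₁, h01, le_rfl, h12⟩
    · rcases le_total (X.w (X.κ a₀)) (X.w (X.κ a₂)) with h02 | h02
      · exact ⟨a₂, hb₂, h02, h01.trans h02, le_rfl⟩
      · exact ⟨a₀, hb₀, le_rfl, h01, h02⟩
  refine X.cech c' u f₀ f₁ hc'1 ?_ ?_ ?_ hf₀ hf₁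
  · have e : u - 1 = X.κ X.ϖ ^ p * ((u - 1) / X.κ X.ϖ ^ p) := by field_simp
    rw [e, map_mul (algebraMap K F), map_pow (algebraMap K F), map_mul, map_mul, ha₀]
    exact mul_le_mul' le_rfl h0
  · have e : f₀ - 1 = X.κ X.ϖ * ((f₀ - 1) / X.κ X.ϖ) := by field_simp
    rw [e, map_mul (algebraMap K F), map_mul, map_mul, ha₁]
    exact mul_le_mul' le_rfl h1
  · have e : f₁ - 1 = X.κ X.ϖ * ((f₁ - 1) / X.κ X.ϖ) := by field_simp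
    rw [e, map_mul (algebraMap K F), map_mul, map_mul, ha₂]
    exact mul_le_mul' le_rfl h2

end Fermat.Agent.S33.M1.Ctx
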