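import Fermat.Agent.S33.M1.InstDefs
import Fermat.Agent.S33.Abs.CechP
import Fermat.Agent.S33.Val.Cyc
import Fermat.Agent.S34.Mod.Good

/-!
# S33/M1 : the field `cech` of the instance of `Ctx`          key `S33/M1-CECH`  (helper22)

`inst_cech S hq2 hζ` is the field `cech` VERBATIM with `V := VG q M1`, `C := CB S`, `p := (q : ℕ)`, `ζ` any primitive `q`-th root of unity.
Proof: `Abs/CechP.cech_p` with `ONB.ofGoodRed (exists_goodRed …)`, `fgBar1 S false`, `VV1_eq`.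
-/

set_option autoImplicit false
set_option synthInstance.maxHeartbeats 400000
set_option linter.unusedSectionVars false

open HahnSeries ModularCurve AlgebraicCurve Polynomial Fermat.Agent.S24 Fermat.Agent.S29 Fermat.Agent.S18
  Fermat.Agent.ES Fermat.Agent.ES.Alg Fermat.Agent.S34.Mod Fermat.Agent.S05 Fermat.Agent.S55.B ExtCitation
  Fermat.Agent.S34.T
open Fermat.Agent.S55 (Dq Iq)

noncomputable section

namespace Fermat.Agent.S33.M1

variable {q : Nat.Primes} {M1 r : ℕ} [NeZero M1] [NeZero (q : ℕ)] [NeZero r]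

theorem cechAux_lift {d : Kb} (hd : (wq q).GT d 0) :
    ∃ d' : AA q, (d' : Kb) = d ∧ d' ∈ IsLocalRing.maximalIdeal (AA q) := by
  rw [GT_zero_iff_mem_nonunits, ValuationSubring.mem_nonunits_iff_exists_mem_maximalIdeal] at hd
  obtain ⟨h1, h2⟩ := hd
  exact ⟨⟨d, h1⟩, rfl, h2⟩

/-- `CongV` at level `M1` in terms of the valuation `VG` -/
theorem cechAux_congV (S : Setup M1 (q : ℕ) r (AA q)) {a : AA q} (ha : a ≠ 0) {x : FN M1}
    (h : (VG q M1).valuation x ≤ (VG q M1).valuation (algebraMap Kb (FN M1) (a : Kb))) :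
    CongV (AA q) S.τ1 (FN M1) a x := by
  have ha' : (a : Kb) ≠ 0 := fun h => ha (Subtype.ext h)
  have haF : algebraMap Kb (FN M1) (a : Kb) ≠ 0 := (_root_.map_ne_zero _).2 ha'
  have h0 : 0 < (VG q M1).valuation (algebraMap Kb (FN M1) (a : Kb)) :=
    zero_lt_iff.mpr ((Valuation.ne_zero_iff _).mpr haF)
  refine ⟨x / algebraMap Kb (FN M1) (a : Kb), ?_, ?_⟩
  · rw [VV1_eq S, ← mem_VG, ← ValuationSubring.valuation_le_one_iff, map_div₀, div_le_one₀ h0]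
    exact h
  · have e : KL.evE (AA q) S.τ1 (FN M1) (Polynomial.C a) = algebraMap Kb (FN M1) (a : Kb) :=
      Fermat.Agent.S18.evE_C S.H1 S.hr1 (AA q) a
    rw [e]
    exact (mul_div_cancel₀ x haF).symm

/-- the field `cech` of `Ctx` -/
theorem inst_cech (S : Setup M1 (q : ℕ) r (AA q)) (hq2 : (q : ℕ) ≠ 2) {ζ : Kb}
    (hζ : IsPrimitiveRoot ζ (q : ℕ)) :
    ∀ (c' : Kb) (v f₀ f₁ : FN M1), (VG q M1).valuation (algebraMap Kb (FN M1) c') < 1 →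
    (VG q M1).valuation (v - 1) ≤
      (VG q M1).valuation (algebraMap Kb (FN M1) ((ζ - 1) ^ (q : ℕ) * c')) →
    (VG q M1).valuation (f₀ - 1) ≤ (VG q M1).valuation (algebraMap Kb (FN M1) ((ζ - 1) * c')) →
    (VG q M1).valuation (f₁ - 1) ≤ (VG q M1).valuation (algebraMap Kb (FN M1) ((ζ - 1) * c')) →
    f₀ ^ (q : ℕ) * v ∈ CB S false → f₁ ^ (q : ℕ) * v ∈ CB S true →
      ∃ g : FN M1, v = g ^ (q : ℕ) := by
  intro c' v f₀ f₁ hc' hv h₀ h₁ hm₀ hm₁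
  by_cases hc0 : c' = 0
  · refine ⟨1, ?_⟩
    rw [hc0, mul_zero, map_zero, map_zero, le_zero_iff, Valuation.zero_iff] at hv
    rw [one_pow]
    exact sub_eq_zero.mp hv
  have hq1 : (1 : ℝ) < ((q : ℕ) : ℝ) := by exact_mod_cast q.2.one_lt
  have he : 0 < 1 / (((q : ℕ) : ℝ) - 1) := div_pos one_pos (by linarith)
  have hϖ := w_pi q hζ
  obtain ⟨ϖ', hϖ', hϖm⟩ := cechAux_lift (q := q) (d := ζ - 1) (hϖ.GT he)
  obtain ⟨d', hd', hd'm⟩ := cechAux_lift (q := q) (d := c') (val_const_lt_one_iff.mp hc')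
  have hϖ'0 : ϖ' ≠ 0 := fun h => hϖ.1 (by rw [← hϖ', h]; rfl)
  have hd'0 : d' ≠ 0 := fun h => hc0 (by rw [← hd', h]; rfl)
  have e1 : ((ϖ' ^ (q : ℕ) * d' : AA q) : Kb) = (ζ - 1) ^ (q : ℕ) * c' := by
    push_cast
    rw [hϖ', hd']
  have e2 : ((ϖ' * d' : AA q) : Kb) = (ζ - 1) * c' := by
    push_cast
    rw [hϖ', hd']
  have hV : CongV (AA q) S.τ1 (FN M1) (ϖ' ^ (q : ℕ) * d') (v - 1) :=
    cechAux_congV S (mul_ne_zero (pow_ne_zero _ hϖ'0) hd'0) (by rw [e1]; exact hv)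
  have H₀ : CongV (AA q) S.τ1 (FN M1) (ϖ' * d') (f₀ - 1) :=
    cechAux_congV S (mul_ne_zero hϖ'0 hd'0) (by rw [e2]; exact h₀)
  have H₁ : CongV (AA q) S.τ1 (FN M1) (ϖ' * d') (f₁ - 1) :=
    cechAux_congV S (mul_ne_zero hϖ'0 hd'0) (by rw [e2]; exact h₁)
  obtain ⟨g⟩ := exists_goodRed S.H1 S.hr1 (AA q) S.hq S.hA S.not_dvd
  exact cech_p (Arch.arch _ S.hq S.hA) (g1_transcendental_τ1 S) (g1_isGen_τ1 S)
    (ONB.ofGoodRed (g1_transcendental_τ1 S) (g1_isGen_τ1 S) g) (fgBar1 S false) (q : ℕ) q.2 hq2 ζ hζ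
    ϖ' hϖ' hϖm d' hd'm v f₀ f₁ hV H₀ H₁ hm₀ hm₁

end Fermat.Agent.S33.M1
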