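import Fermat.Agent.S33.M1.InstDefs
import Fermat.Agent.S33.Rat.Api
import Fermat.Agent.S33.Val.Cyc

/-!
# S33/M1 : the fields `adm1`, `adm_ex`, `h90`, `retr` of the instance of `Ctx`          key `S33/M1-RATL`  (helper22)

Exact field shapes with `V := VG q N`, `ρ := rho q N`, `ρK := rhoK q`, `Adm := Adm q` (`InstDefs.lean`).
-/

set_option autoImplicit false
set_option synthInstance.maxHeartbeats 400000
set_option linter.unusedSectionVars false

open HahnSeries ModularCurve AlgebraicCurve Fermat.Agent.S24 Fermat.Agent.S29 Fermat.Agent.S18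
  Fermat.Agent.ES Fermat.Agent.ES.Alg Fermat.Agent.S34.Mod Fermat.Agent.S05 Fermat.Agent.S55.B ExtCitation
open Fermat.Agent.S55 (Dq Iq)

noncomputable section

namespace Fermat.Agent.S33.M1

variable {q : Nat.Primes} {N : ℕ} [NeZero N]

/-- the field `adm1` -/
theorem inst_adm1 {ζ : Kb} (hζ : IsPrimitiveRoot ζ (q : ℕ)) : Adm q {s | rhoK q s ζ = ζ} := by
  refine ⟨stab (Iq q) ζ, stab_le _ _, (relIndex_stab_zeta q hζ).1, ?_⟩
  ext s
  constructor
  · intro h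
    exact ⟨s.2, h⟩
  · intro h
    exact h.2

/-- the field `adm_ex` -/
theorem inst_adm_ex (H : Set ↥(Iq q)) (hH : Adm q H) (x : FN N) :
    ∃ H', H' ⊆ H ∧ Adm q H' ∧ ∀ s ∈ H', rho q N s x = x := by
  classical
  haveI : NeZero (q : ℕ) := ⟨q.2.ne_zero⟩
  obtain ⟨H₀, hle, hfin, rfl⟩ := hH
  obtain ⟨H', hle', hfin', hx⟩ := exists_common_rat (N := N) hle hfin {x}
  refine ⟨{s : ↥(Iq q) | (s : GQ) ∈ H'}, fun s hs => hle' hs, ⟨H', hle'.trans hle, hfin', rfl⟩, ?_⟩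
  exact (rat_iff (hle'.trans hle)).mpr (hx x (Finset.mem_singleton_self x))

/-- the field `h90` -/
theorem inst_h90 (H : Set ↥(Iq q)) (hH : Adm q H) (u : FN N) (hu : u ≠ 0)
    (h : ∀ s ∈ H, ∃ g : FN N, rho q N s u = u * g ^ (q : ℕ)) :
    ∃ h : FN N, h ≠ 0 ∧ ∀ s ∈ H, rho q N s (u * h ^ (q : ℕ)) = u * h ^ (q : ℕ) := by
  haveI : NeZero (q : ℕ) := ⟨q.2.ne_zero⟩
  obtain ⟨H₀, hle, hfin, rfl⟩ := hH
  obtain ⟨g, hg, hr⟩ := exists_rat_rep (H := H₀) q.2.pos u hu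
    (fun σ hσ => h ⟨σ, hle hσ⟩ hσ)
  exact ⟨g, hg, (rat_iff hle).mpr hr⟩

/-- the saturation of `Λ` -/
def retrSat (Λ : AddSubgroup (FN N))
    (hΛ : ∀ (a : Kb) (y : FN N), y ∈ Λ → (VG q N).valuation (algebraMap Kb (FN N) a * y) ≤ 1 →
      algebraMap Kb (FN N) a * y ∈ Λ) : AddSubgroup (FN N) where
  carrier := {z | ∃ a : Kb, a ≠ 0 ∧ algebraMap Kb (FN N) a * z ∈ Λ ∧
    (VG q N).valuation (algebraMap Kb (FN N) a * z) ≤ 1}
  zero_mem' := ⟨1, one_ne_zero, by rw [mul_zero]; exact Λ.zero_mem, by rw [mul_zero, map_zero]; exact zero_le_one⟩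
  add_mem' := by
    have key : ∀ (z z' : FN N) (a a' : Kb), a ≠ 0 → a' ≠ 0 →
        (VG q N).valuation (algebraMap Kb (FN N) a) ≤ (VG q N).valuation (algebraMap Kb (FN N) a') →
        algebraMap Kb (FN N) a * z ∈ Λ → (VG q N).valuation (algebraMap Kb (FN N) a * z) ≤ 1 →
        algebraMap Kb (FN N) a' * z' ∈ Λ → (VG q N).valuation (algebraMap Kb (FN N) a' * z') ≤ 1 →
        ∃ a'' : Kb, a'' ≠ 0 ∧ algebraMap Kb (FN N) a'' * (z + z') ∈ Λ ∧
          (VG q N).valuation (algebraMap Kb (FN N) a'' * (z + z')) ≤ 1 := by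
      intro z z' a a' ha ha' hle h1 h2 h3 h4
      have ha'F : algebraMap Kb (FN N) a' ≠ 0 := (map_ne_zero _).2 ha'
      have h0 : 0 < (VG q N).valuation (algebraMap Kb (FN N) a') :=
        zero_lt_iff.mpr ((Valuation.ne_zero_iff _).mpr ha'F)
      have e : algebraMap Kb (FN N) a * z' =
          algebraMap Kb (FN N) (a / a') * (algebraMap Kb (FN N) a' * z') := by
        rw [map_div₀]
        field_simp
      have h5 : (VG q N).valuation (algebraMap Kb (FN N) a * z') ≤ 1 := by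
        rw [e, map_mul, map_div₀, map_div₀]
        exact mul_le_one' ((div_le_one₀ h0).mpr hle) h4
      have h6 : algebraMap Kb (FN N) a * z' ∈ Λ := by
        rw [e]
        exact hΛ _ _ h3 (by rw [← e]; exact h5)
      refine ⟨a, ha, ?_, ?_⟩
      · rw [mul_add]; exact Λ.add_mem h1 h6
      · rw [mul_add]
        exact (Valuation.map_add _ _ _).trans (max_le h2 h5)
    rintro z z' ⟨a, ha, h1, h2⟩ ⟨a', ha', h3, h4⟩
    rcases le_total ((VG q N).valuation (algebraMap Kb (FN N) a))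
      ((VG q N).valuation (algebraMap Kb (FN N) a')) with hle | hle
    · exact key z z' a a' ha ha' hle h1 h2 h3 h4
    · rw [add_comm]
      exact key z' z a' a ha' ha hle h3 h4 h1 h2
  neg_mem' := by
    rintro z ⟨a, ha, h1, h2⟩
    exact ⟨a, ha, by rw [mul_neg]; exact Λ.neg_mem h1, by rw [mul_neg, Valuation.map_neg]; exact h2⟩

/-- the field `retr` -/
theorem inst_retr (H : Set ↥(Iq q)) (hH : Adm q H) (Λ : AddSubgroup (FN N))
    (hρ : ∀ s ∈ H, ∀ y ∈ Λ, rho q N s y ∈ Λ)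
    (hΛ : ∀ (a : Kb) (y : FN N), y ∈ Λ → (VG q N).valuation (algebraMap Kb (FN N) a * y) ≤ 1 →
      algebraMap Kb (FN N) a * y ∈ Λ)
    (x : FN N) (hx : x ∈ Λ) (hx1 : (VG q N).valuation x ≤ 1) :
    ∃ x' ∈ Λ, (∀ s ∈ H, rho q N s x' = x') ∧ (VG q N).valuation (x' - x) < 1 := by
  haveI : NeZero (q : ℕ) := ⟨q.2.ne_zero⟩
  obtain ⟨H₀, hle, hfin, rfl⟩ := hH
  have h1 : ∀ (a : Kb), ∀ z ∈ retrSat Λ hΛ, algebraMap Kb (FN N) a * z ∈ retrSat Λ hΛ := by
    rintro b z ⟨a, ha, h1, h2⟩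
    by_cases hb : b = 0
    · rw [hb, map_zero, zero_mul]; exact (retrSat Λ hΛ).zero_mem
    have hbF : algebraMap Kb (FN N) b ≠ 0 := (map_ne_zero _).2 hb
    have e : algebraMap Kb (FN N) (a / b) * (algebraMap Kb (FN N) b * z) =
        algebraMap Kb (FN N) a * z := by
      rw [map_div₀]
      field_simp
    exact ⟨a / b, div_ne_zero ha hb, by rw [e]; exact h1, by rw [e]; exact h2⟩
  have h2 : ∀ σ ∈ H₀, ∀ z ∈ retrSat Λ hΛ, gal N σ z ∈ retrSat Λ hΛ := by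
    rintro σ hσ z ⟨a, ha, h1, h2⟩
    have e : algebraMap Kb (FN N) (σ a) * gal N σ z = gal N σ (algebraMap Kb (FN N) a * z) := by
      rw [map_mul, gal_algebraMap]
    refine ⟨σ a, (map_ne_zero _).2 ha, ?_, ?_⟩
    · rw [e]
      exact hρ ⟨σ, hle hσ⟩ hσ _ h1
    · rw [e, VG_gal (Iq_le_Dq q (hle hσ))]
      exact h2
  have hx' : x ∈ retrSat Λ hΛ :=
    ⟨1, one_ne_zero, by rw [map_one, one_mul]; exact hx, by rw [map_one, one_mul]; exact hx1⟩
  obtain ⟨x₀, ⟨a, ha, h3, h4⟩, hr, hc⟩ := exists_rat_approx hle hfin (retrSat Λ hΛ) h1 h2 hx'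
    (val_le_one_iff.mp hx1)
  have hc' : (VG q N).valuation (x₀ - x) < 1 := by
    rw [← Valuation.map_neg, neg_sub]
    exact val_lt_one_iff.mpr hc
  have hx₀1 : (VG q N).valuation x₀ ≤ 1 := by
    have : x₀ = (x₀ - x) + x := by ring
    rw [this]
    exact (Valuation.map_add _ _ _).trans (max_le hc'.le hx1)
  have haF : algebraMap Kb (FN N) a ≠ 0 := (map_ne_zero _).2 ha
  have e : algebraMap Kb (FN N) a⁻¹ * (algebraMap Kb (FN N) a * x₀) = x₀ := by
    rw [map_inv₀]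
    field_simp
  refine ⟨x₀, ?_, (rat_iff hle).mpr hr, hc'⟩
  rw [← e]
  exact hΛ _ _ h3 (by rw [e]; exact hx₀1)

end Fermat.Agent.S33.M1
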