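import Fermat.Agent.S33.M1.InstDefs

/-!
# S33/M1 : the fields `unif`, `unif1` of the instance of `Ctx`      key `S33/M1-UNIF`  (helper19)

`H' ≤ Iq q` of finite index `n`.  The values `n * w a` (`a ∈ Fx H'`, `a ≠ 0`) form a subgroup of `ℤ` (`w_of_relIndex`) containing `n = n * w q`;
it is cyclic (`Int.subgroup_cyclic`): `unifAux_exists`.  The value of a rational function is the value of a rational constant (`wG_rat`).
For `H' = stab (Iq q) ζ` : `n ≤ p - 1`, `w (ζ - 1) = 1/(p-1) = j * w π`, `n * w π ≥ 1`, so `j = 1`.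
-/

set_option autoImplicit false
set_option synthInstance.maxHeartbeats 400000
set_option maxHeartbeats 400000
set_option linter.unusedSectionVars false

open HahnSeries ModularCurve AlgebraicCurve Fermat.Agent.S24 Fermat.Agent.S29 Fermat.Agent.S18
  Fermat.Agent.ES Fermat.Agent.ES.Alg Fermat.Agent.S34.Mod Fermat.Agent.S05 Fermat.Agent.S55.B ExtCitation
open Fermat.Agent.S55 (Dq Iq)

noncomputable section

namespace Fermat.Agent.S33.M1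

variable {q : Nat.Primes} {N : ℕ} [NeZero N] [NeZero (q : ℕ)]

/-- the subgroup `{n * w a}` of `ℤ` -/
def unifAux_grp (q : Nat.Primes) (H' : Subgroup GQ) : AddSubgroup ℤ where
  carrier := {k | ∃ a ∈ Fx H', a ≠ 0 ∧ (H'.relIndex (Iq q) : ℝ) * (wq q).w a = k}
  zero_mem' := ⟨1, one_mem _, one_ne_zero, by rw [RVal.w_one, mul_zero, Int.cast_zero]⟩
  add_mem' := by
    rintro k l ⟨a, ha, ha0, ea⟩ ⟨b, hb, hb0, eb⟩
    exact ⟨a * b, mul_mem ha hb, mul_ne_zero ha0 hb0, by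
      rw [(wq q).map_mul _ _ ha0 hb0, mul_add, ea, eb, Int.cast_add]⟩
  neg_mem' := by
    rintro k ⟨a, ha, ha0, ea⟩
    exact ⟨a⁻¹, inv_mem ha, inv_ne_zero ha0, by rw [RVal.w_inv ha0, mul_neg, ea, Int.cast_neg]⟩

/-- a uniformiser of `Fx H'` -/
theorem unifAux_exists {H' : Subgroup GQ} (hH : H' ≤ Iq q) (hfin : H'.relIndex (Iq q) ≠ 0) :
    ∃ π ∈ Fx H', π ≠ 0 ∧ 0 < (wq q).w π ∧
      ∀ a ∈ Fx H', a ≠ 0 → ∃ m : ℤ, (wq q).w a = m * (wq q).w π := by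
  have hn : (0 : ℝ) < (H'.relIndex (Iq q) : ℝ) := by exact_mod_cast Nat.pos_of_ne_zero hfin
  obtain ⟨g, hg⟩ := Int.subgroup_cyclic (unifAux_grp q H')
  have hgm : g ∈ unifAux_grp q H' := by rw [hg]; exact AddSubgroup.mem_closure_singleton_self g
  obtain ⟨π0, hπ0, hπ00, eπ0⟩ := hgm
  have hqm : ((H'.relIndex (Iq q) : ℕ) : ℤ) ∈ unifAux_grp q H' :=
    ⟨((q : ℕ) : Kb), natCast_mem _ _, q_ne_zero q, by rw [wq_q, mul_one]; norm_cast⟩
  have hg0 : g ≠ 0 := by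
    rintro rfl
    rw [hg, AddSubgroup.mem_closure_singleton] at hqm
    obtain ⟨m, hm⟩ := hqm
    rw [smul_zero] at hm
    exact hfin (by exact_mod_cast hm.symm)
  have hw0 : (wq q).w π0 ≠ 0 := by
    intro h0
    rw [h0, mul_zero] at eπ0
    exact hg0 (by exact_mod_cast eπ0.symm)
  have gen : ∀ a ∈ Fx H', a ≠ 0 → ∃ m : ℤ, (wq q).w a = m * (wq q).w π0 := by
    intro a ha ha0
    obtain ⟨k, hk⟩ := w_of_relIndex q hH hfin ha ha0
    have hkm : k ∈ unifAux_grp q H' := ⟨a, ha, ha0, hk⟩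
    rw [hg, AddSubgroup.mem_closure_singleton] at hkm
    obtain ⟨m, hm⟩ := hkm
    refine ⟨m, ?_⟩
    apply mul_left_cancel₀ hn.ne'
    rw [hk, ← hm, smul_eq_mul, Int.cast_mul, ← eπ0]
    ring
  rcases lt_or_gt_of_ne hw0 with h | h
  · refine ⟨π0⁻¹, inv_mem hπ0, inv_ne_zero hπ00, by rw [RVal.w_inv hπ00]; linarith, ?_⟩
    intro a ha ha0
    obtain ⟨m, hm⟩ := gen a ha ha0
    exact ⟨-m, by rw [RVal.w_inv hπ00, hm]; push_cast; ring⟩
  · exact ⟨π0, hπ0, hπ00, h, gen⟩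

theorem unifAux_fun {H' : Subgroup GQ} (hH : H' ≤ Iq q) {π : Kb} (hπ0 : π ≠ 0)
    (gen : ∀ a ∈ Fx H', a ≠ 0 → ∃ m : ℤ, (wq q).w a = m * (wq q).w π) {x : FN N}
    (hx : x ∈ ratF N H') (hx0 : x ≠ 0) :
    ∃ n : ℤ, (VG q N).valuation x = (VG q N).valuation (algebraMap Kb (FN N) π) ^ n := by
  obtain ⟨a, ha, ha0, e⟩ := wG_rat hH hx hx0
  obtain ⟨m, hm⟩ := gen a ha ha0
  refine ⟨m, (val_eq_zpow_iff hx0 ((map_ne_zero _).2 hπ0) m).mpr ?_⟩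
  rw [e, hm, wG_algebraMap hπ0]

/-- field `unif` of `Ctx` -/
theorem inst_unif (H : Set ↥(Iq q)) (hH : Adm q H) :
    ∃ π : Kb, π ≠ 0 ∧ (VG q N).valuation (algebraMap Kb (FN N) π) < 1 ∧
      (∀ s ∈ H, rhoK q s π = π) ∧
      ∀ x : FN N, (∀ s ∈ H, rho q N s x = x) → x ≠ 0 →
        ∃ n : ℤ, (VG q N).valuation x = (VG q N).valuation (algebraMap Kb (FN N) π) ^ n := by
  obtain ⟨H', hH', hfin, rfl⟩ := hH
  obtain ⟨π, hπ, hπ0, hpos, gen⟩ := unifAux_exists hH' hfin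
  refine ⟨π, hπ0, val_const_lt_one_iff.mpr (Or.inr hpos), ?_, ?_⟩
  · intro s hs
    exact mem_Fx.mp hπ (s : GQ) hs
  · intro x hx hx0
    exact unifAux_fun hH' hπ0 gen ((rat_iff hH').mp hx) hx0

/-- field `unif1` of `Ctx` -/
theorem inst_unif1 {ζ : Kb} (hζ : IsPrimitiveRoot ζ (q : ℕ)) (x : FN N)
    (hx : ∀ s : ↥(Iq q), rhoK q s ζ = ζ → rho q N s x = x) (hx0 : x ≠ 0) :
    ∃ n : ℤ, (VG q N).valuation x = (VG q N).valuation (algebraMap Kb (FN N) (ζ - 1)) ^ n := by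
  have hH' : stab (Iq q) ζ ≤ Iq q := stab_le _ _
  obtain ⟨hfin, hle⟩ := relIndex_stab_zeta q hζ
  obtain ⟨π, hπ, hπ0, hpos, gen⟩ := unifAux_exists hH' hfin
  have hwϖ := w_pi q hζ
  have hϖm : ζ - 1 ∈ Fx (stab (Iq q) ζ) := sub_mem (mem_Fx_stab _ _) (one_mem _)
  obtain ⟨j, hj⟩ := gen _ hϖm hwϖ.ne_zero
  obtain ⟨k, hk⟩ := w_of_relIndex q hH' hfin hπ hπ0
  have hp1 : (1 : ℝ) < ((q : ℕ) : ℝ) := by exact_mod_cast q.2.one_lt
  have hpm : (0 : ℝ) < ((q : ℕ) : ℝ) - 1 := by linarith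
  have hn : (0 : ℝ) < ((stab (Iq q) ζ).relIndex (Iq q) : ℝ) := by
    exact_mod_cast Nat.pos_of_ne_zero hfin
  have hnle : ((stab (Iq q) ζ).relIndex (Iq q) : ℝ) ≤ ((q : ℕ) : ℝ) - 1 := by
    have : (((stab (Iq q) ζ).relIndex (Iq q) : ℕ) : ℝ) ≤ (((q : ℕ) - 1 : ℕ) : ℝ) := by
      exact_mod_cast hle
    rwa [Nat.cast_sub q.2.one_le, Nat.cast_one] at this
  have hk1 : (1 : ℝ) ≤ (k : ℝ) := by
    have h0 : (0 : ℝ) < (k : ℝ) := by rw [← hk]; exact mul_pos hn hpos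
    have : (0 : ℤ) < k := by exact_mod_cast h0
    exact_mod_cast this
  rw [hwϖ.w_eq] at hj
  have hj0 : (0 : ℝ) < (j : ℝ) := by
    by_contra hcon
    have h1 : (j : ℝ) * (wq q).w π ≤ 0 := mul_nonpos_of_nonpos_of_nonneg (not_lt.mp hcon) hpos.le
    rw [← hj] at h1
    exact absurd h1 (not_le.mpr (div_pos one_pos hpm))
  have hj1 : (1 : ℝ) ≤ (j : ℝ) := by
    have : (0 : ℤ) < j := by exact_mod_cast hj0
    exact_mod_cast this
  -- `(p - 1) * w π ≥ n * w π ≥ 1 = (p - 1) * j * w π`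
  have h2 : (((q : ℕ) : ℝ) - 1) * ((j : ℝ) * (wq q).w π) = 1 := by
    rw [← hj]; field_simp
  have h3 : (1 : ℝ) ≤ (((q : ℕ) : ℝ) - 1) * (wq q).w π := by
    calc (1 : ℝ) ≤ k := hk1
      _ = ((stab (Iq q) ζ).relIndex (Iq q) : ℝ) * (wq q).w π := hk.symm
      _ ≤ (((q : ℕ) : ℝ) - 1) * (wq q).w π := mul_le_mul_of_nonneg_right hnle hpos.le
  have hj2 : (j : ℝ) = 1 := by
    apply le_antisymm _ hj1
    by_contra hcon
    have h4 : (1 : ℝ) < (j : ℝ) := not_le.mp hcon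
    have h5 : (((q : ℕ) : ℝ) - 1) * (wq q).w π < (((q : ℕ) : ℝ) - 1) * ((j : ℝ) * (wq q).w π) := by
      apply mul_lt_mul_of_pos_left _ hpm
      nlinarith
    linarith
  have hweq : (wq q).w (ζ - 1) = (wq q).w π := by
    rw [hwϖ.w_eq, hj, hj2, one_mul]
  have hxr : x ∈ ratF N (stab (Iq q) ζ) := by
    rw [mem_ratF]
    intro σ hσ
    exact hx ⟨σ, hσ.1⟩ hσ.2
  refine unifAux_fun hH' hwϖ.ne_zero ?_ hxr hx0
  intro a ha ha0
  rw [hweq]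
  exact gen a ha ha0

end Fermat.Agent.S33.M1
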