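import Fermat.Agent.S33.M1.InstDefs
import Fermat.Agent.S33.M1.InstUnif
import Fermat.Agent.S33.M1.InstCech
import Fermat.Agent.S33.M1.InstRat
import Fermat.Agent.S33.M.Imp
import Fermat.Agent.S34.Mod.Good
import Fermat.Agent.S34.Mod.Act
import Fermat.Agent.S35.Nu

/-!
# S33/M1 : fields of the instance of `Ctx` : automorphisms, rational layer, `PD_loc`, `cech`          (helper10)

Every theorem is EXACTLY one field of `M1.Ctx` (`S33/M1/Ctx.lean`) for `K = Kb`, `F = FN M1` (or `FN N`), `G = ↥(Iq q)`, `V = VG q N`, `C = CB S`, `PD = PDiv Kb (FN N) q`, `ρ = rho q N`, `ρK = rhoK q`, `Adm = Adm q`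
(definitions + dictionary `val_*`: `S33/M1/InstDefs.lean`).       KEYS: claim `S33/M1-IB-xxx` in the table; keep names + statements.

## [S33/M1-IB-ADM] `adm1`, `adm_ex`, `h90`  (~80 lines)
* `adm1`: `H' = stab (Iq q) ζ` (`stab_le`, `relIndex_stab_zeta q hζ`), the two sets agree by `mem_stab`.
* `adm_ex`: `H = {s | ↑s ∈ H₀}`; `exists_common_rat hH₀ hfin {x}` gives `H' ≤ H₀`; `rat_iff`.
* `h90`: `exists_rat_rep (H := H₀) q.2.pos u hu` + `rat_iff`.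
## [S33/M1-IB-UNIF] `unif`, `unif1`  (~200 lines)
* `unif`: `n = H₀.relIndex (Iq q)`; `Γ = {k : ℤ | ∃ a ∈ Fx H₀, a ≠ 0 ∧ n * w a = k}` is an additive subgroup of `ℤ` (`RVal.map_mul`, `w_inv`) which contains `n ≠ 0` (`a = q`, `wq_q`); `Int.subgroup_cyclic`/`AddSubgroup.closure_singleton` : `Γ = d ℤ`, WLOG `d > 0`;
  `π` with `n w π = d`.  For `x` rational (`rat_iff`), `x ≠ 0`: `wG_rat`: `w x = w a`, `n w a = k d` (`w_of_relIndex` is not even needed), so `w x = k w π`; `val_eq_zpow_iff`, `wG_algebraMap`; `val_const_lt_one_iff`.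
* `unif1`: `H₁ = stab (Iq q) ζ`, `e = relIndex`, `0 < e ≤ p - 1` (`relIndex_stab_zeta`); `ϖ = ζ - 1 ∈ Fx H₁`, `w ϖ = 1/(p-1)` (`w_pi`), `e w ϖ ∈ ℤ` (`w_of_relIndex`) ⟹ `e = p - 1`; so `(p-1) w a ∈ ℤ` for all `a ∈ Fx H₁`; `wG_rat`; `val_eq_zpow_iff`.
## [S33/M1-IB-RETR] `retr`  (~120 lines)
`Λ' := {z | ∃ a : Kb, a ≠ 0 ∧ a z ∈ Λ ∧ val (a z) ≤ 1}` is an additive subgroup (for `z, z'` with `a, a'` take the one of smaller absolute value, say `a''`: `a'' z = (a''/a) (a z)` is integral, so in `Λ` by `hΛ`), stable under `Kb` (`b ≠ 0`: replace `a` by `a / b`) and under `H₀`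
(`σ a · gal σ z = gal σ (a z)`, `VG_gal`, `gal_algebraMap`).  `exists_rat_approx hH₀ hfin Λ'` for `x` (`a = 1`): `x₀ ∈ Λ'` rational, `GT (x - x₀) 0`; `x₀` is integral; `a x₀ ∈ Λ ⟹ x₀ = a⁻¹ (a x₀) ∈ Λ` by `hΛ`.
## [S33/M1-IB-NC] `normAlpha_mem_CB`, `normAlpha_alpha`  (~120 lines)
* `normAlpha_alpha`: `Algebra.norm_algebraMap` + `finrank_alpha M1 q S.hq S.not_dvd` (`ES/AlgDeg.lean`; see `ES/AlgNorm.lean` l.96 for the `letI := algebraAlong (heckeAlphaBar ..)` idiom).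
* `normAlpha_mem_CB`: `x` integral over `R = A[θM b] = al (A[θ1 b])` (`ch1_alpha_evE S b`).  With `letI := algebraAlong al`, `R₁ := (evE A (θ1 b) (FN M1)).range`: `x` is integral over `R₁` (as `R₁`-algebra through `FN M1`), `Algebra.isIntegral_norm (K := FN M1)` (needs `IsScalarTower R₁ (FN M1) (FN (M1 q))`): the norm is integral over `R₁`.
## [S33/M1-IB-PDLOC] `PD_loc`  (~120 lines)   NORM TRICK
`v := al u`: `PDiv` (`ES.Alg.PDiv.algebraMap` in `ES/AlgOrd.lean`, as in `PDiv.Tl`); `GT2 S.hc (v - 1) 0`: `wG_alpha`, and `wZ_GT_iff`, `Wq_alpha`, `wG_beta`.   `M.exists_II_one_M S b`: `fM`, `fM^p v ∈ C_b(M)` (`II` membership: `S34.T.mem_II`), `GT2 (fM - 1) 0`.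
`f := Nm fM * u`:  `f^p u = Nm (fM^p v)` (`normAlpha_alpha`: `Nm (al u) = u^(p+1)`), in `CB S b` by `normAlpha_mem_CB`;  `Nm fM ≡ 1` by `GT_normAlpha_sub_one S.hc` ; `f - 1 = (Nm fM - 1) u + (u - 1)`, `u` integral.
## [S33/M1-IB-CECH] `cech`  (~150 lines)
`cech_p (Arch.arch _ S.hq S.hA) (g1_transcendental_τ1 S) (g1_isGen_τ1 S) (ONB.ofGoodRed .. g) (fgBar1 S false) q q.2 hq2 ζ hζ ϖ ..` with `obtain ⟨g⟩ := exists_goodRed S.H1 S.hr1 (AA q) S.hq S.hA S.not_dvd` (as in `S34/Mod/Good.lean g2_data`);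
`S.θ1 false = S.τ1`, `S.θ1 true = S.τ1⁻¹` (`rfl`).   `c' = 0`: then `v = 1`.  `ϖ := ⟨ζ - 1, _⟩ : AA q`, in `𝔪` (`cycAux_GT`, `valAux_mem_max`), `c' ∈ 𝔪` (`val_const_lt_one_iff`, `valAux_mem_max`).
`CongV (AA q) S.τ1 (FN M1) a x ↔ val x ≤ val (algebraMap a)` (`a ≠ 0`): `CongV.iff_jj`, `jj a = algebraMap a` (`rfl`, cf. `M.l3Aux_jj`), `VV1_eq S`, `GE_iff`, `val_le_const_iff`.
-/

set_option autoImplicit false
set_option synthInstance.maxHeartbeats 400000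
set_option linter.unusedSectionVars false

open HahnSeries ModularCurve AlgebraicCurve Polynomial Fermat.Agent.S24 Fermat.Agent.S29 Fermat.Agent.S18
  Fermat.Agent.ES Fermat.Agent.ES.Alg Fermat.Agent.S34.Mod Fermat.Agent.S34.T Fermat.Agent.S05
  Fermat.Agent.S55.B ExtCitation
open Fermat.Agent.S55 (Dq Iq)

noncomputable section

namespace Fermat.Agent.S33.M1

variable {q : Nat.Primes} {N : ℕ} [NeZero N]

/-! ### the automorphisms -/

theorem rho_alg (s : ↥(Iq q)) (a : Kb) :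
    rho q N s (algebraMap Kb (FN N) a) = algebraMap Kb (FN N) (rhoK q s a) :=
  gal_algebraMap (s : GQ) a

theorem rho_val (s : ↥(Iq q)) (x : FN N) :
    (VG q N).valuation (rho q N s x) = (VG q N).valuation x :=
  VG_gal (Iq_le_Dq q s.2) x

theorem rho_inert (s : ↥(Iq q)) (x : FN N) (hx : (VG q N).valuation x ≤ 1) :
    (VG q N).valuation (rho q N s x - x) < 1 :=
  VG_gal_sub s.2 hx

theorem rho_PD (s : ↥(Iq q)) (u : FN N) (hu : PDiv Kb (FN N) (q : ℕ) u) :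
    PDiv Kb (FN N) (q : ℕ) (rho q N s u) :=
  PDiv.gal hu (s : GQ)

/-! ### the rational layer -/

/-- [S33/M1-IB-ADM] -/
theorem adm1 {ζ : Kb} (hζ : IsPrimitiveRoot ζ (q : ℕ)) : Adm q {s | rhoK q s ζ = ζ} :=
  inst_adm1 hζ

/-- [S33/M1-IB-ADM] -/
theorem adm_ex (H : Set ↥(Iq q)) (hH : Adm q H) (x : FN N) :
    ∃ H', H' ⊆ H ∧ Adm q H' ∧ ∀ s ∈ H', rho q N s x = x :=
  inst_adm_ex H hH x

/-- [S33/M1-IB-ADM] -/
theorem h90 (H : Set ↥(Iq q)) (hH : Adm q H) (u : FN N) (hu : u ≠ 0)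
    (h : ∀ s ∈ H, ∃ g : FN N, rho q N s u = u * g ^ (q : ℕ)) :
    ∃ h : FN N, h ≠ 0 ∧ ∀ s ∈ H, rho q N s (u * h ^ (q : ℕ)) = u * h ^ (q : ℕ) :=
  inst_h90 H hH u hu h

/-- [S33/M1-IB-UNIF] -/
theorem unif (H : Set ↥(Iq q)) (hH : Adm q H) :
    ∃ π : Kb, π ≠ 0 ∧ (VG q N).valuation (algebraMap Kb (FN N) π) < 1 ∧ (∀ s ∈ H, rhoK q s π = π) ∧
      ∀ x : FN N, (∀ s ∈ H, rho q N s x = x) → x ≠ 0 →
        ∃ n : ℤ, (VG q N).valuation x = (VG q N).valuation (algebraMap Kb (FN N) π) ^ n := by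
  haveI : NeZero (q : ℕ) := ⟨q.2.ne_zero⟩
  exact inst_unif H hH

/-- [S33/M1-IB-UNIF] -/
theorem unif1 {ζ : Kb} (hζ : IsPrimitiveRoot ζ (q : ℕ)) (x : FN N)
    (hx : ∀ s, rhoK q s ζ = ζ → rho q N s x = x) (hx0 : x ≠ 0) :
    ∃ n : ℤ, (VG q N).valuation x = (VG q N).valuation (algebraMap Kb (FN N) (ζ - 1)) ^ n := by
  haveI : NeZero (q : ℕ) := ⟨q.2.ne_zero⟩
  exact inst_unif1 hζ x hx hx0

/-- [S33/M1-IB-RETR] -/
theorem retr (H : Set ↥(Iq q)) (hH : Adm q H) (Λ : AddSubgroup (FN N))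
    (hρ : ∀ s ∈ H, ∀ y ∈ Λ, rho q N s y ∈ Λ)
    (hΛ : ∀ (a : Kb) (y : FN N), y ∈ Λ → (VG q N).valuation (algebraMap Kb (FN N) a * y) ≤ 1 →
      algebraMap Kb (FN N) a * y ∈ Λ)
    (x : FN N) (hx : x ∈ Λ) (hx1 : (VG q N).valuation x ≤ 1) :
    ∃ x' ∈ Λ, (∀ s ∈ H, rho q N s x' = x') ∧ (VG q N).valuation (x' - x) < 1 :=
  inst_retr H hH Λ hρ hΛ x hx hx1

/-! ### charts -/

variable {M1 r : ℕ} [NeZero M1] [NeZero (q : ℕ)] [NeZero r]
variable (S : Setup M1 (q : ℕ) r (AA q))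

theorem rho_C (s : ↥(Iq q)) (b : Bool) (x : FN M1) (hx : x ∈ CB S b) : rho q M1 s x ∈ CB S b :=
  gal_mem_C01 S (Iq_le_Dq q s.2) b hx

include S in
/-- [S33/M1-IB-NC] (`S` is needed: `q ∤ M1`) -/
theorem normAlpha_alpha (u : FN M1) :
    normAlpha M1 (q : ℕ) (heckeAlphaBar Kb M1 (q : ℕ) u) = u ^ ((q : ℕ) + 1) := by
  letI := algebraAlong (heckeAlphaBar Kb M1 (q : ℕ))
  have h1 : Module.finrank (FN M1) (FN (M1 * (q : ℕ))) = (q : ℕ) + 1 :=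
    finrank_alpha M1 (q : ℕ) S.hq S.not_dvd
  rw [← h1]
  exact Algebra.norm_algebraMap (S := FN (M1 * (q : ℕ))) u

/-- the norm of an integral element is integral (ring hom version) -/
theorem ncAux_norm {R₀ F F' : Type*} [CommRing R₀] [Field F] [Field F'] [Algebra F F']
    (f : R₀ →+* F) {x : F'} (hx : ((algebraMap F F').comp f).IsIntegralElem x) :
    f.IsIntegralElem (Algebra.norm F x) := by
  letI : Algebra R₀ F := f.toAlgebra
  letI : Algebra R₀ F' := ((algebraMap F F').comp f).toAlgebra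
  haveI : IsScalarTower R₀ F F' := IsScalarTower.of_algebraMap_eq' rfl
  exact Algebra.isIntegral_norm F (R := R₀) (x := x) hx

/-- [S33/M1-IB-NC] the norm maps the chart `C_b` of level `M1 p` into the chart `C_b` of level `M1` -/
theorem normAlpha_mem_CB (b : Bool) {x : FN (M1 * (q : ℕ))}
    (hx : x ∈ KL.C0 (AA q) (S.θM b) (FN (M1 * (q : ℕ)))) : normAlpha M1 (q : ℕ) x ∈ CB S b := by
  letI := algebraAlong (heckeAlphaBar Kb M1 (q : ℕ))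
  have e : (algebraMap (FN M1) (FN (M1 * (q : ℕ)))).comp (KL.evE (AA q) (S.θ1 b) (FN M1)) =
      KL.evE (AA q) (S.θM b) (FN (M1 * (q : ℕ))) := RingHom.ext fun P => ch1_alpha_evE S b P
  have hx' : ((algebraMap (FN M1) (FN (M1 * (q : ℕ)))).comp
      (KL.evE (AA q) (S.θ1 b) (FN M1))).IsIntegralElem x := by
    rw [e]; exact hx
  exact ncAux_norm (KL.evE (AA q) (S.θ1 b) (FN M1)) hx'

/-- [S33/M1-IB-PDLOC] -/
theorem PD_loc (u : FN M1) (hu : PDiv Kb (FN M1) (q : ℕ) u) (hu1 : (VG q M1).valuation (u - 1) < 1)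
    (b : Bool) : ∃ f : FN M1, (VG q M1).valuation (f - 1) < 1 ∧ f ^ (q : ℕ) * u ∈ CB S b := by
  have hu1' : (wG q M1).GT (u - 1) 0 := val_lt_one_iff.1 hu1
  have hv : PDiv Kb (FN (M1 * (q : ℕ))) (q : ℕ) (heckeAlphaBar Kb M1 (q : ℕ) u) := by
    let _ := algebraAlong (heckeAlphaBar Kb M1 (q : ℕ))
    have := isScalarTower_along (heckeAlphaBar Kb M1 (q : ℕ))
    have : FiniteDimensional (FN M1) (FN (M1 * (q : ℕ))) := finite_alpha M1 (q : ℕ)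
    exact PDiv.algebraMap (F := FN M1) (F' := FN (M1 * (q : ℕ))) hu
  have hv1 : M.GT2 S.hc (heckeAlphaBar Kb M1 (q : ℕ) u - 1) 0 := by
    have e1 : heckeAlphaBar Kb M1 (q : ℕ) u - 1 = heckeAlphaBar Kb M1 (q : ℕ) (u - 1) := by
      rw [map_sub, map_one]
    rw [e1]
    rcases hu1' with h0 | h0
    · rw [h0, map_zero]
      exact ⟨RVal.GT_zero 0, RVal.GT_zero 0⟩
    · refine ⟨Or.inr (by rw [wG_alpha]; exact h0), (wZ_GT_iff S.hc).2 (Or.inr ?_)⟩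
      rw [Wq_alpha, wG_beta]
      exact h0
  obtain ⟨fM, hfM, hfM1⟩ := M.exists_II_one_M S b hv hv1
  have hfM' : fM ^ (q : ℕ) * heckeAlphaBar Kb M1 (q : ℕ) u ∈
      KL.C0 (AA q) (S.θM b) (FN (M1 * (q : ℕ))) := hfM
  have hN1 : (wG q M1).GT (normAlpha M1 (q : ℕ) fM - 1) 0 := by
    refine GT_normAlpha_sub_one S.hc hfM1.1 ?_
    have := (wZ_GT_iff S.hc).1 hfM1.2
    rwa [map_sub, map_one] at this
  refine ⟨normAlpha M1 (q : ℕ) fM * u, ?_, ?_⟩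
  · rw [val_lt_one_iff]
    have hu0 : (wG q M1).GE u 0 := by
      have := (hu1'.GE le_rfl).add (RVal.EQ_one.GE le_rfl : (wG q M1).GE 1 0)
      rwa [sub_add_cancel] at this
    have e2 : normAlpha M1 (q : ℕ) fM * u - 1 = (normAlpha M1 (q : ℕ) fM - 1) * u + (u - 1) := by
      ring
    rw [e2]
    have h3 := hN1.mul_GE hu0
    rw [add_zero] at h3
    exact h3.add hu1'
  · have h4 := normAlpha_mem_CB S b hfM'
    rw [map_mul, map_pow, normAlpha_alpha S] at h4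
    have e3 : (normAlpha M1 (q : ℕ) fM * u) ^ (q : ℕ) * u =
        normAlpha M1 (q : ℕ) fM ^ (q : ℕ) * u ^ ((q : ℕ) + 1) := by
      rw [mul_pow, pow_succ]; ring
    rw [e3]
    exact h4

/-- [S33/M1-IB-CECH] -/
theorem cech (hq2 : (q : ℕ) ≠ 2) {ζ : Kb} (hζ : IsPrimitiveRoot ζ (q : ℕ)) (c' : Kb) (v f₀ f₁ : FN M1)
    (hc' : (VG q M1).valuation (algebraMap Kb (FN M1) c') < 1)
    (hv : (VG q M1).valuation (v - 1) ≤
      (VG q M1).valuation (algebraMap Kb (FN M1) ((ζ - 1) ^ (q : ℕ) * c')))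
    (h₀ : (VG q M1).valuation (f₀ - 1) ≤ (VG q M1).valuation (algebraMap Kb (FN M1) ((ζ - 1) * c')))
    (h₁ : (VG q M1).valuation (f₁ - 1) ≤ (VG q M1).valuation (algebraMap Kb (FN M1) ((ζ - 1) * c')))
    (hc₀ : f₀ ^ (q : ℕ) * v ∈ CB S false) (hc₁ : f₁ ^ (q : ℕ) * v ∈ CB S true) :
    ∃ g : FN M1, v = g ^ (q : ℕ) :=
  inst_cech S hq2 hζ c' v f₀ f₁ hc' hv h₀ h₁ hc₀ hc₁

end Fermat.Agent.S33.M1
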