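import Fermat.Agent.S34.Mod.Good
import Fermat.Agent.S37.BrInter

/-!
# S33 / M1 : the chart fields of the instance of `Ctx`   (helper27; key `S33/M1-INSTC`)

`V = Vinf A M1`, `C b = KL.C0 A (S.θ1 b) (FN M1)`.   Statements in the language of `Vinf`, `resInf`
(`x ∈ Vinf ↔ w x ≤ 1`,  `resInf x = 0 ↔ w x < 1`):
`instC_le`, `instC_const`, `instC_sat`, `instC_root`, `instC_normal`, `instC_glob`.
-/

set_option autoImplicit false
set_option synthInstance.maxHeartbeats 400000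
set_option linter.unusedSectionVars false

open HahnSeries ModularCurve AlgebraicCurve Polynomial Fermat.Agent.S24 Fermat.Agent.S29
  Fermat.Agent.S18 Fermat.Agent.ES Fermat.Agent.ES.Alg Fermat.Agent.S34.T Fermat.Agent.S34.Mod

noncomputable section

namespace Fermat.Agent.S33.M1

variable {M1 q r : ℕ} [NeZero M1] [NeZero q] [NeZero r] {A : ValuationSubring Kb}
variable (S : Setup M1 q r A)

theorem instC_le (b : Bool) {x : FN M1} (hx : x ∈ KL.C0 A (S.θ1 b) (FN M1)) : x ∈ Vinf A M1 :=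
  C01_le S b hx

include S in
theorem instC_mem_A {a : Kb} (h : algebraMap Kb (FN M1) a ∈ Vinf A M1) : a ∈ A := by
  have h1 : algebraMap S.L1 (FN M1) (algebraMap Kb S.L1 a) ∈ KL.VV A S.τ1 (FN M1) :=
    (VV1_eq S).ge h
  exact (KL.algebraMap_mem_OG_iff A (g1_transcendental_τ1 S) a).mp
    (KL.mem_OG_of_algebraMap_mem_VV A (g1_transcendental_τ1 S) (g1_isGen_τ1 S) h1)

theorem instC_const (b : Bool) {a : Kb} (h : algebraMap Kb (FN M1) a ∈ Vinf A M1) :
    algebraMap Kb (FN M1) a ∈ KL.C0 A (S.θ1 b) (FN M1) := by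
  have ha := instC_mem_A S h
  have h1 := KL.evE_mem_C0 A (S.θ1 b) (FN M1) (C ⟨a, ha⟩)
  rw [KL.SatB.evE_C] at h1
  exact h1

theorem instC_sat (b : Bool) {a : Kb} {x : FN M1} (ha : a ≠ 0) (hx : x ∈ Vinf A M1)
    (h : algebraMap Kb (FN M1) a * x ∈ KL.C0 A (S.θ1 b) (FN M1)) :
    x ∈ KL.C0 A (S.θ1 b) (FN M1) := by
  refine KL.mem_C0_of_mem_B0_VV A (g2_transcendental S b) (g2_isGen S b) ?_ ((g1_VV_θ1 S b).ge hx)
  have h1 : algebraMap Kb (FN M1) a⁻¹ ∈ KL.B0 Kb (S.θ1 b) (FN M1) :=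
    KL.SatB.const_mem_B0 (τ := S.θ1 b) (E := FN M1) a⁻¹
  have h2 := mul_mem h1 (KL.C0_le_B0 A h)
  rwa [← mul_assoc, ← map_mul, inv_mul_cancel₀ ha, map_one, one_mul] at h2

theorem instC_root (b : Bool) {n : ℕ} (hn : 0 < n) {x : FN M1}
    (h : x ^ n ∈ KL.C0 A (S.θ1 b) (FN M1)) : x ∈ KL.C0 A (S.θ1 b) (FN M1) :=
  KL.SatA.isIntegralElem_of_pow _ hn h

/-- evaluation of polynomials, with values in `Vinf` -/
def instC_ev (b : Bool) : (↥A)[X] →+* Vinf A M1 :=
  (KL.evE A (S.θ1 b) (FN M1)).codRestrict (Vinf A M1)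
    (fun P => C01_le S b (KL.evE_mem_C0 A (S.θ1 b) (FN M1) P))

theorem instC_coe_eval₂ (b : Bool) (p : (↥A)[X][X]) (x : Vinf A M1) :
    ((p.eval₂ (instC_ev S b) x : Vinf A M1) : FN M1) =
      p.eval₂ (KL.evE A (S.θ1 b) (FN M1)) (x : FN M1) := by
  have h := Polynomial.hom_eval₂ p (instC_ev S b) (Vinf A M1).subtype x
  exact h

/-- `x ≡ G(x) ...`: if `g(x) ≡ c ∈ C_b` for a monic `g ∈ ℤ[X]`-like polynomial `g`, then `x` is congruent to an element of `C_b` -/
theorem instC_normal_aux (b : Bool) (x : Vinf A M1) (g : (↥A)[X][X]) (hg : g.Monic)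
    (hg0 : g.natDegree ≠ 0) (c : Vinf A M1) (hc : (c : FN M1) ∈ KL.C0 A (S.θ1 b) (FN M1))
    (h : resInf A M1 (g.eval₂ (instC_ev S b) x) = resInf A M1 c) :
    ∃ c' : Vinf A M1, (c' : FN M1) ∈ KL.C0 A (S.θ1 b) (FN M1) ∧
      resInf A M1 c' = resInf A M1 x := by
  obtain ⟨P, hP, hPc⟩ := hc
  have hm : (P.comp g).Monic := hP.comp hg hg0
  have e1 : (P.comp g).eval₂ (instC_ev S b) x = P.eval₂ (instC_ev S b) (g.eval₂ (instC_ev S b) x) :=
    Polynomial.eval₂_comp _
  have e2 : P.eval₂ (instC_ev S b) c = 0 := by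
    apply Subtype.ext
    rw [instC_coe_eval₂]
    exact hPc
  have e3 : resInf A M1 ((P.comp g).eval₂ (instC_ev S b) x) = 0 := by
    rw [e1, Polynomial.hom_eval₂, h, ← Polynomial.hom_eval₂, e2, map_zero]
  refine normal1 S b x (P.comp g) hm (by rw [← instC_coe_eval₂]; exact Subtype.property _) ?_
  rw [← e3]
  exact congrArg (resInf A M1) (Subtype.ext (instC_coe_eval₂ S b (P.comp g) x).symm)

theorem instC_normal (b : Bool) {p : ℕ} (hp : 2 ≤ p) (x c : Vinf A M1)
    (hc : (c : FN M1) ∈ KL.C0 A (S.θ1 b) (FN M1))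
    (h : resInf A M1 (x ^ p - c) = 0 ∨ resInf A M1 (x ^ p - x - c) = 0) :
    ∃ c' : Vinf A M1, (c' : FN M1) ∈ KL.C0 A (S.θ1 b) (FN M1) ∧
      resInf A M1 (x - c') = 0 := by
  have key : ∃ c' : Vinf A M1, (c' : FN M1) ∈ KL.C0 A (S.θ1 b) (FN M1) ∧
      resInf A M1 c' = resInf A M1 x := by
    rcases h with h | h
    · refine instC_normal_aux S b x (X ^ p) (monic_X_pow p) (by rw [natDegree_X_pow]; omega) c hc ?_
      rw [eval₂_pow, eval₂_X]
      rwa [map_sub, sub_eq_zero] at h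
    · obtain ⟨n, rfl⟩ : ∃ n, p = n + 1 + 1 := ⟨p - 2, by omega⟩
      have hm : (X ^ (n + 1 + 1) - X : (↥A)[X][X]).Monic := monic_X_pow_sub (by
        rw [degree_X]; exact_mod_cast (by omega : 1 < n + 1 + 1))
      have hd : (X ^ (n + 1 + 1) - X : (↥A)[X][X]).natDegree ≠ 0 := by
        rw [natDegree_sub_eq_left_of_natDegree_lt (by rw [natDegree_X, natDegree_X_pow]; omega),
          natDegree_X_pow]
        omega
      refine instC_normal_aux S b x _ hm hd c hc ?_
      rw [eval₂_sub, eval₂_pow, eval₂_X]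
      rwa [map_sub, sub_eq_zero] at h
  obtain ⟨c', hc', e⟩ := key
  exact ⟨c', hc', by rw [map_sub, e, sub_self]⟩

/-! ### global constants -/

section Glob

open IntermediateField

/-- the residue field -/
local notation "kq" => kA A

/-- reduction `A → ⊤ ⊆ k` -/
def instC_resT : (↥A) →+* (⊤ : ValuationSubring (kA A)) :=
  (IsLocalRing.residue A).codRestrict (⊤ : ValuationSubring (kA A)).toSubring (fun _ => trivial)

/-- the coordinate of the chart `b` on the special fibre -/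
def instC_sig (A : ValuationSubring Kb) (r : ℕ) [NeZero r] (b : Bool) : (kA A)⟮tq (kA A) r⟯ :=
  if b then (AdjoinSimple.gen (kA A) (tq (kA A) r))⁻¹ else AdjoinSimple.gen (kA A) (tq (kA A) r)

theorem instC_t1_mem : S.t1 ∈ Vinf A M1 := mem_Vinf_of_intRed (intRed_tauF M1 S.hr S.hr1 A)

theorem instC_resInf_t1 : resInf A M1 ⟨S.t1, instC_t1_mem S⟩ = tq (kA A) r :=
  resInf_of_intRed (intRed_tauF M1 S.hr S.hr1 A)

theorem instC_tq_ne_zero : tq (kA A) r ≠ 0 := by
  intro h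
  have := order_tq_neg (kA A) r
  rw [h] at this
  simp at this

theorem instC_resInf_ev_X (b : Bool) : resInf A M1 (instC_ev S b X) =
    algebraMap (kA A)⟮tq (kA A) r⟯ (LaurentSeries (kA A)) (instC_sig A r b) := by
  cases b
  · have e : instC_ev S false X = ⟨S.t1, instC_t1_mem S⟩ := by
      apply Subtype.ext
      show KL.evE A (S.θ1 false) (FN M1) X = S.t1
      rw [KL.evE_apply, KL.evL_X]
      rfl
    rw [e, instC_resInf_t1]
    rfl
  · have e : instC_ev S true X * ⟨S.t1, instC_t1_mem S⟩ = 1 := by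
      apply Subtype.ext
      show KL.evE A (S.θ1 true) (FN M1) X * S.t1 = 1
      rw [KL.evE_apply, KL.evL_X]
      show algebraMap S.L1 (FN M1) (S.τ1)⁻¹ * S.t1 = 1
      rw [map_inv₀]
      have h0 : S.t1 ≠ 0 := by
        intro h
        have h' : tauF S.H1 S.hr1 = 0 := h
        exact transcendental_tauF S.H1 S.hr1 (h' ▸ isAlgebraic_zero)
      exact inv_mul_cancel₀ h0
    have e2 := congrArg (resInf A M1) e
    rw [map_mul, instC_resInf_t1, map_one] at e2
    rw [eq_inv_of_mul_eq_one_left e2]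
    show _ = algebraMap (kA A)⟮tq (kA A) r⟯ (LaurentSeries (kA A))
      (AdjoinSimple.gen (kA A) (tq (kA A) r))⁻¹
    rw [map_inv₀]
    rfl

theorem instC_resInf_comp (b : Bool) : (resInf A M1).comp (instC_ev S b) =
    (KL.evE (⊤ : ValuationSubring (kA A)) (instC_sig A r b) (LaurentSeries (kA A))).comp
      (Polynomial.mapRingHom (instC_resT (A := A))) := by
  apply Polynomial.ringHom_ext
  · intro a
    rw [RingHom.comp_apply, RingHom.comp_apply, coe_mapRingHom, Polynomial.map_C, KL.SatB.evE_C]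
    have e : instC_ev S b (C a) = ⟨algebraMap Kb (FN M1) a, algebraMap_mem_Vinf a⟩ := by
      apply Subtype.ext
      show KL.evE A (S.θ1 b) (FN M1) (C a) = _
      rw [KL.SatB.evE_C]
      rfl
    rw [e, resInf_algebraMap]
    show _ = algebraMap (kA A) (LaurentSeries (kA A)) (IsLocalRing.residue A a)
    rw [algebraMap_laurentSeries_eq_single]
    rfl
  · rw [RingHom.comp_apply, RingHom.comp_apply, coe_mapRingHom, map_X, KL.evE_apply, KL.evL_X]
    exact instC_resInf_ev_X S b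

theorem instC_res_mem_C0 (b : Bool) (c : Vinf A M1) (hc : (c : FN M1) ∈ KL.C0 A (S.θ1 b) (FN M1)) :
    resInf A M1 c ∈ KL.C0 (⊤ : ValuationSubring (kA A)) (instC_sig A r b)
      (LaurentSeries (kA A)) := by
  obtain ⟨P, hP, hPc⟩ := hc
  have e2 : P.eval₂ (instC_ev S b) c = 0 := by
    apply Subtype.ext
    rw [instC_coe_eval₂]
    exact hPc
  refine ⟨P.map (Polynomial.mapRingHom (instC_resT (A := A))), hP.map _, ?_⟩
  rw [eval₂_map, ← instC_resInf_comp S b, ← Polynomial.hom_eval₂, e2, map_zero]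

theorem instC_glob (c₀ c₁ : Vinf A M1) (h0 : (c₀ : FN M1) ∈ KL.C0 A (S.θ1 false) (FN M1))
    (h1 : (c₁ : FN M1) ∈ KL.C0 A (S.θ1 true) (FN M1)) (h : resInf A M1 (c₀ - c₁) = 0) :
    ∃ a : A, resInf A M1 (c₀ - ⟨algebraMap Kb (FN M1) a, algebraMap_mem_Vinf a⟩) = 0 := by
  have := Fermat.Agent.S37.isAlgClosed_kk A
  have htr0 : Transcendental (kA A) (tq (kA A) r) :=
    transcendental_of_order_neg (order_tq_neg (kA A) r)
  have htr : Transcendental (kA A) (AdjoinSimple.gen (kA A) (tq (kA A) r)) := by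
    rw [← transcendental_algebraMap_iff (A := LaurentSeries (kA A))
      (algebraMap (kA A)⟮tq (kA A) r⟯ (LaurentSeries (kA A))).injective,
      AdjoinSimple.algebraMap_gen]
    exact htr0
  have e : resInf A M1 c₀ = resInf A M1 c₁ := by rwa [map_sub, sub_eq_zero] at h
  have m0 := instC_res_mem_C0 S false c₀ h0
  have m1 := instC_res_mem_C0 S true c₁ h1
  rw [← e] at m1
  obtain ⟨a, ha⟩ := KL.SatC.C0_inter_C0_inv (⊤ : ValuationSubring (kA A)) htr
    (Fermat.Agent.S37.Inter.isGen_gen _) m0 m1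
  obtain ⟨a', ha'⟩ := IsLocalRing.residue_surjective (a : kA A)
  refine ⟨a', ?_⟩
  rw [map_sub, resInf_algebraMap, ha, KL.SatB.evE_C, ha', sub_eq_zero]
  show algebraMap (kA A) (LaurentSeries (kA A)) (a : kA A) = _
  rw [algebraMap_laurentSeries_eq_single]
  rfl

end Glob

end Fermat.Agent.S33.M1
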