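import Fermat.Agent.S33.M1.InstDefs
import Fermat.Agent.S33.M1.InstC

/-!
# S33 / M1 : the chart fields `C_le, C_const, C_sat, C_root, C_normal, C_glob` of the instance of `Ctx`, in the exact shape of the
structure (`V = VG q M1`, `C = CB S`)     (helper27; key `S33/M1-INSTC`)
-/

set_option autoImplicit false
set_option synthInstance.maxHeartbeats 400000
set_option linter.unusedSectionVars false

open HahnSeries ModularCurve AlgebraicCurve Fermat.Agent.S24 Fermat.Agent.S29 Fermat.Agent.S18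
  Fermat.Agent.ES Fermat.Agent.ES.Alg Fermat.Agent.S34.Mod

noncomputable section

namespace Fermat.Agent.S33.M1

variable {q : Nat.Primes} {M1 r : ℕ} [NeZero M1] [NeZero (q : ℕ)] [NeZero r]

theorem instCV_mem {N : ℕ} [NeZero N] {x : FN N} :
    (VG q N).valuation x ≤ 1 ↔ x ∈ Vinf (AA q) N := by
  rw [ValuationSubring.valuation_le_one_iff, mem_VG]

theorem instCV_lt {N : ℕ} [NeZero N] (x : Vinf (AA q) N) :
    (VG q N).valuation (x : FN N) < 1 ↔ resInf (AA q) N x = 0 := by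
  rw [val_lt_one_iff, GT_zero_iff]

variable (S : Setup M1 (q : ℕ) r (AA q))

theorem CB_le (b : Bool) : ∀ x ∈ CB S b, (VG q M1).valuation x ≤ 1 :=
  fun _ hx => instCV_mem.mpr (instC_le S b hx)

theorem CB_const (b : Bool) (a : Kb) (h : (VG q M1).valuation (algebraMap Kb (FN M1) a) ≤ 1) :
    algebraMap Kb (FN M1) a ∈ CB S b :=
  instC_const S b (instCV_mem.mp h)

theorem CB_sat (b : Bool) (a : Kb) (x : FN M1) (ha : a ≠ 0) (hx : (VG q M1).valuation x ≤ 1)
    (h : algebraMap Kb (FN M1) a * x ∈ CB S b) : x ∈ CB S b :=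
  instC_sat S b ha (instCV_mem.mp hx) h

theorem CB_root (b : Bool) (x : FN M1) (h : x ^ (q : ℕ) ∈ CB S b) : x ∈ CB S b :=
  instC_root S b q.2.pos h

theorem CB_normal (b : Bool) (x : FN M1) (hx : (VG q M1).valuation x ≤ 1) :
    ∀ c ∈ CB S b, ((VG q M1).valuation (x ^ (q : ℕ) - c) < 1 ∨
      (VG q M1).valuation (x ^ (q : ℕ) - x - c) < 1) →
      ∃ c' ∈ CB S b, (VG q M1).valuation (x - c') < 1 := by
  intro c hc h
  obtain ⟨x', rfl⟩ : ∃ x' : Vinf (AA q) M1, (x' : FN M1) = x := ⟨⟨x, instCV_mem.mp hx⟩, rfl⟩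
  obtain ⟨c1, rfl⟩ : ∃ c1 : Vinf (AA q) M1, (c1 : FN M1) = c := ⟨⟨c, instC_le S b hc⟩, rfl⟩
  have h' : resInf (AA q) M1 (x' ^ (q : ℕ) - c1) = 0 ∨
      resInf (AA q) M1 (x' ^ (q : ℕ) - x' - c1) = 0 := by
    rcases h with h | h
    · left
      rw [← instCV_lt]
      simpa only [AddSubgroupClass.coe_sub,
        SubmonoidClass.coe_pow] using h
    · right
      rw [← instCV_lt]
      simpa only [AddSubgroupClass.coe_sub,
        SubmonoidClass.coe_pow] using h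
  obtain ⟨c', hc', e⟩ := instC_normal S b q.2.two_le x' c1 hc h'
  refine ⟨c', hc', ?_⟩
  rw [← instCV_lt] at e
  simpa only [AddSubgroupClass.coe_sub] using e

theorem CB_glob : ∀ c₀ ∈ CB S false, ∀ c₁ ∈ CB S true, (VG q M1).valuation (c₀ - c₁) < 1 →
    ∃ a : Kb, (VG q M1).valuation (c₀ - algebraMap Kb (FN M1) a) < 1 := by
  intro c₀ h0 c₁ h1 h
  obtain ⟨d0, rfl⟩ : ∃ d : Vinf (AA q) M1, (d : FN M1) = c₀ := ⟨⟨c₀, instC_le S false h0⟩, rfl⟩
  obtain ⟨d1, rfl⟩ : ∃ d : Vinf (AA q) M1, (d : FN M1) = c₁ := ⟨⟨c₁, instC_le S true h1⟩, rfl⟩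
  have h' : resInf (AA q) M1 (d0 - d1) = 0 := by
    rw [← instCV_lt]
    simpa only [AddSubgroupClass.coe_sub] using h
  obtain ⟨a, ha⟩ := instC_glob S d0 d1 h0 h1 h'
  refine ⟨a, ?_⟩
  rw [← instCV_lt] at ha
  simpa only [AddSubgroupClass.coe_sub] using ha

end Fermat.Agent.S33.M1
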