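import Fermat.Agent.S33.M1.InstDefs
import Fermat.Agent.S33.Ser.FN
import Fermat.Agent.S34.Mod.ChartAux

/-!
# S33/M1 : the fields `ψ`, `ψ_val`, `T_exp` of the instance of `Ctx`      key `S33/M1-TEXP`  (helper19)

`frobQ q` a Frobenius lift at `AA q`, `psiF q M1 = gal M1 (frobQ q)⁻¹`.

`T_p (1 + c y) ≡ 1 + c (ψ y) ^ p` modulo `c 𝔪`  (`c ∈ 𝔪`, `c ≠ 0`, `y` integral):
`u = 1 + c y`; `al (T_p u) / be u ≡ 1 (c e)`, `e ∈ 𝔪` (`congS_normAlpha` for `be u`; `e = ϖ` or `c ^ (p-1)`);  `be u = 1 + c be y`;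
`be y ≡ al ((ψ y) ^ p)` (`resInf_beta`, `ch4_twist`, `resInf_alpha`).  Come back to level `M1` by `wG_alpha`.
-/

set_option autoImplicit false
set_option synthInstance.maxHeartbeats 400000
set_option maxHeartbeats 400000
set_option linter.unusedSectionVars false

open HahnSeries ModularCurve AlgebraicCurve Fermat.Agent.S24 Fermat.Agent.S29 Fermat.Agent.S18
  Fermat.Agent.ES Fermat.Agent.ES.Alg Fermat.Agent.S34.Mod Fermat.Agent.S05 Fermat.Agent.S55.B ExtCitation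
open Fermat.Agent.S55 (Dq Iq)

noncomputable section

namespace Fermat.Agent.S33.M1

variable (q : Nat.Primes)

theorem texpAux_lies : (AA q).LiesOverPrime (q : ℕ) :=
  Fermat.Agent.S55.D.liesOverPrime_primeLocalPlace q

/-- a Frobenius lift at `AA q` -/
def frobQ : GQ := (Fermat.Agent.Frob.exists_isFrobeniusAt (AA q) q.2 (texpAux_lies q)).choose

theorem frobQ_spec : (AA q).IsFrobeniusAt (frobQ q) (q : ℕ) :=
  (Fermat.Agent.Frob.exists_isFrobeniusAt (AA q) q.2 (texpAux_lies q)).choose_spec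

theorem frobQ_inv_mem : (frobQ q)⁻¹ ∈ Dq q := inv_mem (frobQ_spec q).mem_decompositionSubgroup

/-- the inverse Frobenius lift on `FN N` -/
def psiF (N : ℕ) [NeZero N] : FN N ≃+* FN N := gal N (frobQ q)⁻¹

variable {q}
variable {M1 r : ℕ} [NeZero M1] [NeZero (q : ℕ)] [NeZero r]

theorem wG_psiF {N : ℕ} [NeZero N] (x : FN N) : (wG q N).w (psiF q N x) = (wG q N).w x :=
  wG_gal (frobQ_inv_mem q) x

/-- `be y ≡ al ((ψ y) ^ p)` -/
theorem GT_beta_sub_alpha (S : Setup M1 (q : ℕ) r (AA q)) {y : FN M1} (hy : (wG q M1).GE y 0) :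
    (wG q (M1 * (q : ℕ))).GT (heckeBetaBar Kb M1 (q : ℕ) y -
      heckeAlphaBar Kb M1 (q : ℕ) (psiF q M1 y ^ (q : ℕ))) 0 := by
  have hyV : y ∈ Vinf (AA q) M1 := GE_zero_iff.mp hy
  have hψV : psiF q M1 y ∈ Vinf (AA q) M1 := gal_mem_Vinf (frobQ_inv_mem q) hyV
  have hψp : psiF q M1 y ^ (q : ℕ) ∈ Vinf (AA q) M1 := pow_mem hψV _
  have h1 := resInf_beta (A := AA q) (q := (q : ℕ)) (⟨y, hyV⟩ : Vinf (AA q) M1)
  have h2 := resInf_alpha (A := AA q) (q := (q : ℕ)) (⟨psiF q M1 y ^ (q : ℕ), hψp⟩ : Vinf (AA q) M1)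
  have h3 := ch4_twist S (frobQ_spec q) (⟨y, hyV⟩ : Vinf (AA q) M1)
  have h4 : resInf (AA q) M1 ⟨psiF q M1 y ^ (q : ℕ), hψp⟩ =
      resInf (AA q) M1 ⟨psiF q M1 y, hψV⟩ ^ (q : ℕ) :=
    map_pow (resInf (AA q) M1) (⟨psiF q M1 y, hψV⟩ : Vinf (AA q) M1) (q : ℕ)
  have hb : heckeBetaBar Kb M1 (q : ℕ) y ∈ Vinf (AA q) (M1 * (q : ℕ)) := beta_mem_Vinf hyV
  have ha : heckeAlphaBar Kb M1 (q : ℕ) (psiF q M1 y ^ (q : ℕ)) ∈ Vinf (AA q) (M1 * (q : ℕ)) :=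
    alpha_mem_Vinf hψp
  have e : (⟨heckeBetaBar Kb M1 (q : ℕ) y - heckeAlphaBar Kb M1 (q : ℕ) (psiF q M1 y ^ (q : ℕ)),
      sub_mem hb ha⟩ : Vinf (AA q) (M1 * (q : ℕ))) = ⟨_, hb⟩ - ⟨_, ha⟩ := rfl
  have h5 := GT_zero_iff (q := q) (N := M1 * (q : ℕ))
    (⟨heckeBetaBar Kb M1 (q : ℕ) y - heckeAlphaBar Kb M1 (q : ℕ) (psiF q M1 y ^ (q : ℕ)),
      sub_mem hb ha⟩ : Vinf (AA q) (M1 * (q : ℕ)))
  refine h5.mpr ?_
  rw [e, map_sub, sub_eq_zero]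
  exact h1.trans (h3.trans (h4.symm.trans h2.symm))

/-- **`T_exp`** in the language of `wG` -/
theorem GT_Tl_exp (S : Setup M1 (q : ℕ) r (AA q)) {c : Kb} (hc0 : c ≠ 0) (hc : (wq q).GT c 0)
    {y : FN M1} (hy : (wG q M1).GE y 0) :
    (wG q M1).GT (Tl M1 (q : ℕ) (1 + algebraMap Kb (FN M1) c * y) - 1 -
      algebraMap Kb (FN M1) c * psiF q M1 y ^ (q : ℕ)) ((wq q).w c) := by
  obtain ⟨hcA, hcm⟩ := valAux_mem_max hc
  obtain ⟨Z⟩ := exists_zetaData (A := AA q) q.2 (texpAux_lies q)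
  have hyV : y ∈ Vinf (AA q) M1 := GE_zero_iff.mp hy
  obtain ⟨u, hu⟩ : ∃ u, u = 1 + algebraMap Kb (FN M1) c * y := ⟨_, rfl⟩
  rw [← hu]
  have hCu : CongS (AA q) ⟨c, hcA⟩ (u : LaurentSeries Kb) := congS_iff.mpr ⟨y, hyV, hu⟩
  have hu0 : u ≠ 0 := by
    intro h0
    apply hCu.ne_zero hcm
    rw [h0]; rfl
  -- the modulus
  obtain ⟨e, hem, hd1, hd2⟩ : ∃ e : AA q, e ∈ IsLocalRing.maximalIdeal (AA q) ∧
      (⟨c, hcA⟩ : AA q) * e ∣ Z.ϖ * ⟨c, hcA⟩ ∧ (⟨c, hcA⟩ : AA q) * e ∣ (⟨c, hcA⟩ : AA q) ^ (q : ℕ) := by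
    have hq1 : (q : ℕ) = ((q : ℕ) - 1) + 1 := (Nat.sub_add_cancel q.2.one_le).symm
    have hq0 : (q : ℕ) - 1 ≠ 0 := Nat.sub_ne_zero_of_lt q.2.one_lt
    have epow : (⟨c, hcA⟩ : AA q) ^ (q : ℕ) = ⟨c, hcA⟩ * (⟨c, hcA⟩ : AA q) ^ ((q : ℕ) - 1) := by
      conv_lhs => rw [hq1, pow_succ']
    rcases ValuationRing.dvd_total Z.ϖ ((⟨c, hcA⟩ : AA q) ^ ((q : ℕ) - 1)) with h | h
    · exact ⟨Z.ϖ, Z.mem, by rw [mul_comm], by rw [epow]; exact mul_dvd_mul_left _ h⟩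
    · refine ⟨(⟨c, hcA⟩ : AA q) ^ ((q : ℕ) - 1), Ideal.pow_mem_of_mem _ hcm _ (Nat.pos_of_ne_zero hq0),
        ?_, by rw [epow]⟩
      rw [mul_comm]; exact mul_dvd_mul_right h _
  have hb0 : heckeBetaBar Kb M1 (q : ℕ) u ≠ 0 := (map_ne_zero _).2 hu0
  have hN := congS_normAlpha q.2 S.hc Z hd1 hd2 (heckeBetaBar Kb M1 (q : ℕ) u) hb0 (by
    rw [Wq_beta, coe_heckeAlphaBar]; exact hCu)
  obtain ⟨z, hz, ez⟩ := congS_iff.mp hN
  -- notation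
  set W := wG q (M1 * (q : ℕ)) with hW
  set cF := algebraMap Kb (FN (M1 * (q : ℕ))) c with hcF
  set eF := algebraMap Kb (FN (M1 * (q : ℕ))) (e : Kb) with heF
  have hconst : algebraMap Kb (FN (M1 * (q : ℕ))) (((⟨c, hcA⟩ : AA q) * e : AA q) : Kb) = cF * eF := by
    rw [hcF, heF, ← map_mul]; rfl
  rw [hconst] at ez
  have hbu : heckeBetaBar Kb M1 (q : ℕ) u = 1 + cF * heckeBetaBar Kb M1 (q : ℕ) y := by
    rw [hu, map_add, map_one, map_mul, AlgHom.commutes]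
  have hT : heckeAlphaBar Kb M1 (q : ℕ) (Tl M1 (q : ℕ) u) =
      heckeBetaBar Kb M1 (q : ℕ) u * (1 + cF * eF * z) := by
    rw [← ez, Tl_apply, mul_left_comm, mul_inv_cancel₀ hb0, mul_one]
  have key : heckeAlphaBar Kb M1 (q : ℕ) (Tl M1 (q : ℕ) u - 1 -
      algebraMap Kb (FN M1) c * psiF q M1 y ^ (q : ℕ)) =
      cF * (eF * (z * heckeBetaBar Kb M1 (q : ℕ) u) + (heckeBetaBar Kb M1 (q : ℕ) y -
        heckeAlphaBar Kb M1 (q : ℕ) (psiF q M1 y ^ (q : ℕ)))) := by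
    rw [map_sub, map_sub, map_one, map_mul, AlgHom.commutes, hT]
    conv_lhs => rw [mul_add, mul_one]
    conv_lhs => enter [1, 1, 1]; rw [hbu]
    ring
  have hbV : W.GE (heckeBetaBar Kb M1 (q : ℕ) u) 0 :=
    GE_zero_iff.mpr (beta_mem_Vinf (mem_Vinf_iff.mpr hCu.mem))
  have heGT : W.GT eF 0 := by
    by_cases he0 : (e : Kb) = 0
    · left; rw [heF, he0, map_zero]
    · right
      rw [heF, hW, wG_algebraMap he0]
      exact ((GT_zero_iff_mem_nonunits q).mpr (ValuationSubring.coe_mem_nonunits_iff.mpr hem)).lt_w he0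
  have h1 : W.GT (eF * (z * heckeBetaBar Kb M1 (q : ℕ) u)) (0 + (0 + 0)) :=
    heGT.mul_GE ((GE_zero_iff.mpr hz).mul hbV)
  rw [add_zero, add_zero] at h1
  have h2 := GT_beta_sub_alpha S hy
  have h3 : W.GT (eF * (z * heckeBetaBar Kb M1 (q : ℕ) u) + (heckeBetaBar Kb M1 (q : ℕ) y -
        heckeAlphaBar Kb M1 (q : ℕ) (psiF q M1 y ^ (q : ℕ)))) 0 := h1.add h2
  have hcGE : W.GE cF ((wq q).w c) := Or.inr (by rw [hcF, hW, wG_algebraMap hc0])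
  have h4 := hcGE.mul_GT h3
  rw [add_zero, ← key] at h4
  rcases h4 with h4 | h4
  · left
    exact (map_eq_zero _).mp h4
  · right
    rwa [hW, wG_alpha] at h4

/-! ### the fields of `Ctx` -/

theorem psiF_val {N : ℕ} [NeZero N] (x : FN N) :
    (VG q N).valuation (psiF q N x) = (VG q N).valuation x := by
  by_cases hx : x = 0
  · rw [hx, map_zero]
  · exact (val_eq_iff ((map_ne_zero _).2 hx) hx).mpr (wG_psiF x)

theorem TT_exp (S : Setup M1 (q : ℕ) r (AA q)) (c : Kb) (y : FN M1) (hc0 : c ≠ 0)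
    (hc : (VG q M1).valuation (algebraMap Kb (FN M1) c) < 1) (hy : (VG q M1).valuation y ≤ 1) :
    (VG q M1).valuation (TT q M1 (1 + algebraMap Kb (FN M1) c * y) - 1 -
      algebraMap Kb (FN M1) c * psiF q M1 y ^ (q : ℕ)) <
      (VG q M1).valuation (algebraMap Kb (FN M1) c) :=
  (val_lt_const_iff hc0).mpr (GT_Tl_exp S hc0 (val_const_lt_one_iff.mp hc) (val_le_one_iff.mp hy))

end Fermat.Agent.S33.M1
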