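import Fermat.Agent.S33.M1.InstDefs
import Fermat.Agent.S33.M1.InstTexp
import Fermat.Agent.S33.M1.InstB
import Fermat.Agent.S33.M1.InstCV
import Fermat.Agent.S33.M1.Abs
import Fermat.Agent.S34.Mod.Act
import Fermat.Agent.S24.DiffLocal
import Fermat.Agent.S35.Idem
import Fermat.Agent.ES.AlgOrd
import Fermat.Agent.S29.ESRel

/-!
# S33/M1 : the instance of `Ctx` for `F = FN M1`         key `S33/M1-INST` (helper14)

`ctx S hq2 : Ctx q Kb (FN M1) ↥(Iq q)`.  Fields: `InstB.lean` (helper10 & co), `InstTexp.lean` (helper19), small fields here.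
The chart fields `inst_C_*` (section `Charts`) come from `InstC.lean`, `InstCV.lean` (helper27).
-/

set_option autoImplicit false
set_option synthInstance.maxHeartbeats 400000
set_option maxHeartbeats 400000
set_option linter.unusedSectionVars false

open HahnSeries ModularCurve AlgebraicCurve Fermat.Agent.S24 Fermat.Agent.S29 Fermat.Agent.S18
  Fermat.Agent.ES Fermat.Agent.ES.Alg Fermat.Agent.S34.Mod Fermat.Agent.S05 Fermat.Agent.S55.B ExtCitation
open Fermat.Agent.S55 (Dq Iq)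

noncomputable section

namespace Fermat.Agent.S33.M1

variable (q : Nat.Primes)

theorem exists_zetaQ : ∃ ζ : Kb, IsPrimitiveRoot ζ (q : ℕ) := by
  have : NeZero ((q : ℕ) : Kb) := ⟨by exact_mod_cast q.2.ne_zero⟩
  exact HasEnoughRootsOfUnity.exists_primitiveRoot Kb (q : ℕ)

/-- a primitive `p`-th root of unity -/
def zetaQ : Kb := (exists_zetaQ q).choose

theorem zetaQ_spec : IsPrimitiveRoot (zetaQ q) (q : ℕ) := (exists_zetaQ q).choose_spec

variable {q}
variable {M1 r : ℕ} [NeZero M1] [NeZero (q : ℕ)] [NeZero r]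

section Small

theorem inst_root (a : Kb) : ∃ b : Kb, b ^ (q : ℕ) = a :=
  IsAlgClosed.exists_pow_nat_eq a q.2.pos

theorem inst_wp {N : ℕ} [NeZero N] : (VG q N).valuation (((q : ℕ) : ℕ) : FN N) < 1 := by
  have e : (((q : ℕ) : ℕ) : FN N) = algebraMap Kb (FN N) ((q : ℕ) : Kb) := by rw [map_natCast]
  rw [e, val_const_lt_one_iff]
  right
  rw [wq_q]
  exact one_pos

theorem inst_PD_const {N : ℕ} [NeZero N] (a : Kb) (ha : a ≠ 0) :
    PDiv Kb (FN N) (q : ℕ) (algebraMap Kb (FN N) a) :=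
  ⟨(map_ne_zero _).mpr ha, fun P => by rw [Fermat.Agent.S24.Diff.ord_algebraMap]; exact dvd_zero _⟩

theorem inst_T_rho (s : ↥(Iq q)) (x : FN M1) : rho q M1 s (TT q M1 x) = TT q M1 (rho q M1 s x) :=
  gal_Tl M1 (q : ℕ) (s : GQ) x

theorem inst_T_PD (u : FN M1) (hu : PDiv Kb (FN M1) (q : ℕ) u) :
    PDiv Kb (FN M1) (q : ℕ) (TT q M1 u) :=
  Fermat.Agent.ES.Alg.PDiv.Tl M1 (q : ℕ) hu

end Small

section Charts   -- helper27 (InstC)

variable (S : Setup M1 (q : ℕ) r (AA q))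

theorem inst_C_le (b : Bool) (x : FN M1) (hx : x ∈ CB S b) : (VG q M1).valuation x ≤ 1 :=
  CB_le S b x hx

theorem inst_C_const (b : Bool) (a : Kb) (ha : (VG q M1).valuation (algebraMap Kb (FN M1) a) ≤ 1) :
    algebraMap Kb (FN M1) a ∈ CB S b :=
  CB_const S b a ha

theorem inst_C_sat (b : Bool) (a : Kb) (x : FN M1) (ha : a ≠ 0) (hx : (VG q M1).valuation x ≤ 1)
    (h : algebraMap Kb (FN M1) a * x ∈ CB S b) : x ∈ CB S b :=
  CB_sat S b a x ha hx h

theorem inst_C_root (b : Bool) (x : FN M1) (h : x ^ (q : ℕ) ∈ CB S b) : x ∈ CB S b :=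
  CB_root S b x h

theorem inst_C_normal (b : Bool) (x : FN M1) (hx : (VG q M1).valuation x ≤ 1) (c : FN M1)
    (hc : c ∈ CB S b)
    (h : (VG q M1).valuation (x ^ (q : ℕ) - c) < 1 ∨ (VG q M1).valuation (x ^ (q : ℕ) - x - c) < 1) :
    ∃ c' ∈ CB S b, (VG q M1).valuation (x - c') < 1 :=
  CB_normal S b x hx c hc h

theorem inst_C_glob (c₀ : FN M1) (h₀ : c₀ ∈ CB S false) (c₁ : FN M1) (h₁ : c₁ ∈ CB S true)
    (h : (VG q M1).valuation (c₀ - c₁) < 1) :
    ∃ a : Kb, (VG q M1).valuation (c₀ - algebraMap Kb (FN M1) a) < 1 :=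
  CB_glob S c₀ h₀ c₁ h₁ h

end Charts

/-- **the instance** -/
def ctx (S : Setup M1 (q : ℕ) r (AA q)) (hq2 : (q : ℕ) ≠ 2) : Ctx (q : ℕ) Kb (FN M1) ↥(Iq q) where
  V := VG q M1
  ζ := zetaQ q
  C := CB S
  PD := PDiv Kb (FN M1) (q : ℕ)
  ρ := rho q M1
  ρK := rhoK q
  T := TT q M1
  ψ := psiF q M1
  Adm := Adm q
  hp := q.2
  hp2 := hq2
  root := inst_root
  hζ := zetaQ_spec q
  wp := inst_wp
  scale := VG_scale
  C_le := inst_C_le S
  C_const := inst_C_const S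
  C_sat := inst_C_sat S
  C_root := inst_C_root S
  C_normal := inst_C_normal S
  C_glob := inst_C_glob S
  PD_ne := fun _ h => h.1
  PD_mul := fun _ _ h h' => Fermat.Agent.S29.PDiv.mul h h'
  PD_inv := fun _ h => Fermat.Agent.S29.PDiv.inv h
  PD_pow := fun _ h => Fermat.Agent.S35.PDiv.pow_self h
  PD_const := inst_PD_const
  PD_loc := PD_loc S
  cech := cech S hq2 (zetaQ_spec q)
  ρ_alg := rho_alg
  ρ_val := rho_val
  ρ_inert := rho_inert
  ρ_C := rho_C S
  ρ_PD := rho_PD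
  T_ρ := inst_T_rho
  T_PD := inst_T_PD
  ψ_val := psiF_val
  T_exp := TT_exp S
  adm1 := adm1 (zetaQ_spec q)
  adm_ex := adm_ex
  unif := unif
  unif1 := unif1 (zetaQ_spec q)
  h90 := h90
  retr := retr

end Fermat.Agent.S33.M1
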