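import Fermat.Agent.S33.Val.Gauss

/-!
# S33/M1 : BRIDGE between the real valued Gauss valuation `wG q N` and `ValuationSubring` language (for the instance of `M1.Ctx`)     (helper10)

* `vsOf v : ValuationSubring F` for `v : RVal F` (`x ∈ vsOf v ↔ v.GE x 0`), with the dictionary
  `vsOf_le_one_iff, vsOf_lt_one_iff, vsOf_le_iff, vsOf_lt_iff, vsOf_eq_iff` (`y ≠ 0`: `val x ≤ val y ↔ v.GE x (v.w y)`, `val x < val y ↔ v.GT x (v.w y)`).
The concrete `VG q N` and its dictionary are in `S33/M1/InstDefs.lean` (`VG_eq : VG q N = vsOf (wG q N)`).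
-/

set_option autoImplicit false
set_option synthInstance.maxHeartbeats 400000

open HahnSeries ModularCurve AlgebraicCurve Fermat.Agent.S24 Fermat.Agent.S29 Fermat.Agent.S18
  Fermat.Agent.ES Fermat.Agent.ES.Alg Fermat.Agent.S34.Mod Fermat.Agent.S05 Fermat.Agent.S55.B ExtCitation
open Fermat.Agent.S55 (Dq Iq)

noncomputable section

namespace Fermat.Agent.S33.M1

section abs

variable {F : Type*} [Field F] (v : RVal F)

/-- the valuation ring of a real valued valuation -/
def vsOf : ValuationSubring F where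
  carrier := {x | v.GE x 0}
  mul_mem' := fun {x y} hx hy => by
    have := RVal.GE.mul hx hy
    rwa [add_zero] at this
  one_mem' := Or.inr (by rw [RVal.w_one])
  add_mem' := fun hx hy => RVal.GE.add hx hy
  zero_mem' := Or.inl rfl
  neg_mem' := fun hx => RVal.GE.neg hx
  mem_or_inv_mem' := fun x => by
    by_cases hx : x = 0
    · exact Or.inl (Or.inl hx)
    rcases le_total 0 (v.w x) with h | h
    · exact Or.inl (Or.inr h)
    · refine Or.inr (Or.inr ?_)
      rw [RVal.w_inv hx]; linarith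

variable {v}

theorem mem_vsOf {x : F} : x ∈ vsOf v ↔ v.GE x 0 := Iff.rfl

theorem vsOf_le_one_iff {x : F} : (vsOf v).valuation x ≤ 1 ↔ v.GE x 0 :=
  (vsOf v).valuation_le_one_iff x

theorem vsOf_lt_one_iff {x : F} : (vsOf v).valuation x < 1 ↔ v.GT x 0 := by
  by_cases hx : x = 0
  · rw [hx, map_zero]
    exact ⟨fun _ => Or.inl rfl, fun _ => zero_lt_one⟩
  have h1 : (vsOf v).valuation x < 1 ↔ ¬ (vsOf v).valuation x⁻¹ ≤ 1 := by
    rw [map_inv₀, not_le]
    have h0 : 0 < (vsOf v).valuation x := zero_lt_iff.mpr ((Valuation.ne_zero_iff _).mpr hx)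
    rw [one_lt_inv₀ h0]
  rw [h1, vsOf_le_one_iff]
  constructor
  · intro h
    refine Or.inr ?_
    by_contra h2
    apply h
    refine Or.inr ?_
    rw [RVal.w_inv hx]; linarith
  · intro h h2
    have h3 := h.lt_w hx
    have h4 := h2.le_w (inv_ne_zero hx)
    rw [RVal.w_inv hx] at h4
    linarith

theorem vsOf_le_iff {x y : F} (hy : y ≠ 0) :
    (vsOf v).valuation x ≤ (vsOf v).valuation y ↔ v.GE x (v.w y) := by
  have h0 : 0 < (vsOf v).valuation y := zero_lt_iff.mpr ((Valuation.ne_zero_iff _).mpr hy)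
  have h1 : (vsOf v).valuation x ≤ (vsOf v).valuation y ↔ (vsOf v).valuation (x / y) ≤ 1 := by
    rw [map_div₀, div_le_one₀ h0]
  rw [h1, vsOf_le_one_iff]
  by_cases hx : x = 0
  · rw [hx, zero_div]
    exact ⟨fun _ => Or.inl rfl, fun _ => Or.inl rfl⟩
  constructor
  · intro h
    have := h.le_w (div_ne_zero hx hy)
    rw [RVal.w_div hx hy] at this
    exact Or.inr (by linarith)
  · intro h
    have := h.le_w hx
    refine Or.inr ?_
    rw [RVal.w_div hx hy]; linarith

theorem vsOf_lt_iff {x y : F} (hy : y ≠ 0) :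
    (vsOf v).valuation x < (vsOf v).valuation y ↔ v.GT x (v.w y) := by
  have h0 : 0 < (vsOf v).valuation y := zero_lt_iff.mpr ((Valuation.ne_zero_iff _).mpr hy)
  have h1 : (vsOf v).valuation x < (vsOf v).valuation y ↔ (vsOf v).valuation (x / y) < 1 := by
    rw [map_div₀, div_lt_one₀ h0]
  rw [h1, vsOf_lt_one_iff]
  by_cases hx : x = 0
  · rw [hx, zero_div]
    exact ⟨fun _ => Or.inl rfl, fun _ => Or.inl rfl⟩
  constructor
  · intro h
    have := h.lt_w (div_ne_zero hx hy)
    rw [RVal.w_div hx hy] at this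
    exact Or.inr (by linarith)
  · intro h
    have := h.lt_w hx
    refine Or.inr ?_
    rw [RVal.w_div hx hy]; linarith

theorem vsOf_eq_iff {x y : F} (hx : x ≠ 0) (hy : y ≠ 0) :
    (vsOf v).valuation x = (vsOf v).valuation y ↔ v.w x = v.w y := by
  rw [le_antisymm_iff, vsOf_le_iff hy, vsOf_le_iff hx]
  constructor
  · rintro ⟨h1, h2⟩
    exact le_antisymm (h2.le_w hy) (h1.le_w hx)
  · intro h
    exact ⟨Or.inr h.ge, Or.inr h.le⟩

end abs

end Fermat.Agent.S33.M1
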