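import Fermat.Agent.S33.M1.Ctx
import Fermat.Agent.S33.Geo.Defs
import Fermat.Agent.S33.Rat.Api
import Fermat.Agent.S33.M1.InstV

/-!
# S33/M1 : the concrete objects of the instance of `Ctx`, and the dictionary `Valuation ↔ RVal`      (helper1)      key `S33/M1-DICT` (the `sorry`s of this file; ~150 lines)

`q : Nat.Primes` is `p`;  `F = FN N`, `K = Kb`, `G = ↥(Iq q)`.

* `VG q N : ValuationSubring (FN N)` with carrier `Vinf (AA q) N`;
* `CB S b : Subring (FN M1)` with carrier `KL.C0 (AA q) (S.θ1 b) (FN M1)`;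
* `rho q N s = gal N s`, `rhoK q s = s` (as ring automorphisms), `TT q M1 = Tl M1 q`;
* `Adm q H` : `H` is (the set of elements of) a subgroup of finite index of `Iq q`.

Dictionary (`v = (VG q N).valuation`, `w = wG q N`): `v x ≤ 1 ↔ w.GE x 0`, `v x < 1 ↔ w.GT x 0`, and for `y ≠ 0`: `v x ≤ v y ↔ w.GE x (w y)`, `v x < v y ↔ w.GT x (w y)`.
Proofs: `ValuationSubring.valuation_le_one_iff`, `valuation_lt_one_iff` (or: `v x < 1 ↔ ¬ 1 ≤ v x ↔ ¬ v x⁻¹ ≤ 1` for `x ≠ 0`), `GE_zero_iff`; `v x ≤ v y ↔ v (x / y) ≤ 1` (`map_div₀`, `div_le_one₀`), `w (x / y) = w x - w y` (`RVal.w_div`).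
-/

set_option autoImplicit false
set_option synthInstance.maxHeartbeats 400000
set_option linter.unusedSectionVars false

open HahnSeries ModularCurve AlgebraicCurve Fermat.Agent.S24 Fermat.Agent.S29 Fermat.Agent.S18
  Fermat.Agent.ES Fermat.Agent.ES.Alg Fermat.Agent.S34.Mod Fermat.Agent.S05 Fermat.Agent.S55.B ExtCitation
open Fermat.Agent.S55 (Dq Iq)

noncomputable section

namespace Fermat.Agent.S33.M1

variable (q : Nat.Primes) (N : ℕ) [NeZero N]

/-- the Gauss valuation ring at `∞` as a `ValuationSubring` -/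
def VG : ValuationSubring (FN N) :=
  { Vinf (AA q) N with mem_or_inv_mem' := mem_or_inv_mem }

variable {q N}

theorem mem_VG {x : FN N} : x ∈ VG q N ↔ x ∈ Vinf (AA q) N := Iff.rfl

theorem VG_eq : VG q N = vsOf (wG q N) := by
  ext x
  exact GE_zero_iff.symm

theorem val_le_one_iff {x : FN N} : (VG q N).valuation x ≤ 1 ↔ (wG q N).GE x 0 := by
  rw [ValuationSubring.valuation_le_one_iff, mem_VG, GE_zero_iff]

theorem val_lt_one_iff {x : FN N} : (VG q N).valuation x < 1 ↔ (wG q N).GT x 0 := by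
  rw [VG_eq]; exact vsOf_lt_one_iff

theorem val_le_iff {x y : FN N} (hy : y ≠ 0) :
    (VG q N).valuation x ≤ (VG q N).valuation y ↔ (wG q N).GE x ((wG q N).w y) := by
  rw [VG_eq]; exact vsOf_le_iff hy

theorem val_lt_iff {x y : FN N} (hy : y ≠ 0) :
    (VG q N).valuation x < (VG q N).valuation y ↔ (wG q N).GT x ((wG q N).w y) := by
  rw [VG_eq]; exact vsOf_lt_iff hy

theorem val_eq_iff {x y : FN N} (hx : x ≠ 0) (hy : y ≠ 0) :
    (VG q N).valuation x = (VG q N).valuation y ↔ (wG q N).w x = (wG q N).w y := by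
  rw [VG_eq]; exact vsOf_eq_iff hx hy

/-- constants -/
theorem val_le_const_iff {x : FN N} {c : Kb} (hc : c ≠ 0) :
    (VG q N).valuation x ≤ (VG q N).valuation (algebraMap Kb (FN N) c) ↔
      (wG q N).GE x ((wq q).w c) := by
  rw [← wG_algebraMap (q := q) (N := N) hc]
  exact val_le_iff ((map_ne_zero _).2 hc)

theorem val_lt_const_iff {x : FN N} {c : Kb} (hc : c ≠ 0) :
    (VG q N).valuation x < (VG q N).valuation (algebraMap Kb (FN N) c) ↔
      (wG q N).GT x ((wq q).w c) := by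
  rw [← wG_algebraMap (q := q) (N := N) hc]
  exact val_lt_iff ((map_ne_zero _).2 hc)

theorem val_const_le_one_iff {c : Kb} :
    (VG q N).valuation (algebraMap Kb (FN N) c) ≤ 1 ↔ c ∈ AA q := by
  rw [val_le_one_iff]
  by_cases hc : c = 0
  · rw [hc, map_zero]; exact ⟨fun _ => zero_mem _, fun _ => Or.inl rfl⟩
  have hcF : algebraMap Kb (FN N) c ≠ 0 := (map_ne_zero _).2 hc
  rw [← wq_nonneg_iff q hc]
  constructor
  · intro h
    have := h.le_w hcF
    rwa [wG_algebraMap hc] at this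
  · intro h
    refine Or.inr ?_
    rw [wG_algebraMap hc]; exact h

theorem val_const_lt_one_iff {c : Kb} :
    (VG q N).valuation (algebraMap Kb (FN N) c) < 1 ↔ (wq q).GT c 0 := by
  rw [val_lt_one_iff]
  by_cases hc : c = 0
  · rw [hc, map_zero]; exact ⟨fun _ => Or.inl rfl, fun _ => Or.inl rfl⟩
  have hcF : algebraMap Kb (FN N) c ≠ 0 := (map_ne_zero _).2 hc
  constructor
  · intro h
    have := h.lt_w hcF
    rw [wG_algebraMap hc] at this
    exact Or.inr this
  · intro h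
    refine Or.inr ?_
    rw [wG_algebraMap hc]; exact h.lt_w hc

/-- powers -/
theorem val_eq_zpow_iff {x y : FN N} (hx : x ≠ 0) (hy : y ≠ 0) (n : ℤ) :
    (VG q N).valuation x = (VG q N).valuation y ^ n ↔ (wG q N).w x = n * (wG q N).w y := by
  rw [← map_zpow₀, val_eq_iff hx (zpow_ne_zero _ hy), RVal.w_zpow hy]

/-- field `scale` of `Ctx` -/
theorem VG_scale (x : FN N) :
    ∃ a : Kb, (VG q N).valuation x = (VG q N).valuation (algebraMap Kb (FN N) a) := by
  by_cases hx : x = 0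
  · exact ⟨0, by rw [hx, map_zero, map_zero, map_zero]⟩
  obtain ⟨c, u, hc, -, -, -, hw⟩ := exists_wG_eq (q := q) hx
  refine ⟨c, (val_eq_iff hx ((map_ne_zero _).2 hc)).mpr ?_⟩
  rw [hw, wG_algebraMap hc]

/-- field `ρ_val` of `Ctx` -/
theorem VG_gal {σ : GQ} (hσ : σ ∈ Dq q) (x : FN N) :
    (VG q N).valuation (gal N σ x) = (VG q N).valuation x := by
  by_cases hx : x = 0
  · rw [hx, map_zero]
  exact (val_eq_iff ((map_ne_zero _).2 hx) hx).mpr (wG_gal hσ x)

/-- field `ρ_inert` of `Ctx` -/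
theorem VG_gal_sub {σ : GQ} (hσ : σ ∈ Iq q) {x : FN N} (hx : (VG q N).valuation x ≤ 1) :
    (VG q N).valuation (gal N σ x - x) < 1 :=
  val_lt_one_iff.mpr (GT_gal_sub hσ (val_le_one_iff.mp hx))

variable (q N)

/-- the inertia group acts on `FN N` -/
def rho (s : ↥(Iq q)) : FN N ≃+* FN N := gal N (s : GQ)

/-- the inertia group acts on `Kb` -/
def rhoK (s : ↥(Iq q)) : Kb ≃+* Kb := ((s : GQ) : Kb ≃ₐ[ℚ] Kb).toRingEquiv

variable {q N}

@[simp] theorem rho_apply (s : ↥(Iq q)) (x : FN N) : rho q N s x = gal N (s : GQ) x := rfl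

@[simp] theorem rhoK_apply (s : ↥(Iq q)) (a : Kb) : rhoK q s a = (s : GQ) a := rfl

variable (q)

/-- admissible subsets of `Iq q` : subgroups of finite index -/
def Adm (H : Set ↥(Iq q)) : Prop :=
  ∃ H' : Subgroup GQ, H' ≤ Iq q ∧ H'.relIndex (Iq q) ≠ 0 ∧ H = {s : ↥(Iq q) | (s : GQ) ∈ H'}

/-- the Hecke operator `T_p` -/
def TT (M1 : ℕ) [NeZero M1] [NeZero (q : ℕ)] : FN M1 →* FN M1 := Tl M1 (q : ℕ)

variable {q}
variable {M1 r : ℕ} [NeZero M1] [NeZero (q : ℕ)] [NeZero r]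

/-- the two affine charts -/
def CB (S : Setup M1 (q : ℕ) r (AA q)) (b : Bool) : Subring (FN M1) :=
  KL.C0 (AA q) (S.θ1 b) (FN M1)

theorem mem_CB (S : Setup M1 (q : ℕ) r (AA q)) (b : Bool) {x : FN M1} :
    x ∈ CB S b ↔ x ∈ KL.C0 (AA q) (S.θ1 b) (FN M1) := Iff.rfl

/-- rationality in the sense of `Ctx` and `ratF` -/
theorem rat_iff {H' : Subgroup GQ} (hH : H' ≤ Iq q) {x : FN N} :
    (∀ s ∈ {s : ↥(Iq q) | (s : GQ) ∈ H'}, rho q N s x = x) ↔ x ∈ ratF N H' := by
  rw [mem_ratF]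
  constructor
  · intro h σ hσ
    exact h ⟨σ, hH hσ⟩ hσ
  · intro h s hs
    exact h (s : GQ) hs

end Fermat.Agent.S33.M1
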