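import Fermat.Agent.S33.Geo.Defs
import Fermat.Agent.S33.Rat.Api
import Fermat.Agent.S33.Ser.NormU
import Fermat.Agent.S33.Val.Binom
import Fermat.Agent.S33.Abs.CechP
import Fermat.Agent.S33.M1.Inst

/-!
# S33/M1 : Theorem G at level `M1` (good reduction at `p = q`)          CONTRACT of the layer `S33/M1` (sub-owner helper15)

`S : Setup M1 q r (AA q)`, `F₁ = FN M1`, `w = wG q M1`, `C_b = KL.C0 (AA q) (S.θ1 b) F₁` (`b : Bool`, the two charts), `al, be = heckeAlphaBar, heckeBetaBar : F₁ → F = FN (M1 q)`,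
`Nm = normAlpha M1 q`, `Tp u = Nm (be u)` (`ES.Alg.Tl`), `ζ` primitive `p`-th root of `1`, `ϖ = ζ - 1`, `e₁ = 1/(p-1)`, `e_p = p/(p-1)`.  `u ~ v` : `PEq p u v`.
`Γ_H = w(Fx Hˣ)`, discrete (`w_of_relIndex`).   Class types: `0` (rep `≡ 1 (> 0)`), `μ` (rep `≡ 1 (≥ e_p)`), deep (rep `≡ 1 (> e_p)`).

## Plan (every step has been checked; (D1), Cartier are NOT needed)
(1) [II₁] `PDiv p u`, `u ≡ 1 (>0)` ⟹ for each chart `b` there is `f ≡ 1 (>0)` with `f^p u ∈ C_b`.   NORM TRICK: `M.exists_II` (layer M, from `S34.T.T1`) for `al u` gives `f_M ≡ 1` on both components,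
    `f_M^p al(u) ∈ C_b(M)`; `f := Nm(f_M) u`: `f^p u = Nm(f_M^p al u)` (`Nm (al u) = u^(p+1)`), `Nm` maps `C_b(M)` into `C_b` (norm of an integral element; `S.θM b = al (S.θ1 b)`), `Nm f_M ≡ 1` (`GT_normAlpha_sub_one`).
(2) [PM₁] `x ∈ Vinf`, `y ∈ C_b`, `x^p ≡ y (>0)` or `x^p - x ≡ y (>0)` ⟹ `∃ d ∈ C_b, x ≡ d (>0)`   (`S34.Mod.normal1`).
(3) [INT₁] `x ∈ Vinf`, `x ≡ d₀ ∈ C_false`, `x ≡ d₁ ∈ C_true (>0)` ⟹ `x ≡ a (>0)`, `a ∈ A` a constant   (`C̄₀ ∩ C̄₁ = k`; cf. `S37/BrInter.inter_Cbar`: the minimal polynomial of `x̄` over `k(τ̄)` has coefficients in `k[τ̄] ∩ k[τ̄⁻¹] = k`).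
(4) [RI₁] rational improvement.  `H ≤ Iq q` of finite index, `u, f ∈ ratF M1 H`, `f^p u ∈ C_b`, `w(f - 1) = s > 0`, `s < e₁`, `p s < w(u - 1)` ⟹ there is a rational `f'` with `f'^p u ∈ C_b`, `w(f' - 1) > s`.
    [`f = 1 + b g`, `b ∈ Fx H`, `w b = s` (`wG_rat`); `γ = f^p u ≡ 1 + b^p g^p (> p s)` (`GE_one_add_pow`), `(γ - 1)/b^p ∈ C_b` (`mem_C0_of_jj_mul`), (2): `g ≡ d ∈ C_b`; `exists_rat_approx` with `Λ = Kb · C_b = B0`: `d` rational; `f' = f (1 - b d)`.]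
    By discreteness: there is a rational `f` with `w(f - 1) ≥ e₁` or `p w(f-1) ≥ w(u - 1)`.   A first rational `f ≡ 1`: (1) + `exists_rat_approx` with `Λ = {f | f^p u ∈ B0}` (`S34.T.II`-argument for `add_mem`).
(5) [R1] `u ∈ ratF M1 H`, `PDiv p u`, `w(u - 1) = t`, `0 < t < e_p`, `t ∉ p Γ_H` ⟹ `∃ a ∈ Fx H`, `w(u (1 + a)⁻¹ - 1) > t`, `w a = t`  (and `1 + a` is a `p`-th power in `Kb`).
    [(4): `p w(f_b - 1) > t` or `w(f_b - 1) ≥ e₁`; in both cases `f_b^p ≡ 1 (> t)`; `u = 1 + c x`, `c ∈ Fx H`; `(f_b^p u - 1)/c ∈ C_b` is `≡ x`; (3): `x ≡ a₀ ∈ A`; `exists_fixed_congr`.]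
(6) [μ-crit] `H = Iq q` or `stab (Iq q) ζ` (index `≤ p - 1`, so `p Γ_H ∩ (0, e_p) = ∅`): a class of type `0`, `PDiv`, fixed by `H`, is of type `μ`.   [`exists_rat_rep_one`, then (5) + discreteness.]
(7) [KLp] `PDiv p u`, `u ≡ 1 (> e_p)` ⟹ `u = g^p`.   [`u, f_b` rational over some `H`; (4): `f_b = 1 + ϖ f'`; `f_b^p u ≡ 1 + ϖ^p (f'^p - f') (> e_p)` (`GT_one_add_pi_pow`); (2): `f' ≡ d ∈ C_b`; `f_b (1 - ϖ d) ≡ 1 (> e₁)`; `cech_p` with `ONB.ofGoodRed`, `fgBar1`.]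
(8) [μ-inertia] `PDiv p u`, `u ≡ 1 (≥ e_p)`, `σ ∈ Iq q`, `Cyc p σ c` ⟹ `gal σ u ~ u^c`.   [`u = 1 + ϖ^p x`; `σ(ϖ)^p ≡ c^p ϖ^p ≡ c ϖ^p`, `gal σ x ≡ x`; so `gal σ u / u^c ≡ 1 (> e_p)`; (7).]
(9) `Tp`: multiplicative, commutes with `gal`, preserves `PDiv`, `ratF`.  (a) `u ≡ 1 (t)`, `t > 0` ⟹ `al(Tp u)/be(u) ≡ 1 (min (t + e₁, p t))` (`GE_norm_div` for `x = be u`, `Wq (be u) = al u`).
    (b) [T-raise] `u ∈ ratF M1 H`, `w(u - 1) = t ∈ p Γ_H`, `0 < t < e_p` ⟹ `∃ g ∈ ratF M1 H`, `g ≠ 0`, `w(Tp u · g^p - 1) > t`.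
        [`u = 1 + c x`, `b ∈ Fx H`, `p w b = t`, `b^p = c ε`; `h₀ = e₀ · gal φ⁻¹ x` (`φ` a Frobenius, `S34.Mod.ch4_twist`), `ē₀^p ε̄ = 1`: `ε al(h₀)^p ≡ be(x)` (`resInf_beta`, `pow_char_eq_qExpand`); `h ≡ h₀` rational (`exists_rat_approx`, `Λ = ⊤`);
         `al((1 + b h)^p) ≡ 1 + c be(x) = be u (> t)`; `g = (1 + b h)⁻¹`; `wG_alpha`.]
    (c) [T-inj] `PDiv p u`, `u ≡ 1 (≥ e_p)`, `Tp u = g^p` ⟹ `u = g'^p`.
        [`u = 1 + ϖ^p x`; `al(g)^p ≡ be(u) (> e_p)`; WLOG `g ≡ 1` (`GT_sub_one_of_pow`, multiply by a root of unity is not needed: `ḡ^p = 1 ⟹ ḡ = 1`); `g = 1 + ϖ h` (`GE_sub_one_of_pow`); `be(x) ≡ al(h^p - h)`;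
         `x₁ = gal φ⁻¹ x`: `x̄₁^p = h̄^p - h̄`; `y = h - x₁`: `ȳ^p = h̄`, `x̄₁ = ȳ^p - ȳ`; `y' = gal φ y`: `x ≡ y'^p - y'`; `u (1 + ϖ y')^{-p} ≡ 1 (> e_p)`; (7).]
(10) assembly.  `Z(z)` : `PDiv p z`, `z ~` type `0`, `O1 q z`; stable under `Tp`.
    Claim A: `Z(z)`, `Tp z ~ 1` ⟹ `z ~ 1`.  [`z_σ = gal σ z / z` is of type `0` (`GT_gal_sub`), fixed by `stab (Iq q) ζ` (`O1` with `c = 1`), so `μ` by (6); `Tp z_σ ~ 1`; (9c): `z_σ ~ 1` for all `σ ∈ Iq q`; (6) for `H = Iq q`: `z` is `μ`; (9c).]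
    Claim B: `∃ k`, `Tp^k y` is of type `μ`.  [`y ∈ ratF M1 H`; induction on the discrete depth of rational reps: `t ∉ p Γ_H`: (5); `t ∈ p Γ_H`: (9b).]
    End: `z = Tp^k y`: `gal σ₀ z ~ z^c₀` by (8) and `gal σ₀ z ~ z`; `p ∤ c₀ - 1`; so `z ~ 1`; Claim A `k` times.
-/

set_option autoImplicit false
set_option synthInstance.maxHeartbeats 400000

open HahnSeries ModularCurve AlgebraicCurve Fermat.Agent.S24 Fermat.Agent.S29 Fermat.Agent.S18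
  Fermat.Agent.ES Fermat.Agent.ES.Alg Fermat.Agent.S34.Mod Fermat.Agent.S05 Fermat.Agent.S55.B ExtCitation
open Fermat.Agent.S55 (Dq Iq)

noncomputable section

namespace Fermat.Agent.S33

open Fermat.Agent.S33.M1 (zetaQ zetaQ_spec ctx val_lt_one_iff)

variable {q : Nat.Primes} {M1 r : ℕ} [NeZero M1] [NeZero (q : ℕ)] [NeZero r]

/-- `σ ζ = ζ ^ c` for a primitive root `ζ` implies `Cyc` -/
theorem mainAux_cyc {ζ : Qb} (hζ : IsPrimitiveRoot ζ (q : ℕ)) {σ : GQ} {c : ℕ} (h : σ ζ = ζ ^ c) :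
    Cyc (q : ℕ) σ c := by
  intro μ hμ
  obtain ⟨i, -, rfl⟩ := hζ.eq_pow_of_pow_eq_one hμ
  rw [map_pow, h, ← pow_mul, ← pow_mul, mul_comm]

/-- `y ^ c g ^ p = y h ^ p`, `p ∤ c - 1` ⟹ `y` is a `p`-th power -/
theorem mainAux_root {F : Type*} [Field F] {p : ℕ} (hp : p.Prime) {c : ℕ} (hc : ¬ (p : ℤ) ∣ (c : ℤ) - 1)
    {y g h : F} (hy : y ≠ 0) (hg : g ≠ 0) (e : y ^ c * g ^ p = y * h ^ p) : ∃ k : F, y = k ^ p := by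
  have hcop : IsCoprime ((c : ℤ) - 1) (p : ℤ) :=
    ((Nat.prime_iff_prime_int.mp hp).coprime_iff_not_dvd.mpr hc).symm
  obtain ⟨a, b, hab⟩ := hcop
  have e1 : y ^ ((c : ℤ) - 1) = (h * g⁻¹) ^ p := by
    rw [zpow_sub₀ hy, zpow_natCast, zpow_one, mul_pow, inv_pow]
    field_simp
    rw [e, mul_comm]
  refine ⟨(h * g⁻¹) ^ a * y ^ b, ?_⟩
  have e2 : y = y ^ (a * ((c : ℤ) - 1) + b * (p : ℤ)) := by rw [hab, zpow_one]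
  calc y = y ^ (a * ((c : ℤ) - 1) + b * (p : ℤ)) := e2
    _ = (y ^ ((c : ℤ) - 1)) ^ a * (y ^ b) ^ (p : ℤ) := by
        rw [zpow_add₀ hy, mul_comm a, zpow_mul, zpow_mul]
    _ = ((h * g⁻¹) ^ a * y ^ b) ^ p := by
        have e3 : ((h * g⁻¹) ^ p) ^ a = ((h * g⁻¹) ^ a) ^ p := by
          rw [← zpow_natCast (h * g⁻¹) p, ← zpow_mul, mul_comm (p : ℤ) a, zpow_mul, zpow_natCast]
        rw [e1, zpow_natCast, mul_pow ((h * g⁻¹) ^ a), e3]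

/-- **Theorem G at level `M1`** -/
theorem thmG_M1 (S : Setup M1 (q : ℕ) r (AA q)) (hq2 : (q : ℕ) ≠ 2) {σ₀ : GQ} (hσ₀ : σ₀ ∈ Iq q)
    (hmv : ∃ ζ : Qb, ζ ^ (q : ℕ) = 1 ∧ σ₀ ζ ≠ ζ) (y : FN M1) (hy : PDiv Kb (FN M1) (q : ℕ) y)
    (h0 : (wG q M1).GT (y - 1) 0) (hfix : PEq (q : ℕ) (gal M1 σ₀ y) y) (hO : O1 q y) :
    ∃ g : FN M1, y = g ^ (q : ℕ) := by
  have hζ : IsPrimitiveRoot (zetaQ q) (q : ℕ) := zetaQ_spec q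
  have hy0 : y ≠ 0 := hy.1
  have hgal : ∀ σ : GQ, gal M1 σ y ≠ 0 := fun σ =>
    (map_ne_zero_iff _ (gal M1 σ).injective).mpr hy0
  have key := (ctx S hq2).Gprime (u := y) hy (val_lt_one_iff.mpr h0) (by
    intro s s' c hc
    obtain ⟨h, hh⟩ := hO (s : GQ) s.2 (s' : GQ) s'.2 c (mainAux_cyc hζ hc)
    refine ⟨h, ?_⟩
    show gal M1 (s : GQ) (gal M1 (s' : GQ) y * y⁻¹) = (gal M1 (s' : GQ) y * y⁻¹) ^ c * h ^ (q : ℕ)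
    have h1 := hgal (s : GQ)
    rw [map_mul, map_inv₀, mul_pow, inv_pow]
    field_simp
    rw [hh])
  obtain ⟨c, hc⟩ : ∃ c : ℕ, σ₀ (zetaQ q) = zetaQ q ^ c := by
    have h : (σ₀ (zetaQ q)) ^ (q : ℕ) = 1 := by rw [← map_pow, hζ.pow_eq_one, map_one]
    obtain ⟨i, -, hi⟩ := hζ.eq_pow_of_pow_eq_one h
    exact ⟨i, hi.symm⟩
  obtain ⟨g, hg⟩ := key ⟨σ₀, hσ₀⟩ c hc
  obtain ⟨h, hh⟩ := hfix
  have hg' : gal M1 σ₀ y = y ^ c * g ^ (q : ℕ) := hg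
  have hg0 : g ≠ 0 := by
    rintro rfl
    rw [zero_pow q.2.ne_zero, mul_zero] at hg'
    exact hgal σ₀ hg'
  refine mainAux_root q.2 (c := c) ?_ hy0 hg0 (hg'.symm.trans hh)
  intro hd
  obtain ⟨ζ', hζ', hne⟩ := hmv
  obtain ⟨i, -, rfl⟩ := hζ.eq_pow_of_pow_eq_one hζ'
  apply hne
  have h1 : zetaQ q ^ ((c : ℤ) - 1) = 1 := (hζ.zpow_eq_one_iff_dvd _).mpr hd
  have h2 : zetaQ q ^ c = zetaQ q := by
    have hz0 : zetaQ q ≠ 0 := hζ.ne_zero q.2.ne_zero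
    rw [zpow_sub₀ hz0, zpow_natCast, zpow_one] at h1
    field_simp at h1
    exact h1
  rw [map_pow, hc, h2]

end Fermat.Agent.S33
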