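import Fermat.Agent.S33.M1.Imp

/-!
# S33 / M1 : `μ`-classes : inertia acts by the cyclotomic character, `T_p` is injective
keys `S33/M1-EQV` (~80 lines), `S33/M1-MUEPS` (~200), `S33/M1-TINJ` (~150).   Mathlib only.   `w = X.w`, `ϖ = X.κ X.ϖ`.

## EQV : elementary (`Eqv u u' := ∃ g ≠ 0, u' = u g^p`).  `T g ≠ 0` for `g ≠ 0`: `T g * T g⁻¹ = T 1 = 1`.  `PD_npow` by induction (`PD 1 = PD (κ 1)`).
## `one_add_pow_le` : induction on `c`:  `(1+x)^(c+1) - 1 - (c+1) x = (1 + x) ((1+x)^c - 1 - c x) + c x^2`.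
## MUEPS  (`w (u - 1) ≤ w ϖ^p`, `ρK s ζ = ζ^c`  ⟹  `ρ s u = u^c g^p`)
`y := (u - 1)/ϖ^p`, `w y ≤ 1`, `u = 1 + ϖ^p y`.   `ρ s u = 1 + (κ (ρK s ϖ))^p ρ s y`,  `κ (ρK s ϖ) = κ ζ ^ c - 1 = (1 + ϖ)^c - 1 = ϖ e`, `e := ((1+ϖ)^c - 1)/ϖ`,
`w (e - c) ≤ w ϖ < 1` (`one_add_pow_le` with `x = ϖ`).   `w (e^p - c) < 1`:  `e^p - c^p` is divisible by `e - c` (`sub_dvd_pow_sub_pow` or `sub_pow_lt`), `w e ≤ 1`;
`(c:F)^p - c = p * k` for an integer `k` (`ZMod.pow_card`, `(ZMod.intCast_zmod_eq_zero_iff_dvd …)`, or `Nat.ModEq.pow_totient`…).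
`ρ s u - 1 - c ϖ^p y = ϖ^p [ (e^p - c) ρ s y + c (ρ s y - y) ]`  has `w < w ϖ^p`  (`ρ_val`, `ρ_inert`).
`w (u^c - 1 - c ϖ^p y) ≤ w ϖ^(2p) < w ϖ^p` (`one_add_pow_le`).   So `w (ρ s u - u^c) < w ϖ^p`; `w (u^c) = 1`; `v := ρ s u * (u^c)⁻¹`, `w (v - 1) < w ϖ^p`, `PD v`; `klp`.
## TINJ  (`w (u - 1) ≤ w ϖ^p`, `T u = g^p`  ⟹  `u = g'^p`)
`y` as above.  `T_exp` with `c = X.ϖ^p`:  `w (T u - 1 - ϖ^p (ψ y)^p) < w ϖ^p`.  `y₂ := (T u - 1)/ϖ^p`: `w (y₂ - (ψ y)^p) < 1`, `w y₂ ≤ 1`, `g^p = 1 + ϖ^p y₂`.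
`as_of_pow`: `h`, `w h ≤ 1`, `w (y₂ - (h^p - h)) < 1`.  So `w ((ψ y)^p - h^p + h) < 1`.   `a := ψ y - h`; `sub_pow_lt`: `w (a^p - ((ψ y)^p - h^p)) < 1`; so `w (a^p + h) < 1`,
`w (ψ y - (a - a^p)) < 1`, i.e. with `a' := -a` (`p` odd): `w (ψ y - (a'^p - a')) < 1`.   `h' := ψ.symm a'`: `w (y - (h'^p - h')) < 1` (apply `ψ_val` to `ψ (y - (h'^p - h'))`), `w h' ≤ 1`.
`bin2`: `w ((1 + ϖ h')^p - 1 - ϖ^p (h'^p - h')) < w ϖ^p`, so `w (u - (1 + ϖ h')^p) < w ϖ^p`; `w (1 + ϖ h') = 1`; `v := u * ((1 + ϖ h')^p)⁻¹`, `PD v`, `klp`: `v = g''^p`, `u = (g'' (1 + ϖ h'))^p`.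
-/

set_option autoImplicit false

noncomputable section

namespace Fermat.Agent.S33.M1.Ctx

variable {p : ℕ} {K F G : Type} [Field K] [Field F] [Algebra K F] (X : Ctx p K F G)

/-! ### EQV -/

/-- [S33/M1-EQV] -/
theorem T_ne_zero {g : F} (hg : g ≠ 0) : X.T g ≠ 0 := by
  intro h
  have h1 : X.T g * X.T g⁻¹ = 1 := by rw [← map_mul, mul_inv_cancel₀ hg, map_one]
  rw [h, zero_mul] at h1
  exact zero_ne_one h1

/-- [S33/M1-EQV] -/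
theorem PD_npow {u : F} (hu : X.PD u) (c : ℕ) : X.PD (u ^ c) := by
  induction c with
  | zero =>
    have := X.PD_const 1 one_ne_zero
    rwa [map_one, ← pow_zero u] at this
  | succ c ih => rw [pow_succ]; exact X.PD_mul _ _ ih hu

/-- [S33/M1-EQV] -/
theorem Eqv.refl (u : F) : X.Eqv u u := ⟨1, one_ne_zero, by rw [one_pow, mul_one]⟩

variable {X}

/-- [S33/M1-EQV] -/
theorem Eqv.trans {u u' u'' : F} (h : X.Eqv u u') (h' : X.Eqv u' u'') : X.Eqv u u'' := by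
  obtain ⟨g, hg, rfl⟩ := h
  obtain ⟨g', hg', rfl⟩ := h'
  exact ⟨g * g', mul_ne_zero hg hg', by rw [mul_pow, mul_assoc]⟩

/-- [S33/M1-EQV] -/
theorem Eqv.PD {u u' : F} (h : X.Eqv u u') (hu : X.PD u) : X.PD u' := by
  obtain ⟨g, hg, rfl⟩ := h
  exact X.PD_mul _ _ hu (X.PD_pow g hg)

/-- [S33/M1-EQV] -/
theorem Eqv.T {u u' : F} (h : X.Eqv u u') : X.Eqv (X.T u) (X.T u') := by
  obtain ⟨g, hg, rfl⟩ := h
  exact ⟨X.T g, X.T_ne_zero hg, by rw [map_mul, map_pow]⟩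

/-- [S33/M1-EQV] multiplication by a constant does not change the class -/
theorem Eqv.mul_const (u : F) {a : K} (ha : a ≠ 0) : X.Eqv u (u * X.κ a) := by
  obtain ⟨b, rfl⟩ := X.root a
  have hb : b ≠ 0 := fun h => ha (by rw [h, zero_pow X.hp.ne_zero])
  exact ⟨X.κ b, (map_ne_zero _).mpr hb, by rw [map_pow]⟩

variable (X)

/-- [S33/M1-MUEPS] -/
theorem one_add_pow_le {x : F} (hx : X.w x ≤ 1) (c : ℕ) :
    X.w ((1 + x) ^ c - 1 - (c : F) * x) ≤ X.w x ^ 2 := by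
  have hn : ∀ n : ℕ, X.w (n : F) ≤ 1 := fun n => by
    have : (n : F) ∈ X.w.integer := natCast_mem _ n
    exact this
  induction c with
  | zero => simp
  | succ c ih =>
    have e : (1 + x) ^ (c + 1) - 1 - ((c + 1 : ℕ) : F) * x
        = (1 + x) * ((1 + x) ^ c - 1 - (c : F) * x) + (c : F) * x ^ 2 := by
      push_cast; ring
    rw [e]
    refine (X.w.map_add _ _).trans (max_le ?_ ?_)
    · rw [map_mul]
      have h1 : X.w (1 + x) ≤ 1 := (X.w.map_add _ _).trans (max_le (map_one X.w).le hx)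
      exact (mul_le_of_le_one_left' h1).trans ih
    · rw [map_mul, map_pow]
      exact mul_le_of_le_one_left' (hn c)

/-- aux: `w n ≤ 1` -/
theorem muAux_nat (n : ℕ) : X.w (n : F) ≤ 1 := by
  have : (n : F) ∈ X.w.integer := natCast_mem _ n
  exact this

/-- aux: `w k ≤ 1` -/
theorem muAux_int (n : ℤ) : X.w (n : F) ≤ 1 := by
  have : (n : F) ∈ X.w.integer := intCast_mem _ n
  exact this

/-- aux: `u = 1 + ϖ^p y` -/
theorem muAux_y {u : F} (h : X.w (u - 1) ≤ X.w (X.κ X.ϖ) ^ p) :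
    ∃ y : F, X.w y ≤ 1 ∧ u = 1 + X.κ X.ϖ ^ p * y := by
  have hP0 : X.κ X.ϖ ≠ 0 := (Valuation.ne_zero_iff X.w).mp X.w_ϖ_ne_zero
  refine ⟨(u - 1) / X.κ X.ϖ ^ p, ?_, ?_⟩
  · rw [map_div₀, map_pow]
    exact div_le_one_of_le₀ h zero_le
  · rw [mul_div_cancel₀ _ (pow_ne_zero p hP0)]; ring

/-- aux: `w ϖ ^ p < 1` -/
theorem muAux_pow_lt : X.w (X.κ X.ϖ) ^ p < 1 := pow_lt_one₀ zero_le X.w_ϖ_lt_one X.hp.ne_zero

/-- aux: close elements with `p`-divisible divisors differ by a `p`-th power -/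
theorem muAux_klp {u v : F} (hu : X.PD u) (hv : X.PD v) (hv1 : X.w v = 1)
    (h : X.w (u - v) < X.w (X.κ X.ϖ) ^ p) : ∃ g : F, u = v * g ^ p := by
  have hv0 : v ≠ 0 := X.PD_ne v hv
  have e : u * v⁻¹ - 1 = (u - v) * v⁻¹ := by field_simp
  have h1 : X.w (u * v⁻¹ - 1) < X.w (X.κ X.ϖ) ^ p := by
    rw [e, map_mul, map_inv₀, hv1, inv_one, mul_one]; exact h
  obtain ⟨g, hg⟩ := X.klp (X.PD_mul _ _ hu (X.PD_inv _ hv)) h1
  exact ⟨g, by rw [← hg]; field_simp⟩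

/-- aux: Fermat's little theorem in `F` -/
theorem muAux_fermat (c : ℕ) : X.w ((c : F) ^ p - c) < 1 := by
  haveI : Fact p.Prime := ⟨X.hp⟩
  have h1 : ((c ^ p : ℕ) : ZMod p) = (c : ZMod p) := by
    rw [Nat.cast_pow, ZMod.pow_card]
  have h2 := (ZMod.natCast_eq_natCast_iff _ _ _).mp h1
  obtain ⟨k, hk⟩ := (Nat.modEq_iff_dvd.mp h2)
  have hk' : ((c : F) - (c : F) ^ p) = (p : F) * (k : F) := by
    have := congrArg (fun z : ℤ => (z : F)) hk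
    simpa using this
  have e : (c : F) ^ p - c = (p : F) * (-(k : F)) := by
    rw [mul_neg, ← hk']; ring
  rw [e, map_mul, Valuation.map_neg]
  exact lt_of_le_of_lt (mul_le_of_le_one_right' (X.muAux_int k)) X.wp

/-- [S33/M1-MUEPS] inertia acts on `μ`-classes by the cyclotomic character -/
theorem mu_eps {u : F} (hu : X.PD u) (h : X.w (u - 1) ≤ X.w (X.κ X.ϖ) ^ p) (s : G) (c : ℕ)
    (hc : X.ρK s X.ζ = X.ζ ^ c) : ∃ g : F, X.ρ s u = u ^ c * g ^ p := by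
  obtain ⟨y, hy, rfl⟩ := X.muAux_y h
  have hρP : X.ρ s (X.κ X.ϖ) = (1 + X.κ X.ϖ) ^ c - 1 := by
    rw [X.ρ_alg, Ctx.ϖ, map_sub, hc, map_one, map_sub, map_pow, map_sub, map_one]
    congr 2; ring
  obtain ⟨P, hP⟩ : ∃ P : F, P = X.κ X.ϖ := ⟨_, rfl⟩
  have hP1 : X.w P < 1 := hP ▸ X.w_ϖ_lt_one
  have hPpos : 0 < X.w P := hP ▸ X.binAux_pos_ϖ
  have hP0 : P ≠ 0 := (Valuation.ne_zero_iff X.w).mp hPpos.ne'
  have hPp1 : X.w P ^ p < 1 := hP ▸ X.muAux_pow_lt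
  have hPppos : 0 < X.w P ^ p := pow_pos hPpos p
  rw [← hP] at hρP h hu ⊢
  -- `e`
  obtain ⟨e, he⟩ : ∃ e : F, e = ((1 + P) ^ c - 1) / P := ⟨_, rfl⟩
  have hE : (1 + P) ^ c - 1 = P * e := by rw [he, mul_div_cancel₀ _ hP0]
  have hec : X.w (e - c) < 1 := by
    have h1 := X.one_add_pow_le hP1.le c
    have e1 : e - c = ((1 + P) ^ c - 1 - (c : F) * P) / P := by
      rw [he]; field_simp
    rw [e1, map_div₀]
    refine lt_of_le_of_lt ?_ hP1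
    rw [div_le_iff₀ hPpos, ← sq]
    exact h1
  have hc1 : X.w (c : F) ≤ 1 := X.muAux_nat c
  have he1 : X.w e ≤ 1 := by
    have : e = (e - c) + c := by ring
    rw [this]
    exact (X.w.map_add _ _).trans (max_le hec.le hc1)
  have hepc : X.w (e ^ p - c) < 1 := by
    have h1 := X.sub_pow_lt he1 hc1
    have h2 : X.w ((e - c) ^ p) < 1 := by
      rw [map_pow]; exact pow_lt_one₀ zero_le hec X.hp.ne_zero
    have h3 := X.muAux_fermat c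
    have e1 : e ^ p - c = ((e - c) ^ p - ((e - c) ^ p - (e ^ p - (c : F) ^ p))) + ((c : F) ^ p - c) := by
      ring
    rw [e1]
    exact Valuation.map_add_lt _ (Valuation.map_sub_lt _ h2 h1) h3
  have hρy : X.w (X.ρ s y) ≤ 1 := by rw [X.ρ_val]; exact hy
  -- first estimate
  have hA : X.w (X.ρ s (1 + P ^ p * y) - 1 - (c : F) * (P ^ p * y)) < X.w P ^ p := by
    have e1 : X.ρ s (1 + P ^ p * y) - 1 - (c : F) * (P ^ p * y)
        = P ^ p * ((e ^ p - c) * X.ρ s y + c * (X.ρ s y - y)) := by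
      rw [map_add, map_one, map_mul, map_pow, hρP, hE]; ring
    rw [e1, map_mul, map_pow]
    refine mul_lt_of_lt_one_right hPppos (Valuation.map_add_lt _ ?_ ?_)
    · rw [map_mul]
      exact lt_of_le_of_lt (mul_le_of_le_one_right' hρy) hepc
    · rw [map_mul]
      exact lt_of_le_of_lt (mul_le_of_le_one_left' hc1) (X.ρ_inert s y hy)
  -- second estimate
  have hx : X.w (P ^ p * y) ≤ X.w P ^ p := by
    rw [map_mul, map_pow]; exact mul_le_of_le_one_right' hy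
  have hB : X.w ((1 + P ^ p * y) ^ c - 1 - (c : F) * (P ^ p * y)) < X.w P ^ p := by
    refine lt_of_le_of_lt (X.one_add_pow_le (hx.trans hPp1.le) c) ?_
    refine lt_of_le_of_lt (pow_le_pow_left₀ zero_le hx 2) ?_
    rw [sq]
    exact mul_lt_of_lt_one_right hPppos hPp1
  have hAB : X.w (X.ρ s (1 + P ^ p * y) - (1 + P ^ p * y) ^ c) < X.w P ^ p := by
    have e1 : X.ρ s (1 + P ^ p * y) - (1 + P ^ p * y) ^ c
        = (X.ρ s (1 + P ^ p * y) - 1 - (c : F) * (P ^ p * y))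
          - ((1 + P ^ p * y) ^ c - 1 - (c : F) * (P ^ p * y)) := by ring
    rw [e1]
    exact Valuation.map_sub_lt _ hA hB
  have hu1 : X.w (1 + P ^ p * y) = 1 := Valuation.map_one_add_of_lt X.w (lt_of_le_of_lt hx hPp1)
  have huc : X.w ((1 + P ^ p * y) ^ c) = 1 := by rw [map_pow, hu1, one_pow]
  subst hP
  exact X.muAux_klp (X.ρ_PD s _ hu) (X.PD_npow hu c) huc hAB

/-- [S33/M1-TINJ] `T_p` is injective on `μ`-classes -/
theorem t_inj {u : F} (hu : X.PD u) (h : X.w (u - 1) ≤ X.w (X.κ X.ϖ) ^ p)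
    (hT : ∃ g : F, X.T u = g ^ p) : ∃ g : F, u = g ^ p := by
  obtain ⟨g, hg⟩ := hT
  have hκ0 : X.κ X.ϖ ≠ 0 := (Valuation.ne_zero_iff _).mp X.w_ϖ_ne_zero
  have hκp0 : X.κ X.ϖ ^ p ≠ 0 := pow_ne_zero _ hκ0
  have hposp : 0 < X.w (X.κ X.ϖ) ^ p := zero_lt_iff.mpr (pow_ne_zero _ X.w_ϖ_ne_zero)
  have hlt1 : X.w (X.κ X.ϖ) ^ p < 1 := pow_lt_one₀ zero_le' X.w_ϖ_lt_one X.hp.ne_zero
  obtain ⟨y, hy⟩ : ∃ y : F, y = (u - 1) / X.κ X.ϖ ^ p := ⟨_, rfl⟩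
  have huy : u = 1 + X.κ X.ϖ ^ p * y := by rw [hy]; field_simp; ring
  have hwy : X.w y ≤ 1 := by
    rw [hy, map_div₀, map_pow]; exact (div_le_one₀ hposp).mpr h
  have hwψy : X.w (X.ψ y) ≤ 1 := by rw [X.ψ_val]; exact hwy
  have hTe := X.T_exp (X.ϖ ^ p) y (pow_ne_zero _ X.ϖ_ne_zero)
    (by rw [map_pow, map_pow]; exact hlt1) hwy
  rw [map_pow (algebraMap K F), ← huy, map_pow X.V.valuation] at hTe
  obtain ⟨y₂, hy₂⟩ : ∃ y₂ : F, y₂ = (X.T u - 1) / X.κ X.ϖ ^ p := ⟨_, rfl⟩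
  have hTy₂ : X.T u = 1 + X.κ X.ϖ ^ p * y₂ := by rw [hy₂]; field_simp; ring
  have h1 : X.w (y₂ - X.ψ y ^ p) < 1 := by
    have e : y₂ - X.ψ y ^ p = (X.T u - 1 - X.κ X.ϖ ^ p * X.ψ y ^ p) / X.κ X.ϖ ^ p := by
      rw [hy₂]; field_simp
    rw [e, map_div₀, map_pow]
    exact (div_lt_one₀ hposp).mpr hTe
  have hwy₂ : X.w y₂ ≤ 1 := by
    have e : y₂ = (y₂ - X.ψ y ^ p) + X.ψ y ^ p := by ring
    rw [e]
    refine (X.w.map_add _ _).trans (max_le h1.le ?_)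
    rw [map_pow]; exact pow_le_one₀ zero_le' hwψy
  obtain ⟨k, hk1, hk⟩ := X.as_of_pow hwy₂ (hg ▸ hTy₂)
  have h2 : X.w (X.ψ y ^ p - k ^ p + k) < 1 := by
    have e : X.ψ y ^ p - k ^ p + k = (y₂ - (k ^ p - k)) - (y₂ - X.ψ y ^ p) := by ring
    rw [e]
    exact (X.w.map_sub _ _).trans_lt (max_lt hk h1)
  have h3 := X.sub_pow_lt hwψy hk1
  obtain ⟨a, ha⟩ : ∃ a : F, a = X.ψ y - k := ⟨_, rfl⟩
  rw [← ha] at h3
  have hwa : X.w a ≤ 1 := by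
    rw [ha]; exact (X.w.map_sub _ _).trans (max_le hwψy hk1)
  have h4 : X.w (X.ψ y - ((-a) ^ p - (-a))) < 1 := by
    have e : X.ψ y - ((-a) ^ p - (-a)) =
        (a ^ p - (X.ψ y ^ p - k ^ p)) + (X.ψ y ^ p - k ^ p + k) := by
      rw [(X.hp.odd_of_ne_two X.hp2).neg_pow, ha]; ring
    rw [e]
    exact (X.w.map_add _ _).trans_lt (max_lt h3 h2)
  obtain ⟨h', hh'⟩ : ∃ h' : F, h' = X.ψ.symm (-a) := ⟨_, rfl⟩
  have hψh' : X.ψ h' = -a := by rw [hh', RingEquiv.apply_symm_apply]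
  have hwh' : X.w h' ≤ 1 := by
    rw [← X.ψ_val, hψh', Valuation.map_neg]; exact hwa
  have h5 : X.w (y - (h' ^ p - h')) < 1 := by
    rw [← X.ψ_val, map_sub X.ψ, map_sub X.ψ, map_pow X.ψ, hψh']; exact h4
  have h6 := X.bin2 hwh'
  have h7 : X.w (u - (1 + X.κ X.ϖ * h') ^ p) < X.w (X.κ X.ϖ) ^ p := by
    have e : u - (1 + X.κ X.ϖ * h') ^ p = X.κ X.ϖ ^ p * (y - (h' ^ p - h')) -
        ((1 + X.κ X.ϖ * h') ^ p - 1 - X.κ X.ϖ ^ p * (h' ^ p - h')) := by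
      rw [huy]; ring
    rw [e]
    refine (X.w.map_sub _ _).trans_lt (max_lt ?_ h6)
    rw [map_mul, map_pow]
    exact mul_lt_of_lt_one_right hposp h5
  have hw1 : X.w (1 + X.κ X.ϖ * h') = 1 := by
    apply Valuation.map_one_add_of_lt
    rw [map_mul]
    exact (mul_le_of_le_one_right' hwh').trans_lt X.w_ϖ_lt_one
  have hne : 1 + X.κ X.ϖ * h' ≠ 0 := by
    intro h0
    rw [h0, map_zero] at hw1
    exact zero_ne_one hw1
  have hPD : X.PD (u * ((1 + X.κ X.ϖ * h') ^ p)⁻¹) :=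
    X.PD_mul _ _ hu (X.PD_inv _ (X.PD_pow _ hne))
  obtain ⟨g'', hg''⟩ := X.klp hPD (by
    have e : u * ((1 + X.κ X.ϖ * h') ^ p)⁻¹ - 1 =
        (u - (1 + X.κ X.ϖ * h') ^ p) * ((1 + X.κ X.ϖ * h') ^ p)⁻¹ := by
      field_simp
    rw [e, map_mul, map_inv₀, map_pow X.w (1 + _), hw1, one_pow, inv_one, mul_one]
    exact h7)
  refine ⟨g'' * (1 + X.κ X.ϖ * h'), ?_⟩
  rw [mul_pow, ← hg'']
  field_simp

end Fermat.Agent.S33.M1.Ctx
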