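import Fermat.Agent.S33.M1.Ctx
import Fermat.Agent.S33.Abs.ASPoly

/-!
# S33 / M1 : `p = - ϖ^(p-1) (1 + small)`        key `S33/M1-PI`  (Mathlib only, ~150 lines)

`v` a valuation on a field `K`, `v p < 1`, `ζ` a primitive `p`-th root of unity, `p` odd, `ϖ = ζ - 1`.

## Proof of `pi_lemma`
(0) `v ζ = 1` (`ζ^p = 1`, `Valuation.map_pow`, `pow_eq_one_iff`), so `v x ≤ 1` for every `x` in the subring generated by `ζ`; `v ϖ ≤ 1`.
(1) `p = ∏_{i=1}^{p-1} (1 - ζ^i)`   [`Polynomial.cyclotomic_prime`/`Polynomial.eval_one_cyclotomic_prime` + `Polynomial.cyclotomic_eq_prod_X_sub_primitiveRoots`,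
    or: `∑_{i<p} X^i = ∏_{i=1}^{p-1} (X - ζ^i)` (`IsPrimitiveRoot.…`, `X_pow_sub_one_eq_prod`, `nthRoots`), evaluate at `1`;
    Mathlib: `IsPrimitiveRoot.pow_sub_pow_eq_prod_sub_zeta_runs_mul`, `IsPrimitiveRoot.sub_one_norm…` may help].
(2) `1 - ζ^i = -ϖ (1 + ζ + … + ζ^(i-1))` (`Commute.geom_sum…`/`mul_geom_sum`) and `1 + ζ + … + ζ^(i-1) = i + ϖ a_i`, `v a_i ≤ 1` (each `ζ^j - 1` is divisible by `ϖ`).
(3) so `p = (-ϖ)^(p-1) ((p-1)! + ϖ b) = ϖ^(p-1) ((p-1)! + ϖ b)`, `v b ≤ 1` (`p - 1` even); Wilson (`ZMod.wilsons_lemma`): `(p-1)! = -1 + p k`.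
(4) `v ϖ < 1`: otherwise `v ϖ = 1`; from `(1 + ϖ)^p = 1`: `ϖ^p = - ∑_{0<i<p} C(p,i) ϖ^i` has `v ≤ v p < 1`.  (or use (3): if `v ϖ = 1` …; the first argument is simpler.)
(5) `v((p-1)! + ϖ b) = v(-1 + (p k + ϖ b)) = 1`, so `v p = v ϖ ^ (p-1)`;  `p + ϖ^(p-1) = ϖ^(p-1) (p k + ϖ b)` has `v < v ϖ^(p-1) = v p`.
-/

set_option autoImplicit false

noncomputable section

namespace Fermat.Agent.S33.M1

/-- [S33/M1-PI] -/
theorem pi_lemma {K Γ : Type*} [Field K] [LinearOrderedCommGroupWithZero Γ] (v : Valuation K Γ)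
    (p : ℕ) (hp : p.Prime) (hp2 : p ≠ 2) (ζ : K) (hζ : IsPrimitiveRoot ζ p) (hv : v (p : K) < 1) :
    v (ζ - 1) < 1 ∧ v (ζ - 1) ^ (p - 1) = v (p : K) ∧ v ((p : K) + (ζ - 1) ^ (p - 1)) < v (p : K) := by
  obtain ⟨ϖ, hϖ⟩ : ∃ ϖ : K, ϖ = ζ - 1 := ⟨_, rfl⟩
  rw [← hϖ]
  have h1 : (1 + ϖ) ^ p = 1 := by rw [hϖ, add_sub_cancel, hζ.pow_eq_one]
  have hϖ0 : ϖ ≠ 0 := by
    intro h0
    have h2 : ζ = 1 := sub_eq_zero.mp (hϖ ▸ h0)
    rw [h2] at hζ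
    exact hp.one_lt.ne' (hζ.unique IsPrimitiveRoot.one)
  have hvζ : v ζ = 1 := by
    have := congrArg v hζ.pow_eq_one
    rw [map_pow, map_one] at this
    exact (pow_eq_one_iff.mp this).resolve_right hp.ne_zero
  have hvϖ : v ϖ ≤ 1 := by
    rw [hϖ]
    refine (v.map_sub ζ 1).trans ?_
    rw [hvζ, map_one, max_self]
  have hQ : v (asQ p ϖ) ≤ 1 := asQ_mem v.integer p hvϖ
  have hQ' : v (asQ' p ϖ) ≤ 1 := asQ'_mem v.integer p hvϖ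
  have hpow := as_pi_pow hp h1
  have hp0 : (p : K) ≠ 0 := by
    intro h0
    rw [h0, zero_mul, zero_mul, neg_zero] at hpow
    exact hϖ0 (pow_eq_zero_iff hp.ne_zero |>.mp hpow)
  have hvp0 : 0 < v (p : K) := zero_lt_iff.mpr ((Valuation.ne_zero_iff v).mpr hp0)
  have hlt : v ϖ < 1 := by
    by_contra hcon
    have h2 : v ϖ = 1 := le_antisymm hvϖ (not_lt.mp hcon)
    have h3 := congrArg v hpow
    rw [map_pow, h2, one_pow, Valuation.map_neg, map_mul, map_mul, h2, mul_one] at h3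
    have h4 : v (p : K) * v (asQ p ϖ) ≤ v (p : K) := mul_le_of_le_one_right' hQ
    rw [← h3] at h4
    exact absurd hv (not_lt.mpr h4)
  have hpow' : ϖ ^ (p - 1) = -((p : K) * asQ p ϖ) := by
    apply mul_left_cancel₀ hϖ0
    rw [← pow_succ', show p - 1 + 1 = p by have := hp.pos; omega, hpow]
    ring
  have hQ1 : v (asQ p ϖ) = 1 := by
    rw [asQ_eq hp]
    apply Valuation.map_one_add_of_lt
    rw [map_mul]
    exact lt_of_le_of_lt (mul_le_of_le_one_right' hQ') hlt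
  refine ⟨hlt, ?_, ?_⟩
  · rw [← map_pow, hpow', Valuation.map_neg, map_mul, hQ1, mul_one]
  · have e : (p : K) + ϖ ^ (p - 1) = -((p : K) * (ϖ * asQ' p ϖ)) := by
      rw [hpow', asQ_eq hp]; ring
    rw [e, Valuation.map_neg, map_mul, map_mul]
    exact mul_lt_of_lt_one_right hvp0 (lt_of_le_of_lt (mul_le_of_le_one_right' hQ') hlt)

namespace Ctx

variable {p : ℕ} {K F G : Type} [Field K] [Field F] [Algebra K F] (X : Ctx p K F G)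

theorem isPrimitiveRoot_κ : IsPrimitiveRoot (X.κ X.ζ) p :=
  X.hζ.map_of_injective (algebraMap K F).injective

theorem κ_ϖ : X.κ X.ϖ = X.κ X.ζ - 1 := by
  rw [Ctx.ϖ, map_sub, map_one]

theorem w_ϖ_lt_one : X.w (X.κ X.ϖ) < 1 := by
  rw [κ_ϖ]
  exact (pi_lemma X.w p X.hp X.hp2 _ X.isPrimitiveRoot_κ X.wp).1

theorem w_ϖ_pow : X.w (X.κ X.ϖ) ^ (p - 1) = X.w (p : F) := by
  rw [κ_ϖ]
  exact (pi_lemma X.w p X.hp X.hp2 _ X.isPrimitiveRoot_κ X.wp).2.1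

theorem w_p_add : X.w ((p : F) + X.κ X.ϖ ^ (p - 1)) < X.w (p : F) := by
  rw [κ_ϖ]
  exact (pi_lemma X.w p X.hp X.hp2 _ X.isPrimitiveRoot_κ X.wp).2.2

theorem ϖ_ne_zero : X.ϖ ≠ 0 := by
  intro h
  have h1 : X.ζ = 1 := sub_eq_zero.mp h
  have h2 := X.hζ
  rw [h1] at h2
  exact X.hp.one_lt.ne' (h2.unique IsPrimitiveRoot.one)

theorem w_ϖ_ne_zero : X.w (X.κ X.ϖ) ≠ 0 := by
  rw [Valuation.ne_zero_iff]
  exact (map_ne_zero_iff _ (algebraMap K F).injective).mpr X.ϖ_ne_zero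

theorem w_p_ne_zero : X.w (p : F) ≠ 0 := by
  rw [← X.w_ϖ_pow]
  exact pow_ne_zero _ X.w_ϖ_ne_zero

end Ctx

end Fermat.Agent.S33.M1
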