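import Fermat.Agent.S33.M1.Mu

/-!
# S33 / M1 : the rational dichotomy (R);  classes fixed by `G1` are `μ`-classes
keys `S33/M1-RLOC` (~120 lines), `S33/M1-RDICH` (~200), `S33/M1-FIXMU-a` (~120), `S33/M1-FIXMU-b` (~120).   Mathlib only.  `w = X.w`, `ϖ = X.κ X.ϖ`.

## RLOC  (`u` `H`-rational, `PD u`, `w ϖ^p < w (u-1) < 1`  ⟹  rational `f`, `f^p u ∈ C b`, `w (f-1) < 1`, `w (f-1)^p ≤ w (u-1)`)
`PD_loc` + `lift_II` (`w u = 1`) give a rational `f₀`.  `X.unif H`: `π`; `u - 1` rational `≠ 0`: `w (u-1) = w (κ π)^n`, `n ≥ 1`.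
`descent (γ := w (κ π)) (P := fun f => Rat H f ∧ f^p u ∈ C b ∧ w (f-1) < 1) (Stop := fun f => w (f-1)^p ≤ w (u-1)) (val := fun f => w (f-1)) … (N := n)`:
`hN`: `w (f-1) ≤ γ^n ⟹ w (f-1)^p ≤ w (f-1) ≤ γ^n`.   `step` = `step1`: `¬ Stop` is `h3`; `h2`: `w ϖ^p < w (u-1) < w (f-1)^p` (`lt_of_pow_lt_pow_left₀`).
## RDICH
`rloc` for `b = false, true`: `f₀, f₁`.  If `w (f_b - 1)^p = w (u-1)` for some `b`: `exists_const` for `f_b - 1` (`≠ 0`): first alternative.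
Otherwise `w (f_b - 1)^p < w (u-1)` for both.  `exists_const` for `u - 1`: `c` rational, `w (κ c) = w (u-1)`.  `y := (u-1)/κ c`, `w y = 1`.
`w (f_b^p - 1) < w (κ c)`: `bin_le` with `x = f_b - 1`; `w p * w x`: if `w x ≤ w ϖ` it is `≤ w ϖ^(p-1) w ϖ = w ϖ^p < w (κ c)`; if `w ϖ < w x` it is `< w x^(p-1) w x = w x^p < w (κ c)`.
`c_b := f_b^p u ∈ C b`, `c_b - u = (f_b^p - 1) u`, `e_b := (c_b - 1)/κ c`: `w (e_b - y) < 1`, `w e_b ≤ 1`, `e_b ∈ C b` (`C_sat`).  `w (e₀ - e₁) < 1`; `C_glob`: `a₀`, `w (e₀ - κ a₀) < 1`, `w (κ a₀) ≤ 1`;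
`lift_K`: `a₁` rational.  `w (y - κ a₁) < 1`.   `a := 1 - c a₁`: rational, `w (κ a) = 1` so `a ≠ 0`;  `u κ a - 1 = κ c (y - κ a₁) - (κ c)^2 y κ a₁`.
## FIXMU-a  (a `G1`-rational representative `≡ 1`)
`h90 G1 adm1 u`: `h ≠ 0`, `u₁ = u h^p` rational.  `unif1`: `w u₁ = w ϖ^n`.  `X.root (X.ϖ^n)` (`zpow`): `e^p = ϖ^n`.  `g := h / κ e`, `u₃ := u g^p = u₁ / κ (ϖ^n)`: rational (`ratK_ϖ`, `RatK.zpow`), `w u₃ = 1`, `w u = 1`, so `w g = 1`.
`lift_V adm1` for `g`: `g₁` rational, `w (g₁ - g) < 1`, `w g₁ = 1`.  `u₄ := u₃ / g₁^p = u (g/g₁)^p`; `w (g/g₁ - 1) < 1`, so `w ((g/g₁)^p - 1) < 1`, `w (u₄ - 1) < 1`.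
## FIXMU-b
`descent (γ := w ϖ) (P := fun u' => Eqv u u' ∧ Rat G1 u' ∧ w (u' - 1) < 1) (Stop := fun u' => w (u'-1) ≤ w ϖ^p) (val := fun u' => w (u'-1)) (unif1) (N := p)`.
`step`: `rdich adm1 subset_rfl` for `u'` (`PD u'` by `Eqv.PD`).  First alternative: `d` rational, `w (κ d)^p = w (u'-1)`; `unif1` for `κ d`: `w (κ d) = w ϖ^j`, so `w ϖ^p < w ϖ^(p j) < 1`, `0 < p j < p`: impossible.
Second alternative: `u' κ a` (`Eqv.mul_const`, `Eqv.trans`).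
-/

set_option autoImplicit false

noncomputable section

namespace Fermat.Agent.S33.M1.Ctx

variable {p : ℕ} {K F G : Type} [Field K] [Field F] [Algebra K F] (X : Ctx p K F G)

theorem rdAux_w_eq_one {u : F} (h1 : X.w (u - 1) < 1) : X.w u = 1 := by
  have := Valuation.map_one_add_of_lt (v := X.w) h1
  rwa [add_sub_cancel] at this

/-- [S33/M1-RLOC] -/
theorem rloc {H : Set G} (hH : X.Adm H) {u : F} (hu : X.PD u) (hr : X.Rat H u)
    (h1 : X.w (u - 1) < 1) (h2 : X.w (X.κ X.ϖ) ^ p < X.w (u - 1)) (b : Bool) :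
    ∃ f : F, X.Rat H f ∧ f ^ p * u ∈ X.C b ∧ X.w (f - 1) < 1 ∧ X.w (f - 1) ^ p ≤ X.w (u - 1) := by
  have hu1 : X.w u = 1 := X.rdAux_w_eq_one h1
  obtain ⟨f, hf1, hfu⟩ := X.PD_loc u hu h1 b
  obtain ⟨f₀, hf₀r, hf₀u, hf₀1⟩ := X.lift_II hH hr hu1 hfu hf1
  obtain ⟨π, hπ0, hπ1, hπr, hval⟩ := X.unif H hH
  have hne : u - 1 ≠ 0 := by
    intro h0
    rw [h0, map_zero] at h2
    exact not_lt_zero h2
  obtain ⟨n, hn⟩ := hval (u - 1) (Rat.sub hr Rat.one) hne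
  have hπne : X.w (X.κ π) ≠ 0 := by
    rw [Valuation.ne_zero_iff]
    exact (map_ne_zero_iff _ (algebraMap K F).injective).mpr hπ0
  obtain ⟨f', ⟨a1, a2, a3⟩, a4⟩ := descent (X.w (X.κ π)) hπ1 hπne
    (fun f : F => X.Rat H f ∧ f ^ p * u ∈ X.C b ∧ X.w (f - 1) < 1)
    (fun f : F => X.w (f - 1) ^ p ≤ X.w (u - 1)) (fun f : F => X.w (f - 1))
    (by
      rintro f ⟨hfr, -, -⟩
      by_cases h0 : f - 1 = 0
      · left; rw [h0, map_zero]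
      · right; exact hval (f - 1) (Rat.sub hfr Rat.one) h0)
    n
    (by
      rintro f ⟨-, -, hf1⟩ hle
      show X.w (f - 1) ^ p ≤ X.w (u - 1)
      rw [hn]
      exact (pow_le_of_le_one zero_le hf1.le X.hp.ne_zero).trans hle)
    (by
      rintro f ⟨hfr, hfu, hf1⟩ hns
      have h3 : X.w (u - 1) < X.w (f - 1) ^ p := not_le.1 hns
      have h4 : X.w (X.κ X.ϖ) < X.w (f - 1) := lt_of_pow_lt_pow_left₀ p zero_le (h2.trans h3)
      obtain ⟨f', b1, b2, b3⟩ := X.step1 hH hfr hfu hf1 h4 h3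
      exact ⟨f', ⟨b1, b2, b3.trans hf1⟩, b3⟩)
    f₀ ⟨hf₀r, hf₀u, hf₀1⟩
  exact ⟨f', a1, a2, a3, a4⟩

theorem rdAux_chart {b : Bool} {u f : F} {c : K} (hc0 : c ≠ 0) (hc : X.w (X.κ c) = X.w (u - 1))
    (h1 : X.w (u - 1) < 1) (h2 : X.w (X.κ X.ϖ) ^ p < X.w (u - 1)) (hfu : f ^ p * u ∈ X.C b)
    (hf1 : X.w (f - 1) < 1) (hlt : X.w (f - 1) ^ p < X.w (u - 1)) :
    (f ^ p * u - 1) / X.κ c ∈ X.C b ∧ X.w ((f ^ p * u - 1) / X.κ c - (u - 1) / X.κ c) < 1 := by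
  have hu1 : X.w u = 1 := X.rdAux_w_eq_one h1
  have hκc : X.κ c ≠ 0 := (map_ne_zero_iff _ (algebraMap K F).injective).mpr hc0
  have hwc : 0 < X.w (X.κ c) := by
    rw [zero_lt_iff, Valuation.ne_zero_iff]; exact hκc
  have hp1 : p - 1 + 1 = p := Nat.sub_add_cancel X.hp.one_le
  have hA : X.w (p : F) * X.w (f - 1) < X.w (u - 1) := by
    rw [← X.w_ϖ_pow]
    rcases le_or_gt (X.w (f - 1)) (X.w (X.κ X.ϖ)) with hle | hgt
    · calc X.w (X.κ X.ϖ) ^ (p - 1) * X.w (f - 1) ≤ X.w (X.κ X.ϖ) ^ (p - 1) * X.w (X.κ X.ϖ) :=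
            mul_le_mul_right hle _
        _ = X.w (X.κ X.ϖ) ^ p := by rw [← pow_succ, hp1]
        _ < _ := h2
    · calc X.w (X.κ X.ϖ) ^ (p - 1) * X.w (f - 1) ≤ X.w (f - 1) ^ (p - 1) * X.w (f - 1) :=
            mul_le_mul_left (pow_le_pow_left₀ zero_le hgt.le _) _
        _ = X.w (f - 1) ^ p := by rw [← pow_succ, hp1]
        _ < _ := hlt
  have hB : X.w (f ^ p - 1) < X.w (X.κ c) := by
    have := X.bin_le (x := f - 1) hf1.le
    rw [add_sub_cancel] at this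
    rw [hc]
    exact lt_of_le_of_lt this (max_lt hA hlt)
  have hC : X.w ((f ^ p * u - 1) / X.κ c - (u - 1) / X.κ c) < 1 := by
    have e : (f ^ p * u - 1) / X.κ c - (u - 1) / X.κ c = (f ^ p - 1) * u / X.κ c := by
      field_simp; ring
    rw [e, map_div₀, map_mul, hu1, mul_one, div_lt_one₀ hwc]
    exact hB
  refine ⟨?_, hC⟩
  apply X.C_sat b c _ hc0
  · have e : (f ^ p * u - 1) / X.κ c =
        ((f ^ p * u - 1) / X.κ c - (u - 1) / X.κ c) + (u - 1) / X.κ c := by ring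
    rw [e]
    refine (Valuation.map_add _ _ _).trans (max_le hC.le ?_)
    rw [map_div₀, ← hc, div_self hwc.ne']
  · have e : algebraMap K F c * ((f ^ p * u - 1) / X.κ c) = f ^ p * u - 1 := by
      field_simp
    rw [e]
    exact sub_mem hfu (one_mem _)

/-- [S33/M1-RDICH] **(R)** the rational dichotomy -/
theorem rdich {H : Set G} (hH : X.Adm H) {u : F} (hu : X.PD u) (hr : X.Rat H u)
    (h1 : X.w (u - 1) < 1) (h2 : X.w (X.κ X.ϖ) ^ p < X.w (u - 1)) :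
    (∃ d : K, X.RatK H d ∧ X.w (X.κ d) ^ p = X.w (u - 1)) ∨
    (∃ a : K, a ≠ 0 ∧ X.RatK H a ∧ X.w (u * X.κ a - 1) < X.w (u - 1)) := by
  have hne : u - 1 ≠ 0 := by
    intro h0
    rw [h0, map_zero] at h2
    exact not_lt_zero h2
  have hfirst : ∀ f : F, X.Rat H f → X.w (f - 1) ^ p = X.w (u - 1) →
      ∃ d : K, X.RatK H d ∧ X.w (X.κ d) ^ p = X.w (u - 1) := by
    intro f hfr hf
    have hf0 : f - 1 ≠ 0 := by
      intro h0
      rw [h0, map_zero, zero_pow X.hp.ne_zero] at hf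
      exact hne ((Valuation.zero_iff _).1 hf.symm)
    obtain ⟨d, -, hd, hd2⟩ := X.exists_const hH (Rat.sub hfr Rat.one) hf0
    exact ⟨d, hd, by rw [hd2, hf]⟩
  obtain ⟨f₀, r0, m0, l0, q0⟩ := X.rloc hH hu hr h1 h2 false
  obtain ⟨f₁, r1, m1, l1, q1⟩ := X.rloc hH hu hr h1 h2 true
  rcases q0.eq_or_lt with q0 | q0
  · exact Or.inl (hfirst f₀ r0 q0)
  rcases q1.eq_or_lt with q1 | q1
  · exact Or.inl (hfirst f₁ r1 q1)
  right
  obtain ⟨c, hc0, hcr, hc⟩ := X.exists_const hH (Rat.sub hr Rat.one) hne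
  obtain ⟨e0m, e0y⟩ := X.rdAux_chart hc0 hc h1 h2 m0 l0 q0
  obtain ⟨e1m, e1y⟩ := X.rdAux_chart hc0 hc h1 h2 m1 l1 q1
  set e₀ := (f₀ ^ p * u - 1) / X.κ c with he₀
  set e₁ := (f₁ ^ p * u - 1) / X.κ c with he₁
  set y := (u - 1) / X.κ c with hy
  have hκc : X.κ c ≠ 0 := (map_ne_zero_iff _ (algebraMap K F).injective).mpr hc0
  have hwc : 0 < X.w (X.κ c) := by
    rw [zero_lt_iff, Valuation.ne_zero_iff]; exact hκc
  have hwc1 : X.w (X.κ c) < 1 := hc ▸ h1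
  have hwy : X.w y = 1 := by rw [hy, map_div₀, ← hc, div_self hwc.ne']
  have h01 : X.w (e₀ - e₁) < 1 := by
    have e : e₀ - e₁ = (e₀ - y) - (e₁ - y) := by ring
    rw [e]
    exact lt_of_le_of_lt (Valuation.map_sub _ _ _) (max_lt e0y e1y)
  obtain ⟨a₀, ha₀⟩ := X.C_glob e₀ e0m e₁ e1m h01
  have ha₀1 : X.w (X.κ a₀) ≤ 1 := by
    have e : X.κ a₀ = e₀ - (e₀ - X.κ a₀) := by ring
    rw [e]
    exact (Valuation.map_sub _ _ _).trans (max_le (X.C_le _ _ e0m) ha₀.le)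
  obtain ⟨a₁, ha₁r, ha₁⟩ := X.lift_K hH ha₀1
  have ha₁1 : X.w (X.κ a₁) ≤ 1 := by
    have e : X.κ a₁ = (X.κ a₁ - X.κ a₀) + X.κ a₀ := by ring
    rw [e]
    exact (Valuation.map_add _ _ _).trans (max_le ha₁.le ha₀1)
  have hya : X.w (y - X.κ a₁) < 1 := by
    have e : y - X.κ a₁ = (e₀ - X.κ a₀) - (e₀ - y) - (X.κ a₁ - X.κ a₀) := by ring
    rw [e]
    exact lt_of_le_of_lt (Valuation.map_sub _ _ _)
      (max_lt (lt_of_le_of_lt (Valuation.map_sub _ _ _) (max_lt ha₀ e0y)) ha₁)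
  have hsmall : X.w (X.κ c * X.κ a₁) < 1 := by
    rw [map_mul]
    exact lt_of_le_of_lt (mul_le_of_le_one_right' ha₁1) hwc1
  have hκa : X.κ (1 - c * a₁) = 1 - X.κ c * X.κ a₁ := by
    rw [map_sub, map_one, map_mul]
  refine ⟨1 - c * a₁, ?_, ?_, ?_⟩
  · intro h0
    have h3 := Valuation.map_one_sub_of_lt (v := X.w) hsmall
    rw [← hκa, h0, map_zero, map_zero] at h3
    exact zero_ne_one h3
  · intro s hs
    rw [map_sub, map_one, map_mul, hcr s hs, ha₁r s hs]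
  · have hu' : u = 1 + X.κ c * y := by
      rw [hy]; field_simp; ring
    have e : u * X.κ (1 - c * a₁) - 1 =
        X.κ c * (y - X.κ a₁) - X.κ c * (X.κ c * (y * X.κ a₁)) := by
      rw [hκa]
      conv_lhs => rw [hu']
      ring
    rw [e, ← hc]
    refine lt_of_le_of_lt (Valuation.map_sub _ _ _) (max_lt ?_ ?_)
    · rw [map_mul]
      calc X.w (X.κ c) * X.w (y - X.κ a₁) < X.w (X.κ c) * 1 :=
            mul_lt_mul_of_pos_left hya hwc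
        _ = _ := mul_one _
    · rw [map_mul]
      have : X.w (X.κ c * (y * X.κ a₁)) < 1 := by
        rw [map_mul, map_mul, hwy, one_mul]
        exact lt_of_le_of_lt (mul_le_of_le_one_right' ha₁1) hwc1
      calc X.w (X.κ c) * X.w (X.κ c * (y * X.κ a₁)) < X.w (X.κ c) * 1 :=
            mul_lt_mul_of_pos_left this hwc
        _ = _ := mul_one _

theorem rdAux_pow_sub_one {t : F} (ht : X.w (t - 1) < 1) (n : ℕ) : X.w (t ^ n - 1) < 1 := by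
  have ht1 : X.w t = 1 := X.rdAux_w_eq_one ht
  induction n with
  | zero => rw [pow_zero, sub_self, map_zero]; exact zero_lt_one
  | succ n ih =>
    have e : t ^ (n + 1) - 1 = t ^ n * (t - 1) + (t ^ n - 1) := by ring
    rw [e]
    refine lt_of_le_of_lt (Valuation.map_add _ _ _) (max_lt ?_ ih)
    rw [map_mul, map_pow, ht1, one_pow, one_mul]
    exact ht

/-- [S33/M1-FIXMU-a] -/
theorem exists_rat_rep {u : F} (hu : X.PD u) (h1 : X.w (u - 1) < 1)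
    (hfix : ∀ s ∈ X.G1, ∃ g : F, X.ρ s u = u * g ^ p) :
    ∃ u' : F, X.Eqv u u' ∧ X.Rat X.G1 u' ∧ X.w (u' - 1) < 1 := by
  have hu0 : u ≠ 0 := X.PD_ne u hu
  have hu1 : X.w u = 1 := X.rdAux_w_eq_one h1
  have hadm : X.Adm X.G1 := X.adm1
  obtain ⟨h, hh0, hh⟩ := X.h90 X.G1 hadm u hu0 hfix
  have hu₁0 : u * h ^ p ≠ 0 := mul_ne_zero hu0 (pow_ne_zero _ hh0)
  obtain ⟨n, hn⟩ := X.unif1 (u * h ^ p) (fun s hs => hh s hs) hu₁0
  obtain ⟨e, he⟩ := X.root (X.ϖ ^ n)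
  have hϖn : X.ϖ ^ n ≠ 0 := zpow_ne_zero _ X.ϖ_ne_zero
  have he0 : e ≠ 0 := by
    intro h0
    rw [h0, zero_pow X.hp.ne_zero] at he
    exact hϖn he.symm
  have hκe : X.κ e ≠ 0 := (map_ne_zero_iff _ (algebraMap K F).injective).mpr he0
  set g := h / X.κ e with hg
  have hg0 : g ≠ 0 := div_ne_zero hh0 hκe
  have e3 : u * g ^ p = u * h ^ p * (X.κ (X.ϖ ^ n))⁻¹ := by
    rw [hg, div_pow, ← map_pow, he]; ring
  have hr3 : X.Rat X.G1 (u * g ^ p) := by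
    rw [e3]
    exact Rat.mul hh (Rat.inv (Rat.κ (RatK.zpow (ratK_ϖ subset_rfl) n)))
  have hw3 : X.w (u * g ^ p) = 1 := by
    rw [e3, map_mul, hn, map_inv₀, map_zpow₀, map_zpow₀]
    exact mul_inv_cancel₀ (zpow_ne_zero _ X.w_ϖ_ne_zero)
  have hwg : X.w g = 1 := by
    rw [map_mul, hu1, one_mul, map_pow] at hw3
    exact (pow_eq_one_iff.1 hw3).resolve_right X.hp.ne_zero
  obtain ⟨g₁, hg₁r, hg₁⟩ := X.lift_V hadm hwg.le
  have hwg₁ : X.w g₁ = 1 := by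
    have e : g₁ = g + (g₁ - g) := by ring
    rw [e, Valuation.map_add_eq_of_lt_left, hwg]
    rw [hwg]; exact hg₁
  have hg₁0 : g₁ ≠ 0 := by
    intro h0
    rw [h0, map_zero] at hwg₁
    exact zero_ne_one hwg₁
  have ht : X.w (g / g₁ - 1) < 1 := by
    have e : g / g₁ - 1 = -(g₁ - g) / g₁ := by field_simp; ring
    rw [e, map_div₀, Valuation.map_neg, hwg₁, div_one]
    exact hg₁
  refine ⟨u * (g / g₁) ^ p, ⟨g / g₁, div_ne_zero hg0 hg₁0, rfl⟩, ?_, ?_⟩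
  · have e : u * (g / g₁) ^ p = u * g ^ p * (g₁ ^ p)⁻¹ := by
      rw [div_pow]; ring
    rw [e]
    exact Rat.mul hr3 (Rat.inv (Rat.pow hg₁r p))
  · have e : u * (g / g₁) ^ p - 1 = u * ((g / g₁) ^ p - 1) + (u - 1) := by ring
    rw [e]
    refine lt_of_le_of_lt (Valuation.map_add _ _ _) (max_lt ?_ h1)
    rw [map_mul, hu1, one_mul]
    exact X.rdAux_pow_sub_one ht p

/-- [S33/M1-FIXMU-b] classes fixed by `G1` are `μ`-classes -/
theorem fix_mu {u : F} (hu : X.PD u) (h1 : X.w (u - 1) < 1)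
    (hfix : ∀ s ∈ X.G1, ∃ g : F, X.ρ s u = u * g ^ p) : X.IsMu u := by
  have hadm : X.Adm X.G1 := X.adm1
  obtain ⟨u₀, hE0, hr0, hl0⟩ := X.exists_rat_rep hu h1 hfix
  have hγ0 : 0 < X.w (X.κ X.ϖ) := zero_lt_iff.2 X.w_ϖ_ne_zero
  obtain ⟨u', ⟨a1, -, -⟩, a4⟩ := descent (X.w (X.κ X.ϖ)) X.w_ϖ_lt_one X.w_ϖ_ne_zero
    (fun u' : F => X.Eqv u u' ∧ X.Rat X.G1 u' ∧ X.w (u' - 1) < 1)
    (fun u' : F => X.w (u' - 1) ≤ X.w (X.κ X.ϖ) ^ p) (fun u' : F => X.w (u' - 1))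
    (by
      rintro u' ⟨-, hr, -⟩
      by_cases h0 : u' - 1 = 0
      · left; rw [h0, map_zero]
      · right; exact X.unif1 (u' - 1) (fun s hs => (Rat.sub hr Rat.one) s hs) h0)
    (p : ℤ)
    (by
      rintro u' - hle
      rwa [zpow_natCast] at hle)
    (by
      rintro u' ⟨hE, hr, hl⟩ hns
      have h2 : X.w (X.κ X.ϖ) ^ p < X.w (u' - 1) := not_le.1 hns
      rcases X.rdich hadm (hE.PD hu) hr hl h2 with ⟨d, hd, hd2⟩ | ⟨a, ha0, har, ha⟩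
      · exfalso
        have hκd : X.κ d ≠ 0 := by
          intro h0
          rw [h0, map_zero, zero_pow X.hp.ne_zero] at hd2
          rw [← hd2] at h2
          exact not_lt_zero h2
        obtain ⟨j, hj⟩ := X.unif1 (X.κ d) (fun s hs => (Rat.κ hd) s hs) hκd
        have hj' : X.w (X.κ d) = X.w (X.κ X.ϖ) ^ j := hj
        rw [← hd2, hj', ← zpow_natCast, ← zpow_natCast, ← zpow_mul,
          zpow_lt_zpow_iff_right_of_lt_one₀ hγ0 X.w_ϖ_lt_one] at h2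
        rw [← hd2, hj', ← zpow_natCast, ← zpow_mul, ← zpow_zero (X.w (X.κ X.ϖ)),
          zpow_lt_zpow_iff_right_of_lt_one₀ hγ0 X.w_ϖ_lt_one] at hl
        have hp0 : (0 : ℤ) < p := by exact_mod_cast X.hp.pos
        have hj1 : 0 < j := by
          by_contra hj0
          have : j * p ≤ 0 := mul_nonpos_of_nonpos_of_nonneg (not_lt.1 hj0) hp0.le
          omega
        have : (1 : ℤ) * p ≤ j * p := mul_le_mul_of_nonneg_right hj1 hp0.le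
        omega
      · exact ⟨u' * X.κ a, ⟨hE.trans (Eqv.mul_const u' ha0), Rat.mul hr (Rat.κ har),
          ha.trans hl⟩, ha⟩)
    u₀ ⟨hE0, hr0, hl0⟩
  exact ⟨u', a1, a4⟩

end Fermat.Agent.S33.M1.Ctx
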